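import Mathlib
import Fermat.Agent.S18.KummerDescent

/-!
# S18, block C1: good-coordinate charts (abstract, Mathlib + `KummerDescent` only)

`R` a discrete valuation ring with uniformiser `π` and fraction field `L`, `F ⊇ L` a field,
`O` a valuation subring of `F` containing `R` with `𝔪_O = π O` (`e = 1`), `τ ∈ Oˣ` with
transcendental residue class (bundled as `GoodCoord π O τ`), and `O` the **unique** valuation
subring of `F` over `O ∩ L(τ)` (`huniq`, in the shape of `KummerDescent` / `UniqueOfResidue`).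

Charts (subrings of `F`): `B0 R τ`, `B1 R τ = B0 R τ⁻¹`, `B01 R τ` = integral closures of
`R[τ]`, `R[τ⁻¹]`, `R[τ, τ⁻¹]` in `F`.

Main results:
* `coeff_minpoly_mem` : under `huniq`, minimal polynomials over `K` of elements of `O` have
  coefficients in `O` (conjugates in an algebraic closure);
* `exists_map_eq_of_mem` : Gauss lemma `L[τ] ∩ O = R[τ]`; `aeval_injective` : `τ` transcendental;
* (M1′) `mem_B0_iff`, `mem_B1_iff`, `mem_B01_iff` : `x ∈ B ↔ x ∈ O ∧ x` integral over `L[..]`;
* (M2) `sat_B0`, `sat_B1`, `sat_B01`; `B01_le`, `B0_le`, `B1_le`, `pi_inv_not_mem_B01`;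
* (M3) `cap` : `B0 ∩ B1 = R` (given `R` integrally closed in `F`);
* (M5) `conn`, `conn'` : connectedness of the special fibre (given that the residue field of `R`
  is algebraically closed in that of `O`, in elementary form);
* (M4) `exists_pow_mul_mem_B0/B1` (`B01 = B0[1/τ] = B1[τ]`), `exists_generators_B0`,
  `exists_finset_span_B0/B1` (finiteness over `R[τ]`, `R[τ⁻¹]`), `exists_fg_H1`,
  `bounded_torsion`, `tor`;
* `rootClosed_B0/B1/B01`, `exists_inv_of_sub_one`, `GoodCoord.inv`.
-/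

open Polynomial IntermediateField

namespace Fermat.Agent.S18.Core.Charts

set_option linter.unusedSectionVars false
set_option linter.style.haveILetI false

/-! ### Conjugates: coefficients of minimal polynomials -/

section Generic

variable {K F : Type*} [Field K] [Field F] [Algebra K F]

/-- If `O` is the unique valuation subring of `F` over `O ∩ K` and `x ∈ O`, then every
`K`-conjugate of `x` (in an algebraic closure) lies in a fixed extension of `O`; hence the
coefficients of the minimal polynomial of `x` over `K` lie in `O`. -/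
theorem coeff_minpoly_mem [Algebra.IsAlgebraic K F] (O : ValuationSubring F)
    (huniq : ∀ O'' : ValuationSubring F,
      O''.comap (algebraMap K F) = O.comap (algebraMap K F) → O'' = O)
    {x : F} (hx : x ∈ O) (i : ℕ) : algebraMap K F ((minpoly K x).coeff i) ∈ O := by
  classical
  let Ω := AlgebraicClosure F
  obtain ⟨V, hV⟩ := KummerDescent.exists_comap_eq (algebraMap F Ω) O
  -- every conjugate of `x` lies in `V`
  have hconj : ∀ ψ : F →ₐ[K] Ω, ψ x ∈ V := by
    intro ψ
    have h1 : (V.comap (ψ : F →+* Ω)).comap (algebraMap K F) = O.comap (algebraMap K F) := by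
      have e1 : ((ψ : F →+* Ω).comp (algebraMap K F)) = (algebraMap F Ω).comp (algebraMap K F) := by
        ext y
        simp [← IsScalarTower.algebraMap_apply]
      rw [ValuationSubring.comap_comap, e1, ← ValuationSubring.comap_comap, hV]
    have h2 := huniq _ h1
    have : x ∈ V.comap (ψ : F →+* Ω) := by rw [h2]; exact hx
    simpa [ValuationSubring.mem_comap] using this
  have hint : IsIntegral K x := Algebra.IsIntegral.isIntegral x
  have hsplit : ((minpoly K x).map (algebraMap K Ω)).Splits :=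
    IsAlgClosed.splits _
  have hroots : ∀ r ∈ ((minpoly K x).map (algebraMap K Ω)).roots, r ∈ V := by
    intro r hr
    have hr' : r ∈ (minpoly K x).rootSet Ω := by
      rw [Polynomial.mem_rootSet]
      refine ⟨minpoly.ne_zero hint, ?_⟩
      have := (Polynomial.mem_roots (Polynomial.map_ne_zero (minpoly.ne_zero hint))).mp hr
      rwa [IsRoot.def, eval_map_algebraMap] at this
    rw [← Algebra.IsAlgebraic.range_eval_eq_rootSet_minpoly] at hr'
    obtain ⟨ψ, rfl⟩ := hr'
    exact hconj ψ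
  have hprod : (minpoly K x).map (algebraMap K Ω) =
      (((minpoly K x).map (algebraMap K Ω)).roots.map fun r => X - C r).prod := by
    have := hsplit.eq_prod_roots
    rw [(minpoly.monic hint).map _ |>.leadingCoeff, C_1, one_mul] at this
    exact this
  have hmem : (minpoly K x).map (algebraMap K Ω) ∈ Polynomial.lifts V.subtype := by
    rw [hprod]
    refine Subsemiring.multiset_prod_mem _ _ ?_
    intro p hp
    obtain ⟨r, hr, rfl⟩ := Multiset.mem_map.mp hp
    refine ⟨X - C ⟨r, hroots r hr⟩, ?_⟩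
    simp
  have hc := (Polynomial.lifts_iff_coeff_lifts _).mp hmem i
  obtain ⟨⟨y, hy⟩, hy'⟩ := hc
  have hy'' : y = algebraMap K Ω ((minpoly K x).coeff i) := by
    simpa using hy'
  have : algebraMap F Ω (algebraMap K F ((minpoly K x).coeff i)) ∈ V := by
    rw [← IsScalarTower.algebraMap_apply, ← hy'']
    exact hy
  rw [← hV, ValuationSubring.mem_comap]
  exact this

end Generic

/-! ### Integrality over `S[τ]` in ring-hom form -/

section PolyAlg

variable {S F : Type*} [CommRing S] [Field F] [Algebra S F]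

/-- `S[X] → S[τ]` -/
noncomputable def toAdjoin (S : Type*) {F : Type*} [CommRing S] [Field F] [Algebra S F] (τ : F) :
    S[X] →+* Algebra.adjoin S {τ} :=
  RingHom.codRestrict ((aeval τ : S[X] →ₐ[S] F) : S[X] →+* F) (Algebra.adjoin S {τ})
    (fun p => by
      rw [Algebra.adjoin_singleton_eq_range_aeval]
      exact ⟨p, rfl⟩)

theorem toAdjoin_surjective (τ : F) : Function.Surjective (toAdjoin S τ) := by
  rintro ⟨y, hy⟩
  rw [Algebra.adjoin_singleton_eq_range_aeval] at hy
  obtain ⟨p, rfl⟩ := hy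
  exact ⟨p, rfl⟩

theorem algebraMap_comp_toAdjoin (τ : F) :
    (algebraMap (Algebra.adjoin S {τ}) F).comp (toAdjoin S τ) =
      ((aeval τ : S[X] →ₐ[S] F) : S[X] →+* F) := rfl

/-- integrality over `S[τ] ⊆ F` in ring-hom form -/
theorem isIntegral_adjoin_iff (τ x : F) :
    IsIntegral (Algebra.adjoin S {τ}) x ↔
      ((aeval τ : S[X] →ₐ[S] F) : S[X] →+* F).IsIntegralElem x := by
  constructor
  · rintro ⟨p, hp, hx⟩
    have hpl : p ∈ Polynomial.lifts (toAdjoin S τ) := by
      rw [Polynomial.lifts_iff_coeff_lifts]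
      intro n
      exact toAdjoin_surjective τ _
    obtain ⟨q, hq, -, hqm⟩ := Polynomial.lifts_and_degree_eq_and_monic hpl hp
    refine ⟨q, hqm, ?_⟩
    rw [← algebraMap_comp_toAdjoin, ← Polynomial.eval₂_map, hq]
    exact hx
  · rintro ⟨q, hq, hx⟩
    refine ⟨q.map (toAdjoin S τ), hq.map _, ?_⟩
    rw [Polynomial.eval₂_map]
    exact hx

end PolyAlg

section FactI

variable {S K F : Type*} [CommRing S] [IsDomain S] [Field K] [Field F] [Algebra S K] [Algebra S F]
  [Algebra K F] [IsScalarTower S K F]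

set_option linter.style.haveILetI false in
/-- If `K = Frac S[τ]` with `τ` transcendental and `S[X]` integrally closed, the minimal
polynomial over `K` of an element integral over `S[τ]` has coefficients in `S[τ]`. -/
theorem coeff_minpoly_eq_aeval [IsIntegrallyClosed S[X]] (τK : K)
    (hinj : Function.Injective (aeval τK : S[X] →ₐ[S] K))
    (hsurj : ∀ z : K, ∃ a b : S[X], z = aeval τK a / aeval τK b)
    {x : F}
    (hx : ((aeval (algebraMap K F τK) : S[X] →ₐ[S] F) : S[X] →+* F).IsIntegralElem x) (i : ℕ) :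
    ∃ p : S[X], (minpoly K x).coeff i = aeval τK p := by
  letI algK : Algebra S[X] K := ((aeval τK : S[X] →ₐ[S] K) : S[X] →+* K).toAlgebra
  letI algF : Algebra S[X] F :=
    ((aeval (algebraMap K F τK) : S[X] →ₐ[S] F) : S[X] →+* F).toAlgebra
  haveI : IsScalarTower S[X] K F := IsScalarTower.of_algebraMap_eq fun p => by
    change aeval (algebraMap K F τK) p = algebraMap K F (aeval τK p)
    rw [Polynomial.aeval_algebraMap_apply]
  haveI : FaithfulSMul S[X] K := (faithfulSMul_iff_algebraMap_injective S[X] K).mpr hinj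
  haveI : IsFractionRing S[X] K := IsFractionRing.of_field S[X] K hsurj
  have hx' : IsIntegral S[X] x := hx
  have h := minpoly.isIntegrallyClosed_eq_field_fractions' K hx'
  refine ⟨(minpoly S[X] x).coeff i, ?_⟩
  rw [h, coeff_map]
  rfl

end FactI

/-! ### The Gauss lemma -/

section Gauss

variable {R L F : Type*} [CommRing R] [IsDomain R] [IsDiscreteValuationRing R]
  [Field L] [Field F] [Algebra R L] [IsFractionRing R L] [Algebra L F] [Algebra R F]
  [IsScalarTower R L F]

/-- The standing hypotheses on a good coordinate `τ` for the valuation subring `O` of `F`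
(`π` a uniformiser of the discrete valuation ring `R`, `e = 1`, `τ` a unit of `O` whose residue
class is transcendental over the residue field of `R`). -/
structure GoodCoord (π : R) (O : ValuationSubring F) (τ : F) : Prop where
  irreducible : Irreducible π
  algebraMap_mem : ∀ r : R, algebraMap R F r ∈ O
  pi_lt : O.valuation (algebraMap R F π) < 1
  exists_eq_mul : ∀ x : F, O.valuation x < 1 → ∃ y ∈ O, x = algebraMap R F π * y
  tau_unit : O.valuation τ = 1
  transc : ∀ p : R[X], O.valuation (aeval τ p) < 1 → ∀ i, π ∣ p.coeff i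

omit [IsScalarTower R L F] [Algebra R F] [Algebra L F] [Field F] in
/-- every element of `L` becomes integral after multiplication by a power of `π` -/
theorem exists_pow_mul_eq {π : R} (hπ : Irreducible π) (c : L) :
    ∃ n : ℕ, ∃ r : R, algebraMap R L π ^ n * c = algebraMap R L r := by
  obtain ⟨a, b, hb, rfl⟩ := IsFractionRing.div_surjective (A := R) c
  have hb0 : b ≠ 0 := nonZeroDivisors.ne_zero hb
  obtain ⟨n, u, hu⟩ := IsDiscreteValuationRing.eq_unit_mul_pow_irreducible hb0 hπ
  refine ⟨n, a * ↑u⁻¹, ?_⟩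
  have hbL : algebraMap R L b ≠ 0 := by
    rwa [Ne, map_eq_zero_iff _ (IsFractionRing.injective R L)]
  rw [mul_div_assoc', eq_comm, eq_div_iff hbL, hu]
  rw [← map_pow, ← map_mul, ← map_mul]
  congr 1
  calc a * ↑u⁻¹ * (↑u * π ^ n) = (↑u⁻¹ * ↑u) * (π ^ n * a) := by ring
    _ = π ^ n * a := by rw [Units.inv_mul, one_mul]

omit [IsScalarTower R L F] [Algebra R F] [Algebra L F] [Field F] in
/-- every polynomial over `L` becomes integral after multiplication by a power of `π` -/
theorem exists_pow_mul_map_eq {π : R} (hπ : Irreducible π) (p : L[X]) :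
    ∃ n : ℕ, ∃ p' : R[X], p'.map (algebraMap R L) = C (algebraMap R L π ^ n) * p := by
  induction p using Polynomial.induction_on' with
  | add p q hp hq =>
    obtain ⟨n₁, p₁, h₁⟩ := hp
    obtain ⟨n₂, p₂, h₂⟩ := hq
    refine ⟨n₁ + n₂, C (π ^ n₂) * p₁ + C (π ^ n₁) * p₂, ?_⟩
    rw [Polynomial.map_add, Polynomial.map_mul, Polynomial.map_mul, h₁, h₂, Polynomial.map_C,
      Polynomial.map_C, map_pow, map_pow, pow_add, C_mul]
    simp only [map_pow]
    ring
  | monomial k c =>
    obtain ⟨n, r, hr⟩ := exists_pow_mul_eq (L := L) hπ c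
    refine ⟨n, monomial k r, ?_⟩
    rw [Polynomial.map_monomial, C_mul_monomial, hr]

/-- **Gauss lemma.**  A polynomial in `τ` over `L` which lies in `O` has coefficients in `R`. -/
theorem exists_map_eq_of_mem {π : R} {O : ValuationSubring F} {τ : F} (h : GoodCoord π O τ)
    (p : L[X]) (hp : aeval τ p ∈ O) : ∃ p' : R[X], p'.map (algebraMap R L) = p := by
  classical
  have hex := exists_pow_mul_map_eq (L := L) h.irreducible p
  have hπL : algebraMap R L π ≠ 0 := by
    rw [Ne, map_eq_zero_iff _ (IsFractionRing.injective R L)]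
    exact h.irreducible.ne_zero
  have hmin := fun m => Nat.find_min hex (m := m)
  obtain ⟨p', hp'⟩ := Nat.find_spec hex
  rcases Nat.eq_zero_or_pos (Nat.find hex) with h0 | hpos
  · refine ⟨p', ?_⟩
    rw [hp', h0, pow_zero, C_1, one_mul]
  · exfalso
    obtain ⟨n, hn⟩ : ∃ n, Nat.find hex = n + 1 := ⟨Nat.find hex - 1, by omega⟩
    rw [hn] at hp'
    have hval : O.valuation (aeval τ p') < 1 := by
      have e1 : aeval τ p' = algebraMap R F π ^ (n + 1) * aeval τ p := by
        rw [← Polynomial.aeval_map_algebraMap L τ p', hp', map_mul, aeval_C, map_pow,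
          ← IsScalarTower.algebraMap_apply]
      rw [e1, map_mul, map_pow]
      have h1 : O.valuation (aeval τ p) ≤ 1 := (ValuationSubring.valuation_le_one_iff _ _).mpr hp
      have h2 : O.valuation (algebraMap R F π) ^ (n + 1) < 1 :=
        pow_lt_one₀ zero_le h.pi_lt (Nat.succ_ne_zero n)
      calc O.valuation (algebraMap R F π) ^ (n + 1) * O.valuation (aeval τ p)
          ≤ O.valuation (algebraMap R F π) ^ (n + 1) * 1 := by gcongr
        _ < 1 := by rwa [mul_one]
    have hdvd : C π ∣ p' := (Polynomial.C_dvd_iff_dvd_coeff _ _).mpr (h.transc p' hval)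
    obtain ⟨p'', rfl⟩ := hdvd
    refine hmin n (by omega) ⟨p'', ?_⟩
    have hC : (C (algebraMap R L π) : L[X]) ≠ 0 := by
      rwa [Ne, C_eq_zero]
    apply mul_left_cancel₀ hC
    rw [Polynomial.map_mul, Polynomial.map_C] at hp'
    rw [hp', pow_succ, C_mul]
    ring

/-- `τ` is transcendental over `L`. -/
theorem aeval_injective {π : R} {O : ValuationSubring F} {τ : F} (h : GoodCoord π O τ) :
    Function.Injective (aeval τ : L[X] →ₐ[L] F) := by
  rw [injective_iff_map_eq_zero]
  intro p hp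
  by_contra hp0
  obtain ⟨i, hi⟩ : ∃ i, p.coeff i ≠ 0 := by
    by_contra hcon
    push Not at hcon
    exact hp0 (Polynomial.ext fun i => by simpa using hcon i)
  have hπL : algebraMap R L π ≠ 0 := by
    rw [Ne, map_eq_zero_iff _ (IsFractionRing.injective R L)]
    exact h.irreducible.ne_zero
  set c : L := (p.coeff i * algebraMap R L π)⁻¹ with hc
  have hmem : aeval τ (C c * p) ∈ O := by
    rw [map_mul, hp, mul_zero]
    exact O.zero_mem
  obtain ⟨p', hp'⟩ := exists_map_eq_of_mem h (C c * p) hmem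
  have h1 : algebraMap R L (p'.coeff i) = (algebraMap R L π)⁻¹ := by
    have := congrArg (fun q => q.coeff i) hp'
    simp only [coeff_map, coeff_C_mul] at this
    rw [this, hc, mul_inv, mul_comm, ← mul_assoc, mul_inv_cancel₀ hi, one_mul]
  have h2 : algebraMap R L (p'.coeff i * π) = 1 := by
    rw [map_mul, h1, inv_mul_cancel₀ hπL]
  have h3 : p'.coeff i * π = 1 := by
    apply IsFractionRing.injective R L
    rw [h2, map_one]
  exact h.irreducible.not_isUnit (IsUnit.of_mul_eq_one _ (by rw [mul_comm]; exact h3))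

end Gauss

section M1

variable {R L F : Type*} [CommRing R] [IsDomain R] [IsDiscreteValuationRing R]
  [Field L] [Field F] [Algebra R L] [IsFractionRing R L] [Algebra L F] [Algebra R F]
  [IsScalarTower R L F]

/-- **(M1′), hard direction.**  An element of `O` integral over `L[τ]` is integral over `R[τ]`. -/
theorem isIntegral_adjoin_of_mem {π : R} {O : ValuationSubring F} {τ : F} (h : GoodCoord π O τ)
    (K : IntermediateField L F) (hK : K = L⟮τ⟯) (halg : Algebra.IsAlgebraic K F)
    (huniq : ∀ O'' : ValuationSubring F,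
      O''.comap (algebraMap K F) = O.comap (algebraMap K F) → O'' = O)
    {x : F} (hxO : x ∈ O) (hx : IsIntegral (Algebra.adjoin L {τ}) x) :
    IsIntegral (Algebra.adjoin R {τ}) x := by
  subst hK
  have hinjF := aeval_injective (L := L) h
  set τK : L⟮τ⟯ := AdjoinSimple.gen L τ with hτK
  have hτ : algebraMap L⟮τ⟯ F τK = τ := AdjoinSimple.algebraMap_gen L τ
  have hinjK : Function.Injective (aeval τK : L[X] →ₐ[L] L⟮τ⟯) := by
    intro a b hab
    apply hinjF
    have := congrArg (algebraMap L⟮τ⟯ F) hab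
    rwa [← Polynomial.aeval_algebraMap_apply, ← Polynomial.aeval_algebraMap_apply, hτ] at this
  have hsurj : ∀ z : L⟮τ⟯, ∃ a b : L[X], z = aeval τK a / aeval τK b := by
    rintro ⟨z, hz⟩
    obtain ⟨r, s, hrs⟩ := (mem_adjoin_simple_iff L z).mp hz
    refine ⟨r, s, ?_⟩
    apply (algebraMap L⟮τ⟯ F).injective
    rw [map_div₀, ← Polynomial.aeval_algebraMap_apply, ← Polynomial.aeval_algebraMap_apply, hτ]
    exact hrs
  have hx' : ((aeval (algebraMap L⟮τ⟯ F τK) : L[X] →ₐ[L] F) : L[X] →+* F).IsIntegralElem x := by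
    rw [hτ]
    exact (isIntegral_adjoin_iff τ x).mp hx
  have hcoef : ∀ i, algebraMap L⟮τ⟯ F ((minpoly L⟮τ⟯ x).coeff i) ∈
      Set.range (algebraMap (Algebra.adjoin R {τ}) F) := by
    intro i
    obtain ⟨p, hp⟩ := coeff_minpoly_eq_aeval (S := L) τK hinjK hsurj hx' i
    have hmem := coeff_minpoly_mem O huniq hxO i
    rw [hp, ← Polynomial.aeval_algebraMap_apply, hτ] at hmem ⊢
    obtain ⟨p', rfl⟩ := exists_map_eq_of_mem h p hmem
    rw [Polynomial.aeval_map_algebraMap]
    exact ⟨toAdjoin R τ p', rfl⟩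
  have hint : IsIntegral L⟮τ⟯ x := Algebra.IsIntegral.isIntegral x
  have hlift : (minpoly L⟮τ⟯ x).map (algebraMap L⟮τ⟯ F) ∈
      Polynomial.lifts (algebraMap (Algebra.adjoin R {τ}) F) := by
    rw [Polynomial.lifts_iff_coeff_lifts]
    intro i
    rw [coeff_map]
    exact hcoef i
  obtain ⟨q, hq, -, hqm⟩ := Polynomial.lifts_and_degree_eq_and_monic hlift
    ((minpoly.monic hint).map _)
  refine ⟨q, hqm, ?_⟩
  rw [← Polynomial.eval_map, hq, Polynomial.eval_map_algebraMap, minpoly.aeval]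

end M1

section Tools

variable {S S' F : Type*} [CommRing S] [CommRing S'] [Field F] [Algebra S F] [Algebra S' F]

/-- integrality is monotone in the (sub)ring of coefficients, across base rings -/
theorem isIntegral_of_le {A : Subalgebra S F} {A' : Subalgebra S' F} (hle : ∀ a ∈ A, a ∈ A')
    {x : F} (hx : IsIntegral A x) : IsIntegral A' x := by
  obtain ⟨p, hp, hpx⟩ := hx
  let g : A →+* A' := RingHom.codRestrict (A.val : A →+* F) A' (fun a => hle a a.2)
  refine ⟨p.map g, hp.map g, ?_⟩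
  rw [Polynomial.eval₂_map]
  exact hpx

/-- valuation subrings are integrally closed -/
theorem mem_of_isIntegral_of_le {A : Subalgebra S F} (V : ValuationSubring F)
    (hle : ∀ a ∈ A, a ∈ V) {x : F} (hx : IsIntegral A x) : x ∈ V := by
  obtain ⟨p, hp, hpx⟩ := hx
  let g : A →+* V := RingHom.codRestrict (A.val : A →+* F) V (fun a => hle a a.2)
  have hV : IsIntegral V x := by
    refine ⟨p.map g, hp.map g, ?_⟩
    rw [Polynomial.eval₂_map]
    exact hpx
  obtain ⟨y, rfl⟩ := (IsIntegrallyClosed.isIntegral_iff (R := V) (K := F)).mp hV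
  exact y.2

/-- an element lying in every valuation subring containing the image of `S` is integral
over `S` -/
theorem isIntegral_of_forall_mem {x : F}
    (h : ∀ V : ValuationSubring F, (∀ r : S, algebraMap S F r ∈ V) → x ∈ V) : IsIntegral S x := by
  have h1 : x ∈ (⨅ V : {V : ValuationSubring F // Set.range (algebraMap S F) ⊆ V.toSubring},
      V.1.toSubring) := by
    rw [Subring.mem_iInf]
    rintro ⟨V, hV⟩
    exact h V fun r => hV ⟨r, rfl⟩
  rw [iInf_valuationSubring_superset] at h1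
  have h2 : IsIntegral (Subring.closure (Set.range (algebraMap S F))) x := h1
  obtain ⟨p, hp, hpx⟩ := h2
  have hcl : Subring.closure (Set.range (algebraMap S F)) = (algebraMap S F).range := by
    rw [← RingHom.coe_range, Subring.closure_eq]
  let g : S →+* Subring.closure (Set.range (algebraMap S F)) :=
    RingHom.codRestrict (algebraMap S F) _ (fun r => Subring.subset_closure ⟨r, rfl⟩)
  have hg : Function.Surjective g := by
    rintro ⟨y, hy⟩
    rw [hcl] at hy
    obtain ⟨r, rfl⟩ := hy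
    exact ⟨r, rfl⟩
  have hpl : p ∈ Polynomial.lifts g := by
    rw [Polynomial.lifts_iff_coeff_lifts]
    intro n
    exact hg _
  obtain ⟨q, hq, -, hqm⟩ := Polynomial.lifts_and_degree_eq_and_monic hpl hp
  refine ⟨q, hqm, ?_⟩
  have : (algebraMap (Subring.closure (Set.range (algebraMap S F))) F).comp g = algebraMap S F := rfl
  rw [← this, ← Polynomial.eval₂_map, hq]
  exact hpx

end Tools

/-! ### The charts -/

section ChartDefs

/-- the chart `{τ ≠ ∞}`: the integral closure of `R[τ]` in `F` -/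
def B0 (R : Type*) {F : Type*} [CommRing R] [Field F] [Algebra R F] (τ : F) : Subring F :=
  (integralClosure (Algebra.adjoin R {τ}) F).toSubring

/-- the chart `{τ ≠ 0}`: the integral closure of `R[τ⁻¹]` in `F` -/
def B1 (R : Type*) {F : Type*} [CommRing R] [Field F] [Algebra R F] (τ : F) : Subring F :=
  B0 R τ⁻¹

/-- the overlap `{τ ≠ 0, ∞}`: the integral closure of `R[τ, τ⁻¹]` in `F` -/
def B01 (R : Type*) {F : Type*} [CommRing R] [Field F] [Algebra R F] (τ : F) : Subring F :=
  (integralClosure (Algebra.adjoin R {τ, τ⁻¹}) F).toSubring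

variable {R F : Type*} [CommRing R] [Field F] [Algebra R F] {τ x : F}

theorem mem_B0 : x ∈ B0 R τ ↔ IsIntegral (Algebra.adjoin R {τ}) x := Iff.rfl

theorem mem_B1 : x ∈ B1 R τ ↔ IsIntegral (Algebra.adjoin R {τ⁻¹}) x := Iff.rfl

theorem mem_B01 : x ∈ B01 R τ ↔ IsIntegral (Algebra.adjoin R {τ, τ⁻¹}) x := Iff.rfl

theorem B1_inv : B1 R τ⁻¹ = B0 R τ := by
  unfold B1
  rw [inv_inv]

theorem B01_inv : B01 R τ⁻¹ = B01 R τ := by
  unfold B01
  rw [inv_inv, Set.pair_comm]

theorem algebraMap_mem_B0 (r : R) : algebraMap R F r ∈ B0 R τ :=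
  mem_B0.mpr (isIntegral_algebraMap (R := Algebra.adjoin R {τ}) (x := algebraMap R _ r))

theorem tau_mem_B0 : τ ∈ B0 R τ :=
  mem_B0.mpr (isIntegral_algebraMap (R := Algebra.adjoin R {τ})
    (x := ⟨τ, Algebra.self_mem_adjoin_singleton R τ⟩))

theorem B0_le_B01 : B0 R τ ≤ B01 R τ := fun _ hx =>
  mem_B01.mpr (isIntegral_of_le (fun _ ha => Algebra.adjoin_mono (by simp) ha) (mem_B0.mp hx))

theorem B1_le_B01 : B1 R τ ≤ B01 R τ := fun _ hx =>
  mem_B01.mpr (isIntegral_of_le (fun _ ha => Algebra.adjoin_mono (by simp) ha) (mem_B1.mp hx))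

theorem tau_mem_B01 : τ ∈ B01 R τ := B0_le_B01 tau_mem_B0

theorem tau_inv_mem_B1 : τ⁻¹ ∈ B1 R τ := tau_mem_B0

theorem tau_inv_mem_B01 : τ⁻¹ ∈ B01 R τ := B1_le_B01 tau_inv_mem_B1

end ChartDefs

/-! ### Basic properties: (M1′), (M2), (M3) -/

section Props

variable {R L F : Type*} [CommRing R] [IsDomain R] [IsDiscreteValuationRing R]
  [Field L] [Field F] [Algebra R L] [IsFractionRing R L] [Algebra L F] [Algebra R F]
  [IsScalarTower R L F] {π : R} {O : ValuationSubring F} {τ : F}

omit [IsDomain R] [IsDiscreteValuationRing R] in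
theorem GoodCoord.tau_ne_zero (h : GoodCoord π O τ) : τ ≠ 0 := by
  intro h0
  have := h.tau_unit
  rw [h0, map_zero] at this
  exact zero_ne_one this

omit [IsDomain R] [IsDiscreteValuationRing R] in
theorem GoodCoord.tau_mem (h : GoodCoord π O τ) : τ ∈ O :=
  (ValuationSubring.valuation_le_one_iff _ _).mp h.tau_unit.le

omit [IsDomain R] [IsDiscreteValuationRing R] in
theorem GoodCoord.tau_inv_mem (h : GoodCoord π O τ) : τ⁻¹ ∈ O := by
  rw [← ValuationSubring.valuation_le_one_iff, map_inv₀, h.tau_unit, inv_one]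

omit [IsDomain R] [IsDiscreteValuationRing R] in
/-- `τ⁻¹` is again a good coordinate -/
theorem GoodCoord.inv (h : GoodCoord π O τ) : GoodCoord π O τ⁻¹ where
  irreducible := h.irreducible
  algebraMap_mem := h.algebraMap_mem
  pi_lt := h.pi_lt
  exists_eq_mul := h.exists_eq_mul
  tau_unit := by rw [map_inv₀, h.tau_unit, inv_one]
  transc := by
    intro p hp i
    letI : Invertible τ⁻¹ := invertibleOfNonzero (inv_ne_zero h.tau_ne_zero)
    have hinv : ⅟(τ⁻¹) = τ := by
      rw [invOf_eq_inv, inv_inv]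
    have e := Polynomial.eval₂_reverse_mul_pow (algebraMap R F) τ⁻¹ p
    rw [hinv] at e
    have hval : O.valuation (aeval τ p.reverse) < 1 := by
      have e2 : aeval τ p.reverse = aeval τ⁻¹ p * τ ^ p.natDegree := by
        rw [aeval_def, aeval_def, ← e, mul_assoc, ← mul_pow, inv_mul_cancel₀ h.tau_ne_zero,
          one_pow, mul_one]
      rw [e2, map_mul, map_pow, h.tau_unit, one_pow, mul_one]
      exact hp
    have hall := h.transc p.reverse hval
    by_cases hi : i ≤ p.natDegree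
    · have := hall (p.natDegree - i)
      rwa [coeff_reverse, revAt_le (Nat.sub_le _ _), Nat.sub_sub_self hi] at this
    · rw [coeff_eq_zero_of_natDegree_lt (not_le.mp hi)]
      exact dvd_zero _

omit [IsDomain R] [IsDiscreteValuationRing R] in
theorem adjoin_le (h : GoodCoord π O τ) {s : Set F} (hs : ∀ y ∈ s, y ∈ O) :
    ∀ a ∈ Algebra.adjoin R s, a ∈ O := by
  intro a ha
  induction ha using Algebra.adjoin_induction with
  | mem y hy => exact hs y hy
  | algebraMap r => exact h.algebraMap_mem r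
  | add a b _ _ ha hb => exact O.add_mem _ _ ha hb
  | mul a b _ _ ha hb => exact O.mul_mem _ _ ha hb

omit [IsDomain R] [IsDiscreteValuationRing R] in
theorem B01_le (h : GoodCoord π O τ) : B01 R τ ≤ O.toSubring := fun _ hx =>
  mem_of_isIntegral_of_le O (adjoin_le h (by
    rintro y (rfl | rfl)
    · exact h.tau_mem
    · exact h.tau_inv_mem)) (mem_B01.mp hx)

omit [IsDomain R] [IsDiscreteValuationRing R] in
theorem B0_le (h : GoodCoord π O τ) : B0 R τ ≤ O.toSubring :=
  B0_le_B01.trans (B01_le h)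

omit [IsDomain R] [IsDiscreteValuationRing R] in
theorem B1_le (h : GoodCoord π O τ) : B1 R τ ≤ O.toSubring :=
  B1_le_B01.trans (B01_le h)

variable (R L F) in
include L in
omit [IsDiscreteValuationRing R] in
theorem algebraMap_injective' : Function.Injective (algebraMap R F) := by
  rw [IsScalarTower.algebraMap_eq R L F]
  exact (algebraMap L F).injective.comp (IsFractionRing.injective R L)

variable (L) in
include L in
omit [IsDiscreteValuationRing R] in
theorem GoodCoord.pi_ne_zero (h : GoodCoord π O τ) : algebraMap R F π ≠ 0 := by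
  rw [Ne, map_eq_zero_iff _ (algebraMap_injective' R L F)]
  exact h.irreducible.ne_zero

variable (L) in
include L in
omit [IsDiscreteValuationRing R] in
theorem pi_inv_not_mem (h : GoodCoord π O τ) : (algebraMap R F π)⁻¹ ∉ O := by
  intro h1
  rw [← ValuationSubring.valuation_le_one_iff, map_inv₀] at h1
  have h2 := h.pi_lt
  have h0 : O.valuation (algebraMap R F π) ≠ 0 :=
    (O.valuation).ne_zero_iff.mpr (h.pi_ne_zero L)
  have h3 : 1 ≤ O.valuation (algebraMap R F π) := by
    rwa [inv_le_one₀ (zero_lt_iff.mpr h0)] at h1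
  exact absurd h2 (not_lt.mpr h3)

variable (L) in
include L in
omit [IsDiscreteValuationRing R] in
theorem pi_inv_not_mem_B01 (h : GoodCoord π O τ) : (algebraMap R F π)⁻¹ ∉ B01 R τ :=
  fun hmem => pi_inv_not_mem L h (B01_le h hmem)

/-- elements of valuation `< 1` are multiples of `π` -/
theorem GoodCoord.lt_one_iff (h : GoodCoord π O τ) {x : F} :
    O.valuation x < 1 ↔ ∃ y ∈ O, x = algebraMap R F π * y := by
  constructor
  · exact h.exists_eq_mul x
  · rintro ⟨y, hy, rfl⟩
    rw [map_mul]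
    have h1 : O.valuation y ≤ 1 := (ValuationSubring.valuation_le_one_iff _ _).mpr hy
    calc O.valuation (algebraMap R F π) * O.valuation y ≤ O.valuation (algebraMap R F π) * 1 := by
          gcongr
      _ < 1 := by rw [mul_one]; exact h.pi_lt

/-- **(M1′)** for the chart `B0`. -/
theorem mem_B0_iff (h : GoodCoord π O τ) (K : IntermediateField L F) (hK : K = L⟮τ⟯)
    (halg : Algebra.IsAlgebraic K F)
    (huniq : ∀ O'' : ValuationSubring F,
      O''.comap (algebraMap K F) = O.comap (algebraMap K F) → O'' = O) {x : F} :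
    x ∈ B0 R τ ↔ x ∈ O ∧ IsIntegral (Algebra.adjoin L {τ}) x := by
  constructor
  · intro hx
    refine ⟨B0_le h hx, isIntegral_of_le ?_ (mem_B0.mp hx)⟩
    intro a ha
    induction ha using Algebra.adjoin_induction with
    | mem y hy => exact Algebra.subset_adjoin hy
    | algebraMap r =>
      rw [IsScalarTower.algebraMap_apply R L F]
      exact Subalgebra.algebraMap_mem _ _
    | add a b _ _ ha hb => exact add_mem ha hb
    | mul a b _ _ ha hb => exact mul_mem ha hb
  · rintro ⟨hxO, hx⟩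
    exact mem_B0.mpr (isIntegral_adjoin_of_mem h K hK halg huniq hxO hx)

omit [IsDomain R] [IsDiscreteValuationRing R] [IsFractionRing R L] [IsScalarTower R L F]
  [Algebra R F] [Algebra R L] [CommRing R] in
theorem adjoin_simple_inv (τ : F) : L⟮τ⁻¹⟯ = L⟮τ⟯ := by
  apply le_antisymm
  · rw [adjoin_simple_le_iff]
    exact inv_mem (mem_adjoin_simple_self L τ)
  · rw [adjoin_simple_le_iff]
    have := inv_mem (mem_adjoin_simple_self L τ⁻¹)
    rwa [inv_inv] at this

/-- **(M1′)** for the chart `B1`. -/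
theorem mem_B1_iff (h : GoodCoord π O τ) (K : IntermediateField L F) (hK : K = L⟮τ⟯)
    (halg : Algebra.IsAlgebraic K F)
    (huniq : ∀ O'' : ValuationSubring F,
      O''.comap (algebraMap K F) = O.comap (algebraMap K F) → O'' = O) {x : F} :
    x ∈ B1 R τ ↔ x ∈ O ∧ IsIntegral (Algebra.adjoin L {τ⁻¹}) x :=
  mem_B0_iff h.inv K (hK.trans (adjoin_simple_inv τ).symm) halg huniq

/-- **(M2)** saturation of `B0`. -/
theorem sat_B0 (h : GoodCoord π O τ) (K : IntermediateField L F) (hK : K = L⟮τ⟯)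
    (halg : Algebra.IsAlgebraic K F)
    (huniq : ∀ O'' : ValuationSubring F,
      O''.comap (algebraMap K F) = O.comap (algebraMap K F) → O'' = O) {x : F}
    (hxO : x ∈ O) (hx : algebraMap R F π * x ∈ B0 R τ) : x ∈ B0 R τ := by
  rw [mem_B0_iff h K hK halg huniq] at hx ⊢
  refine ⟨hxO, ?_⟩
  have h1 : IsIntegral (Algebra.adjoin L {τ})
      (algebraMap (Algebra.adjoin L {τ}) F (algebraMap L _ (algebraMap R L π)⁻¹)) :=
    isIntegral_algebraMap
  have h2 := h1.mul hx.2
  have e : algebraMap (Algebra.adjoin L {τ}) F (algebraMap L _ (algebraMap R L π)⁻¹) *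
      (algebraMap R F π * x) = x := by
    rw [← IsScalarTower.algebraMap_apply, IsScalarTower.algebraMap_apply R L F, ← mul_assoc,
      ← map_mul, inv_mul_cancel₀, map_one, one_mul]
    rw [Ne, map_eq_zero_iff _ (IsFractionRing.injective R L)]
    exact h.irreducible.ne_zero
  rwa [e] at h2

/-- **(M2)** saturation of `B1`. -/
theorem sat_B1 (h : GoodCoord π O τ) (K : IntermediateField L F) (hK : K = L⟮τ⟯)
    (halg : Algebra.IsAlgebraic K F)
    (huniq : ∀ O'' : ValuationSubring F,
      O''.comap (algebraMap K F) = O.comap (algebraMap K F) → O'' = O) {x : F}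
    (hxO : x ∈ O) (hx : algebraMap R F π * x ∈ B1 R τ) : x ∈ B1 R τ :=
  sat_B0 h.inv K (hK.trans (adjoin_simple_inv τ).symm) halg huniq hxO hx

/-- **(M3)** `B0 ∩ B1 = R`. -/
theorem cap
    (hR : ∀ x : F, IsIntegral R x → ∃ r : R, algebraMap R F r = x) {x : F}
    (h0 : x ∈ B0 R τ) (h1 : x ∈ B1 R τ) : ∃ r : R, algebraMap R F r = x := by
  refine hR x (isIntegral_of_forall_mem fun V hV => ?_)
  have hadj : ∀ y : F, y ∈ V → ∀ a ∈ Algebra.adjoin R {y}, a ∈ V := by
    intro y hy a ha
    induction ha using Algebra.adjoin_induction with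
    | mem z hz => rw [Set.mem_singleton_iff.mp hz]; exact hy
    | algebraMap r => exact hV r
    | add a b _ _ ha hb => exact V.add_mem _ _ ha hb
    | mul a b _ _ ha hb => exact V.mul_mem _ _ ha hb
  rcases V.mem_or_inv_mem τ with hτ | hτ
  · exact mem_of_isIntegral_of_le V (hadj τ hτ) (mem_B0.mp h0)
  · exact mem_of_isIntegral_of_le V (hadj τ⁻¹ hτ) (mem_B1.mp h1)

end Props

/-! ### Localisation at `τ` -/

section Loc

variable {S F : Type*} [CommRing S] [Field F] [Algebra S F]

theorem pow_mem_adjoin (τ : F) (n : ℕ) : τ ^ n ∈ Algebra.adjoin S {τ} :=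
  pow_mem (Algebra.self_mem_adjoin_singleton S τ) n

/-- `S[τ, τ⁻¹] = S[τ][1/τ]`. -/
theorem exists_pow_mul_mem_adjoin (τ : F) (hτ : τ ≠ 0) :
    ∀ a ∈ Algebra.adjoin S {τ, τ⁻¹}, ∃ N : ℕ, ∀ n, N ≤ n → τ ^ n * a ∈ Algebra.adjoin S {τ} := by
  intro a ha
  induction ha using Algebra.adjoin_induction with
  | mem y hy =>
    rcases hy with rfl | rfl
    · exact ⟨0, fun n _ => mul_mem (pow_mem_adjoin y n) (Algebra.self_mem_adjoin_singleton S y)⟩
    · refine ⟨1, fun n hn => ?_⟩
      obtain ⟨k, rfl⟩ : ∃ k, n = k + 1 := ⟨n - 1, by omega⟩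
      rw [pow_succ, mul_assoc, mul_inv_cancel₀ hτ, mul_one]
      exact pow_mem_adjoin τ k
  | algebraMap r =>
    exact ⟨0, fun n _ => mul_mem (pow_mem_adjoin τ n) (Subalgebra.algebraMap_mem _ r)⟩
  | add a b _ _ ha hb =>
    obtain ⟨N₁, h₁⟩ := ha
    obtain ⟨N₂, h₂⟩ := hb
    refine ⟨max N₁ N₂, fun n hn => ?_⟩
    rw [mul_add]
    exact add_mem (h₁ n (le_trans (le_max_left _ _) hn)) (h₂ n (le_trans (le_max_right _ _) hn))
  | mul a b _ _ ha hb =>
    obtain ⟨N₁, h₁⟩ := ha
    obtain ⟨N₂, h₂⟩ := hb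
    refine ⟨N₁ + N₂, fun n hn => ?_⟩
    obtain ⟨k, rfl⟩ : ∃ k, n = N₁ + k := ⟨n - N₁, by omega⟩
    have : τ ^ (N₁ + k) * (a * b) = (τ ^ N₁ * a) * (τ ^ k * b) := by
      rw [pow_add]; ring
    rw [this]
    exact mul_mem (h₁ N₁ le_rfl) (h₂ k (by omega))

/-- integrality over `S[τ, τ⁻¹]` becomes integrality over `S[τ]` after multiplying by a power
of `τ`. -/
theorem exists_pow_mul_isIntegral (τ : F) (hτ : τ ≠ 0) {x : F}
    (hx : IsIntegral (Algebra.adjoin S {τ, τ⁻¹}) x) :
    ∃ N : ℕ, IsIntegral (Algebra.adjoin S {τ}) (τ ^ N * x) := by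
  classical
  obtain ⟨p, hp, hpx⟩ := hx
  choose Nf hNf using fun i : ℕ =>
    exists_pow_mul_mem_adjoin (S := S) τ hτ (p.coeff i : F) (p.coeff i).2
  set N := (Finset.range (p.natDegree + 1)).sup Nf + 1 with hN
  have hτmem : τ ∈ Algebra.adjoin S {τ, τ⁻¹} := Algebra.subset_adjoin (by simp)
  set t : Algebra.adjoin S {τ, τ⁻¹} := ⟨τ, hτmem⟩ ^ N with ht
  have htval : (algebraMap (Algebra.adjoin S {τ, τ⁻¹}) F) t = τ ^ N := by
    rw [ht, map_pow]
    rfl
  have hroot := Polynomial.scaleRoots_eval₂_eq_zero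
    (algebraMap (Algebra.adjoin S {τ, τ⁻¹}) F) (s := t) hpx
  rw [htval] at hroot
  have hmonic : (scaleRoots p t).Monic := (monic_scaleRoots_iff t).mpr hp
  let g : Algebra.adjoin S {τ} →+* Algebra.adjoin S {τ, τ⁻¹} :=
    RingHom.codRestrict ((Algebra.adjoin S {τ}).val : _ →+* F) (Algebra.adjoin S {τ, τ⁻¹})
      (fun a => Algebra.adjoin_mono (by simp) a.2)
  have hcoef : ∀ i, ((scaleRoots p t).coeff i : F) ∈ Algebra.adjoin S {τ} := by
    intro i
    rw [coeff_scaleRoots]
    rcases lt_trichotomy i p.natDegree with hi | hi | hi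
    · have h1 : ((p.coeff i * t ^ (p.natDegree - i) : Algebra.adjoin S {τ, τ⁻¹}) : F) =
          τ ^ (N * (p.natDegree - i)) * (p.coeff i : F) := by
        rw [ht, ← pow_mul]
        push_cast
        rw [mul_comm]
      rw [h1]
      apply hNf i
      have h2 : Nf i ≤ (Finset.range (p.natDegree + 1)).sup Nf :=
        Finset.le_sup (f := Nf) (Finset.mem_range.mpr (by omega))
      have h3 : 1 ≤ p.natDegree - i := by omega
      calc Nf i ≤ N := by omega
        _ = N * 1 := (mul_one N).symm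
        _ ≤ N * (p.natDegree - i) := Nat.mul_le_mul_left N h3
    · rw [hi, Nat.sub_self, pow_zero, mul_one, hp.coeff_natDegree]
      exact one_mem _
    · rw [coeff_eq_zero_of_natDegree_lt hi, zero_mul]
      exact zero_mem _
  have hlift : scaleRoots p t ∈ Polynomial.lifts g := by
    rw [Polynomial.lifts_iff_coeff_lifts]
    intro i
    exact ⟨⟨_, hcoef i⟩, Subtype.ext rfl⟩
  obtain ⟨q, hq, -, hqm⟩ := Polynomial.lifts_and_degree_eq_and_monic hlift hmonic
  refine ⟨N, q, hqm, ?_⟩
  have : (algebraMap (Algebra.adjoin S {τ, τ⁻¹}) F).comp g = algebraMap (Algebra.adjoin S {τ}) F :=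
    rfl
  rw [← this, ← Polynomial.eval₂_map, hq]
  exact hroot

end Loc

/-! ### The overlap -/

section Overlap

variable {R L F : Type*} [CommRing R] [IsDomain R] [IsDiscreteValuationRing R]
  [Field L] [Field F] [Algebra R L] [IsFractionRing R L] [Algebra L F] [Algebra R F]
  [IsScalarTower R L F] {π : R} {O : ValuationSubring F} {τ : F}

omit [IsDomain R] [IsDiscreteValuationRing R] in
/-- `B01 = B0[1/τ]`. -/
theorem exists_pow_mul_mem_B0 (hτ : τ ≠ 0) {x : F} (hx : x ∈ B01 R τ) :
    ∃ N : ℕ, τ ^ N * x ∈ B0 R τ :=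
  exists_pow_mul_isIntegral τ hτ (mem_B01.mp hx)

omit [IsDomain R] [IsDiscreteValuationRing R] in
/-- `B01 = B1[τ]`. -/
theorem exists_pow_mul_mem_B1 (hτ : τ ≠ 0) {x : F} (hx : x ∈ B01 R τ) :
    ∃ N : ℕ, τ⁻¹ ^ N * x ∈ B1 R τ := by
  rw [← B01_inv] at hx
  exact exists_pow_mul_mem_B0 (inv_ne_zero hτ) hx

/-- **(M1′)** for the overlap `B01`. -/
theorem mem_B01_iff (h : GoodCoord π O τ) (K : IntermediateField L F) (hK : K = L⟮τ⟯)
    (halg : Algebra.IsAlgebraic K F)
    (huniq : ∀ O'' : ValuationSubring F,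
      O''.comap (algebraMap K F) = O.comap (algebraMap K F) → O'' = O) {x : F} :
    x ∈ B01 R τ ↔ x ∈ O ∧ IsIntegral (Algebra.adjoin L {τ, τ⁻¹}) x := by
  constructor
  · intro hx
    refine ⟨B01_le h hx, isIntegral_of_le ?_ (mem_B01.mp hx)⟩
    intro a ha
    induction ha using Algebra.adjoin_induction with
    | mem y hy => exact Algebra.subset_adjoin hy
    | algebraMap r =>
      rw [IsScalarTower.algebraMap_apply R L F]
      exact Subalgebra.algebraMap_mem _ _
    | add a b _ _ ha hb => exact add_mem ha hb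
    | mul a b _ _ ha hb => exact mul_mem ha hb
  · rintro ⟨hxO, hx⟩
    obtain ⟨N, hN⟩ := exists_pow_mul_isIntegral τ h.tau_ne_zero hx
    have h1 : τ ^ N * x ∈ B0 R τ :=
      (mem_B0_iff h K hK halg huniq).mpr ⟨O.mul_mem _ _ (pow_mem h.tau_mem N) hxO, hN⟩
    have h2 : τ⁻¹ ^ N * (τ ^ N * x) ∈ B01 R τ :=
      mul_mem (pow_mem tau_inv_mem_B01 N) (B0_le_B01 h1)
    rwa [← mul_assoc, ← mul_pow, inv_mul_cancel₀ h.tau_ne_zero, one_pow, one_mul] at h2

/-- **(M2)** saturation of `B01`. -/
theorem sat_B01 (h : GoodCoord π O τ) (K : IntermediateField L F) (hK : K = L⟮τ⟯)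
    (halg : Algebra.IsAlgebraic K F)
    (huniq : ∀ O'' : ValuationSubring F,
      O''.comap (algebraMap K F) = O.comap (algebraMap K F) → O'' = O) {x : F}
    (hxO : x ∈ O) (hx : algebraMap R F π * x ∈ B01 R τ) : x ∈ B01 R τ := by
  rw [mem_B01_iff h K hK halg huniq] at hx ⊢
  refine ⟨hxO, ?_⟩
  have h1 : IsIntegral (Algebra.adjoin L {τ, τ⁻¹})
      (algebraMap (Algebra.adjoin L {τ, τ⁻¹}) F (algebraMap L _ (algebraMap R L π)⁻¹)) :=
    isIntegral_algebraMap
  have h2 := h1.mul hx.2
  have e : algebraMap (Algebra.adjoin L {τ, τ⁻¹}) F (algebraMap L _ (algebraMap R L π)⁻¹) *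
      (algebraMap R F π * x) = x := by
    rw [← IsScalarTower.algebraMap_apply, IsScalarTower.algebraMap_apply R L F, ← mul_assoc,
      ← map_mul, inv_mul_cancel₀, map_one, one_mul]
    rw [Ne, map_eq_zero_iff _ (IsFractionRing.injective R L)]
    exact h.irreducible.ne_zero
  rwa [e] at h2

end Overlap

/-! ### Connectedness of the special fibre: (M5) -/

section Conn

/-- ring-hom form of `isIntegral_of_forall_mem` -/
theorem isIntegralElem_of_forall_mem {S F : Type*} [CommRing S] [Field F] (φ : S →+* F) {x : F}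
    (h : ∀ V : ValuationSubring F, (∀ r : S, φ r ∈ V) → x ∈ V) : φ.IsIntegralElem x := by
  letI := φ.toAlgebra
  exact isIntegral_of_forall_mem (S := S) h

/-- ring-hom form of `mem_of_isIntegral_of_le` -/
theorem mem_of_isIntegralElem {A F : Type*} [CommRing A] [Field F] (V : ValuationSubring F)
    (φ : A →+* F) (hφ : ∀ a, φ a ∈ V) {x : F} (hx : φ.IsIntegralElem x) : x ∈ V := by
  obtain ⟨p, hp, hpx⟩ := hx
  let g : A →+* V := RingHom.codRestrict φ V hφ
  have hV : IsIntegral V x := by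
    refine ⟨p.map g, hp.map g, ?_⟩
    rw [Polynomial.eval₂_map]
    exact hpx
  obtain ⟨y, rfl⟩ := (IsIntegrallyClosed.isIntegral_iff (R := V) (K := F)).mp hV
  exact y.2

variable {R L F : Type*} [CommRing R] [IsDomain R] [IsDiscreteValuationRing R]
  [Field L] [Field F] [Algebra R L] [IsFractionRing R L] [Algebra L F] [Algebra R F]
  [IsScalarTower R L F] {π : R} {O : ValuationSubring F} {τ : F}

/-- the residue class of an element integral over `R[σ]` lies in every valuation subring of the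
residue field of `O` which contains the classes of `R` and of `σ` -/
theorem residue_mem_of_isIntegral (hRO : ∀ r : R, algebraMap R F r ∈ O)
    (V : ValuationSubring (IsLocalRing.ResidueField O))
    (hV : ∀ r : R, IsLocalRing.residue O ⟨algebraMap R F r, hRO r⟩ ∈ V)
    {σ : F} (hσ : σ ∈ O) (hσV : IsLocalRing.residue O ⟨σ, hσ⟩ ∈ V)
    {x : F} (hx : IsIntegral (Algebra.adjoin R {σ}) x) (hxO : x ∈ O) :
    IsLocalRing.residue O ⟨x, hxO⟩ ∈ V := by
  have hAO : ∀ a ∈ Algebra.adjoin R {σ}, ∃ ha : a ∈ O, IsLocalRing.residue O ⟨a, ha⟩ ∈ V := by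
    intro a ha
    induction ha using Algebra.adjoin_induction with
    | mem y hy =>
      rw [Set.mem_singleton_iff] at hy
      subst hy
      exact ⟨hσ, hσV⟩
    | algebraMap r => exact ⟨hRO r, hV r⟩
    | add a b _ _ ha hb =>
      obtain ⟨ha, ha'⟩ := ha
      obtain ⟨hb, hb'⟩ := hb
      refine ⟨O.add_mem _ _ ha hb, ?_⟩
      have : (⟨a + b, O.add_mem _ _ ha hb⟩ : O) = ⟨a, ha⟩ + ⟨b, hb⟩ := rfl
      rw [this, map_add]
      exact V.add_mem _ _ ha' hb'
    | mul a b _ _ ha hb =>
      obtain ⟨ha, ha'⟩ := ha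
      obtain ⟨hb, hb'⟩ := hb
      refine ⟨O.mul_mem _ _ ha hb, ?_⟩
      have : (⟨a * b, O.mul_mem _ _ ha hb⟩ : O) = ⟨a, ha⟩ * ⟨b, hb⟩ := rfl
      rw [this, map_mul]
      exact V.mul_mem _ _ ha' hb'
  let g : Algebra.adjoin R {σ} →+* O :=
    RingHom.codRestrict ((Algebra.adjoin R {σ}).val : _ →+* F) O (fun a => (hAO a a.2).1)
  obtain ⟨p, hp, hpx⟩ := hx
  refine mem_of_isIntegralElem V ((IsLocalRing.residue O).comp g) (fun a => (hAO a a.2).2)
    ⟨p, hp, ?_⟩
  rw [← Polynomial.hom_eval₂]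
  have h0 : Polynomial.eval₂ g ⟨x, hxO⟩ p = 0 := by
    apply Subtype.ext
    have := Polynomial.hom_eval₂ p g O.subtype ⟨x, hxO⟩
    rw [ValuationSubring.coe_subtype] at this
    rw [this]
    exact hpx
  rw [h0, map_zero]

/-- **(M5)** connectedness of the special fibre. -/
theorem conn (h : GoodCoord π O τ) (K : IntermediateField L F) (hK : K = L⟮τ⟯)
    (halg : Algebra.IsAlgebraic K F)
    (huniq : ∀ O'' : ValuationSubring F,
      O''.comap (algebraMap K F) = O.comap (algebraMap K F) → O'' = O)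
    (hκ : ∀ y ∈ O, ∀ p : R[X], p.Monic → O.valuation (aeval y p) < 1 →
      ∃ r : R, O.valuation (y - algebraMap R F r) < 1)
    {x0 x1 : F} (h0 : x0 ∈ B0 R τ) (h1 : x1 ∈ B1 R τ) (hlt : O.valuation (x0 - x1) < 1) :
    ∃ r : R, ∃ y ∈ B0 R τ, x0 - algebraMap R F r = algebraMap R F π * y := by
  have hx0O : x0 ∈ O := B0_le h h0
  have hx1O : x1 ∈ O := B1_le h h1
  let f : R →+* O := RingHom.codRestrict (algebraMap R F) O h.algebraMap_mem
  have hres : IsLocalRing.residue O ⟨x0, hx0O⟩ = IsLocalRing.residue O ⟨x1, hx1O⟩ := by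
    rw [← sub_eq_zero, ← map_sub, IsLocalRing.residue_eq_zero_iff,
      ValuationSubring.valuation_lt_one_iff]
    exact hlt
  have hint : ((IsLocalRing.residue O).comp f).IsIntegralElem
      (IsLocalRing.residue O ⟨x0, hx0O⟩) := by
    refine isIntegralElem_of_forall_mem _ fun V hV => ?_
    have hτ : IsLocalRing.residue O ⟨τ, h.tau_mem⟩ * IsLocalRing.residue O ⟨τ⁻¹, h.tau_inv_mem⟩
        = 1 := by
      rw [← map_mul]
      have : (⟨τ, h.tau_mem⟩ * ⟨τ⁻¹, h.tau_inv_mem⟩ : O) = 1 :=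
        Subtype.ext (mul_inv_cancel₀ h.tau_ne_zero)
      rw [this, map_one]
    rcases V.mem_or_inv_mem (IsLocalRing.residue O ⟨τ, h.tau_mem⟩) with hτV | hτV
    · exact residue_mem_of_isIntegral h.algebraMap_mem V hV h.tau_mem hτV (mem_B0.mp h0) hx0O
    · rw [hres]
      rw [← eq_inv_of_mul_eq_one_right hτ] at hτV
      exact residue_mem_of_isIntegral h.algebraMap_mem V hV h.tau_inv_mem hτV (mem_B1.mp h1) hx1O
  obtain ⟨q, hq, hqx⟩ := hint
  have hval : O.valuation (aeval x0 q) < 1 := by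
    rw [← Polynomial.hom_eval₂, IsLocalRing.residue_eq_zero_iff,
      ValuationSubring.valuation_lt_one_iff] at hqx
    have e : ((Polynomial.eval₂ f ⟨x0, hx0O⟩ q : O) : F) = aeval x0 q := by
      have := Polynomial.hom_eval₂ q f O.subtype ⟨x0, hx0O⟩
      rw [ValuationSubring.coe_subtype] at this
      rw [this]
      rfl
    rwa [e] at hqx
  obtain ⟨r, hr⟩ := hκ x0 hx0O q hq hval
  obtain ⟨y, hyO, hy⟩ := h.exists_eq_mul _ hr
  refine ⟨r, y, sat_B0 h K hK halg huniq hyO ?_, hy⟩
  rw [← hy]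
  exact sub_mem h0 (algebraMap_mem_B0 r)

end Conn

/-! ### Finiteness: (M4) -/

section Finite

variable {R L F : Type*} [CommRing R] [IsDomain R] [IsDiscreteValuationRing R]
  [Field L] [Field F] [Algebra R L] [IsFractionRing R L] [Algebra L F] [Algebra R F]
  [IsScalarTower R L F] {π : R} {O : ValuationSubring F} {τ : F}

/-- **(M4)** the chart `B0` is a finite `R[τ]`-module. -/
theorem exists_generators_B0 (h : GoodCoord π O τ) (K : IntermediateField L F) (hK : K = L⟮τ⟯)
    (hfin : FiniteDimensional K F) (hsep : Algebra.IsSeparable K F) :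
    ∃ (n : ℕ) (m : Fin n → F), (∀ j, m j ∈ B0 R τ) ∧
      ∀ x ∈ B0 R τ, ∃ c : Fin n → R[X], x = ∑ j, aeval τ (c j) * m j := by
  subst hK
  have hinjF := aeval_injective (L := L) h
  set τK : L⟮τ⟯ := AdjoinSimple.gen L τ with hτK
  have hτ : algebraMap L⟮τ⟯ F τK = τ := AdjoinSimple.algebraMap_gen L τ
  let φK : R[X] →+* L⟮τ⟯ :=
    ((aeval τK : L[X] →ₐ[L] L⟮τ⟯) : L[X] →+* L⟮τ⟯).comp (mapRingHom (algebraMap R L))
  have hφK : ∀ p : R[X], algebraMap L⟮τ⟯ F (φK p) = aeval τ p := by
    intro p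
    change algebraMap L⟮τ⟯ F (aeval τK (p.map (algebraMap R L))) = aeval τ p
    rw [← Polynomial.aeval_algebraMap_apply, hτ, Polynomial.aeval_map_algebraMap]
  letI algK : Algebra R[X] L⟮τ⟯ := φK.toAlgebra
  letI algF : Algebra R[X] F := ((aeval τ : R[X] →ₐ[R] F) : R[X] →+* F).toAlgebra
  haveI : IsScalarTower R[X] L⟮τ⟯ F := IsScalarTower.of_algebraMap_eq fun p => (hφK p).symm
  have hinjK : Function.Injective (algebraMap R[X] L⟮τ⟯) := by
    intro a b hab
    have h1 := congrArg (algebraMap L⟮τ⟯ F) hab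
    change algebraMap L⟮τ⟯ F (φK a) = algebraMap L⟮τ⟯ F (φK b) at h1
    rw [hφK, hφK, ← Polynomial.aeval_map_algebraMap L, ← Polynomial.aeval_map_algebraMap L τ b]
      at h1
    exact Polynomial.map_injective _ (IsFractionRing.injective R L) (hinjF h1)
  haveI : FaithfulSMul R[X] L⟮τ⟯ := (faithfulSMul_iff_algebraMap_injective R[X] L⟮τ⟯).mpr hinjK
  have hπL : algebraMap R L π ≠ 0 := by
    rw [Ne, map_eq_zero_iff _ (IsFractionRing.injective R L)]
    exact h.irreducible.ne_zero
  haveI : IsFractionRing R[X] L⟮τ⟯ := by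
    refine IsFractionRing.of_field R[X] L⟮τ⟯ ?_
    rintro ⟨z, hz⟩
    obtain ⟨r, s, hrs⟩ := (mem_adjoin_simple_iff L z).mp hz
    obtain ⟨n₁, r', hr'⟩ := exists_pow_mul_map_eq (L := L) h.irreducible r
    obtain ⟨n₂, s', hs'⟩ := exists_pow_mul_map_eq (L := L) h.irreducible s
    refine ⟨C (π ^ n₂) * r', C (π ^ n₁) * s', ?_⟩
    apply (algebraMap L⟮τ⟯ F).injective
    rw [map_div₀]
    change z = algebraMap L⟮τ⟯ F (φK _) / algebraMap L⟮τ⟯ F (φK _)
    rw [hφK, hφK, map_mul, map_mul, ← Polynomial.aeval_map_algebraMap L τ r',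
      ← Polynomial.aeval_map_algebraMap L τ s', hr', hs', map_mul, map_mul, aeval_C, aeval_C,
      aeval_C, aeval_C, hrs]
    have h1 : algebraMap R F (π ^ n₂) = algebraMap L F (algebraMap R L π ^ n₂) := by
      rw [map_pow, map_pow, ← IsScalarTower.algebraMap_apply]
    have h2 : algebraMap R F (π ^ n₁) = algebraMap L F (algebraMap R L π ^ n₁) := by
      rw [map_pow, map_pow, ← IsScalarTower.algebraMap_apply]
    rw [h1, h2]
    have h3 : algebraMap L F (algebraMap R L π ^ n₁) ≠ 0 := by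
      rw [Ne, map_eq_zero]
      exact pow_ne_zero _ hπL
    have h4 : algebraMap L F (algebraMap R L π ^ n₂) ≠ 0 := by
      rw [Ne, map_eq_zero]
      exact pow_ne_zero _ hπL
    by_cases hs0 : aeval τ s = 0
    · rw [hs0, mul_zero, mul_zero, div_zero, div_zero]
    · field_simp
  have hfinC : Module.Finite R[X] (integralClosure R[X] F) :=
    IsIntegralClosure.finite R[X] L⟮τ⟯ F (integralClosure R[X] F)
  obtain ⟨n, s, hs⟩ := Module.Finite.exists_fin (R := R[X]) (M := integralClosure R[X] F)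
  refine ⟨n, fun j => (s j : F), fun j => ?_, fun x hx => ?_⟩
  · exact (isIntegral_adjoin_iff τ _).mpr (s j).2
  · have hxC : x ∈ integralClosure R[X] F := (isIntegral_adjoin_iff τ x).mp (mem_B0.mp hx)
    have hmem : (⟨x, hxC⟩ : integralClosure R[X] F) ∈ Submodule.span R[X] (Set.range s) := by
      rw [hs]; trivial
    obtain ⟨c, hc⟩ := (Submodule.mem_span_range_iff_exists_fun R[X]).mp hmem
    refine ⟨c, ?_⟩
    have := congrArg (fun y : integralClosure R[X] F => (y : F)) hc
    simp only at this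
    rw [← this]
    push_cast
    rfl

end Finite

/-! ### Bounded torsion and finite generation of `H¹` -/

section Tor

/-- **Bounded torsion** (generic): if every element of `S` lies in `X + W` with `W` a finitely
generated module over the Noetherian ring `R`, then the `π`-power torsion of `S` modulo `X` is
bounded. -/
theorem bounded_torsion {R M : Type*} [CommRing R] [IsNoetherianRing R] [AddCommGroup M]
    [Module R M] (X W : Submodule R M) (hW : W.FG) (π : R) (S : Set M)
    (hS : ∀ x ∈ S, ∃ y ∈ X, ∃ w ∈ W, x = y + w) :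
    ∃ c : ℕ, ∀ x ∈ S, ∀ n : ℕ, π ^ n • x ∈ X → π ^ c • x ∈ X := by
  haveI : IsNoetherian R W := isNoetherian_of_fg_of_noetherian W hW
  -- the chain `U k = {w ∈ W | π ^ k • w ∈ X}`
  let U : ℕ → Submodule R W := fun k =>
    (X.comap (LinearMap.lsmul R M (π ^ k))).comap W.subtype
  have hUmem : ∀ k (w : W), w ∈ U k ↔ π ^ k • (w : M) ∈ X := fun k w => Iff.rfl
  have hmono : Monotone U := by
    refine monotone_nat_of_le_succ fun k w hw => ?_
    rw [hUmem] at hw ⊢
    rw [pow_succ', mul_smul]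
    exact X.smul_mem π hw
  obtain ⟨c, hc⟩ := monotone_stabilizes_iff_noetherian.mpr ‹IsNoetherian R W› ⟨U, hmono⟩
  refine ⟨c, fun x hx n hn => ?_⟩
  obtain ⟨y, hy, w, hw, rfl⟩ := hS x hx
  have hwn : (⟨w, hw⟩ : W) ∈ U n := by
    rw [hUmem]
    have : π ^ n • w = π ^ n • (y + w) - π ^ n • y := by rw [smul_add]; abel
    change π ^ n • w ∈ X
    rw [this]
    exact X.sub_mem hn (X.smul_mem _ hy)
  have hwc : (⟨w, hw⟩ : W) ∈ U c := by
    rcases le_total n c with hnc | hcn
    · exact hmono hnc hwn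
    · have := hc n hcn
      change U c = U n at this
      rw [this]
      exact hwn
  rw [hUmem] at hwc
  rw [smul_add]
  exact X.add_mem (X.smul_mem _ hy) hwc

end Tor

section H1

variable {R F : Type*} [CommRing R] [Field F] [Algebra R F]

theorem aeval_mem_B0 {τ : F} (p : R[X]) : aeval τ p ∈ B0 R τ :=
  mem_B0.mpr (isIntegral_algebraMap (R := Algebra.adjoin R {τ}) (x := toAdjoin R τ p))

/-- a subring of `F` containing the image of `R`, as an `R`-submodule -/
def subringSubmodule (B : Subring F) (hB : ∀ r : R, algebraMap R F r ∈ B) : Submodule R F where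
  carrier := B
  add_mem' := B.add_mem
  zero_mem' := B.zero_mem
  smul_mem' := fun r x hx => by
    rw [Algebra.smul_def]
    exact B.mul_mem (hB r) hx

theorem mem_subringSubmodule {B : Subring F} {hB : ∀ r : R, algebraMap R F r ∈ B} {x : F} :
    x ∈ subringSubmodule B hB ↔ x ∈ B := Iff.rfl

/-- **Finite generation of `H¹`.**  If the chart `B1` is generated over `R[τ⁻¹]` by finitely many
elements and `X0` is a `τ`-stable `R`-submodule with `X0[1/τ] ⊇ B01`, then `B01 ⊆ X0 + B1 + W`
for a finitely generated `R`-module `W`. -/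
theorem exists_fg_H1 {τ : F} (hτ : τ ≠ 0) {n : ℕ} (m : Fin n → F) (hm : ∀ j, m j ∈ B1 R τ)
    (hgen : ∀ x ∈ B1 R τ, ∃ c : Fin n → R[X], x = ∑ j, aeval τ⁻¹ (c j) * m j)
    (X0 : Submodule R F) (hX0τ : ∀ y ∈ X0, τ * y ∈ X0)
    (hX0 : ∀ x ∈ B01 R τ, ∃ N : ℕ, τ ^ N * x ∈ X0) :
    ∃ W : Submodule R F, W.FG ∧ ∀ x ∈ B01 R τ,
      ∃ y ∈ X0 ⊔ subringSubmodule (B1 R τ) (fun r => algebraMap_mem_B0 r), ∃ w ∈ W, x = y + w := by
  classical
  set B1m : Submodule R F := subringSubmodule (B1 R τ) (fun r => algebraMap_mem_B0 r) with hB1m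
  -- a uniform exponent
  choose Nf hNf using fun j => hX0 (m j) (B1_le_B01 (hm j))
  have hpowX0 : ∀ (k : ℕ) (y : F), y ∈ X0 → τ ^ k * y ∈ X0 := by
    intro k
    induction k with
    | zero => intro y hy; simpa using hy
    | succ k ih =>
      intro y hy
      rw [pow_succ', mul_assoc]
      exact hX0τ _ (ih y hy)
  set N0 := Finset.univ.sup Nf with hN0
  have hN0m : ∀ j e, N0 ≤ e → τ ^ e * m j ∈ X0 := by
    intro j e he
    have h1 : Nf j ≤ N0 := Finset.le_sup (f := Nf) (Finset.mem_univ j)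
    obtain ⟨k, rfl⟩ : ∃ k, e = k + Nf j := ⟨e - Nf j, by omega⟩
    rw [pow_add, mul_assoc]
    exact hpowX0 k _ (hNf j)
  let gen : Fin n × Fin N0 → F := fun p => τ ^ (p.2 : ℕ) * m p.1
  set W : Submodule R F := Submodule.span R (Set.range gen) with hW
  have hWfg : W.FG := Submodule.fg_span (Set.finite_range gen)
  set Sg : Submodule R F := X0 ⊔ B1m ⊔ W with hSg
  have hX0S : X0 ≤ Sg := le_sup_of_le_left le_sup_left
  have hB1S : B1m ≤ Sg := le_sup_of_le_left le_sup_right
  have hWS : W ≤ Sg := le_sup_right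
  have hgenS : ∀ j e, τ ^ e * m j ∈ Sg := by
    intro j e
    by_cases he : e < N0
    · exact hWS (Submodule.subset_span ⟨(j, ⟨e, he⟩), rfl⟩)
    · exact hX0S (hN0m j e (not_lt.mp he))
  -- `Sg` is stable under multiplication by `τ`
  have hstable : ∀ y ∈ Sg, τ * y ∈ Sg := by
    intro y hy
    obtain ⟨y01, hy01, w, hw, rfl⟩ := Submodule.mem_sup.mp hy
    obtain ⟨y0, hy0, y1, hy1, rfl⟩ := Submodule.mem_sup.mp hy01
    rw [mul_add, mul_add]
    refine Sg.add_mem (Sg.add_mem (hX0S (hX0τ _ hy0)) ?_) ?_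
    · -- `τ * y1`, `y1 ∈ B1`
      obtain ⟨c, rfl⟩ := hgen y1 hy1
      rw [Finset.mul_sum]
      refine Sg.sum_mem fun j _ => ?_
      have e1 : τ * (aeval τ⁻¹ (c j) * m j) =
          aeval τ⁻¹ (divX (c j)) * m j + (c j).coeff 0 • (τ ^ 1 * m j) := by
        conv_lhs => rw [← Polynomial.divX_mul_X_add (c j)]
        rw [map_add, map_mul, aeval_X, aeval_C, Algebra.smul_def, pow_one]
        field_simp
      rw [e1]
      refine Sg.add_mem (hB1S ?_) (Sg.smul_mem _ (hgenS j 1))
      refine (B1 R τ).mul_mem ?_ (hm j)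
      exact aeval_mem_B0 _
    · -- `τ * w`, `w ∈ W`
      refine Submodule.span_induction (p := fun w _ => τ * w ∈ Sg) ?_ ?_ ?_ ?_ hw
      · rintro _ ⟨⟨j, e⟩, rfl⟩
        change τ * (τ ^ (e : ℕ) * m j) ∈ Sg
        rw [← mul_assoc, ← pow_succ']
        exact hgenS j _
      · rw [mul_zero]; exact Sg.zero_mem
      · intro a b _ _ ha hb
        rw [mul_add]; exact Sg.add_mem ha hb
      · intro r a _ ha
        rw [mul_smul_comm]; exact Sg.smul_mem r ha
  have hpowS : ∀ (k : ℕ) (y : F), y ∈ Sg → τ ^ k * y ∈ Sg := by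
    intro k
    induction k with
    | zero => intro y hy; simpa using hy
    | succ k ih =>
      intro y hy
      rw [pow_succ', mul_assoc]
      exact hstable _ (ih y hy)
  refine ⟨W, hWfg, fun x hx => ?_⟩
  obtain ⟨N, hN⟩ := exists_pow_mul_mem_B1 (R := R) hτ hx
  have h1 : τ ^ N * (τ⁻¹ ^ N * x) ∈ Sg := hpowS N _ (hB1S hN)
  rw [← mul_assoc, ← mul_pow, mul_inv_cancel₀ hτ, one_pow, one_mul] at h1
  obtain ⟨y, hy, w, hw, rfl⟩ := Submodule.mem_sup.mp h1
  exact ⟨y, hy, w, hw, rfl⟩

end H1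

/-! ### Final exports -/

section Final

variable {R L F : Type*} [CommRing R] [IsDomain R] [IsDiscreteValuationRing R]
  [Field L] [Field F] [Algebra R L] [IsFractionRing R L] [Algebra L F] [Algebra R F]
  [IsScalarTower R L F] {π : R} {O : ValuationSubring F} {τ : F}

/-- **(tor)** for the pair `(s B0, B1)`: bounded `π`-torsion of `B01 / (s B0 + B1)`. -/
theorem tor (h : GoodCoord π O τ) (K : IntermediateField L F) (hK : K = L⟮τ⟯)
    (hfin : FiniteDimensional K F) (hsep : Algebra.IsSeparable K F)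
    {s : F} (hs0 : s ≠ 0) (hs' : s⁻¹ ∈ B01 R τ) :
    ∃ c : ℕ, ∀ x ∈ B01 R τ, ∀ n : ℕ,
      (∃ y0 ∈ B0 R τ, ∃ y1 ∈ B1 R τ, algebraMap R F π ^ n * x = s * y0 + y1) →
      ∃ y0 ∈ B0 R τ, ∃ y1 ∈ B1 R τ, algebraMap R F π ^ c * x = s * y0 + y1 := by
  obtain ⟨n, m, hm, hgen⟩ :=
    exists_generators_B0 h.inv K (hK.trans (adjoin_simple_inv τ).symm) hfin hsep
  set B0m : Submodule R F := subringSubmodule (B0 R τ) (fun r => algebraMap_mem_B0 r) with hB0m
  set B1m : Submodule R F := subringSubmodule (B1 R τ) (fun r => algebraMap_mem_B0 r) with hB1m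
  set X0 : Submodule R F := B0m.map (LinearMap.mulLeft R s) with hX0
  have hmemX0 : ∀ y : F, y ∈ X0 ↔ ∃ y0 ∈ B0 R τ, s * y0 = y := by
    intro y
    rw [hX0, Submodule.mem_map]
    rfl
  have hX0τ : ∀ y ∈ X0, τ * y ∈ X0 := by
    intro y hy
    obtain ⟨y0, hy0, rfl⟩ := (hmemX0 y).mp hy
    exact (hmemX0 _).mpr ⟨τ * y0, (B0 R τ).mul_mem tau_mem_B0 hy0, by ring⟩
  have hX0B : ∀ x ∈ B01 R τ, ∃ N : ℕ, τ ^ N * x ∈ X0 := by
    intro x hx
    obtain ⟨N, hN⟩ := exists_pow_mul_mem_B0 (R := R) h.tau_ne_zero ((B01 R τ).mul_mem hs' hx)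
    refine ⟨N, (hmemX0 _).mpr ⟨_, hN, ?_⟩⟩
    field_simp
  obtain ⟨W, hWfg, hW⟩ := exists_fg_H1 h.tau_ne_zero m hm hgen X0 hX0τ hX0B
  obtain ⟨c, hc⟩ := bounded_torsion (X0 ⊔ B1m) W hWfg π (B01 R τ : Set F) hW
  have hmemX : ∀ y : F, y ∈ X0 ⊔ B1m ↔ ∃ y0 ∈ B0 R τ, ∃ y1 ∈ B1 R τ, y = s * y0 + y1 := by
    intro y
    rw [Submodule.mem_sup]
    constructor
    · rintro ⟨a, ha, b, hb, rfl⟩
      obtain ⟨y0, hy0, rfl⟩ := (hmemX0 a).mp ha
      exact ⟨y0, hy0, b, hb, rfl⟩
    · rintro ⟨y0, hy0, y1, hy1, rfl⟩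
      exact ⟨s * y0, (hmemX0 _).mpr ⟨y0, hy0, rfl⟩, y1, hy1, rfl⟩
  refine ⟨c, fun x hx k hk => ?_⟩
  have h1 : π ^ k • x ∈ X0 ⊔ B1m := by
    rw [Algebra.smul_def, map_pow]
    exact (hmemX _).mpr hk
  have h2 := hc x hx k h1
  rw [Algebra.smul_def, map_pow] at h2
  exact (hmemX _).mp h2

/-- **(M4)** in `Submodule.span` form: `B0` is a finite `R[τ]`-module. -/
theorem exists_finset_span_B0 (h : GoodCoord π O τ) (K : IntermediateField L F) (hK : K = L⟮τ⟯)
    (hfin : FiniteDimensional K F) (hsep : Algebra.IsSeparable K F) :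
    ∃ T : Finset F, (∀ t ∈ T, t ∈ B0 R τ) ∧
      ∀ x ∈ B0 R τ, x ∈ Submodule.span (Algebra.adjoin R {τ}) (T : Set F) := by
  classical
  obtain ⟨n, m, hm, hgen⟩ := exists_generators_B0 h K hK hfin hsep
  refine ⟨Finset.univ.image m, fun t ht => ?_, fun x hx => ?_⟩
  · obtain ⟨j, -, rfl⟩ := Finset.mem_image.mp ht
    exact hm j
  · obtain ⟨c, rfl⟩ := hgen x hx
    refine Submodule.sum_mem _ fun j _ => ?_
    have h1 : m j ∈ Submodule.span (Algebra.adjoin R {τ}) ((Finset.univ.image m : Finset F) : Set F) :=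
      Submodule.subset_span (Finset.mem_coe.mpr (Finset.mem_image_of_mem m (Finset.mem_univ j)))
    have h2 := Submodule.smul_mem _ (toAdjoin R τ (c j)) h1
    exact h2

/-- **(M4)** in `Submodule.span` form: `B1` is a finite `R[τ⁻¹]`-module. -/
theorem exists_finset_span_B1 (h : GoodCoord π O τ) (K : IntermediateField L F) (hK : K = L⟮τ⟯)
    (hfin : FiniteDimensional K F) (hsep : Algebra.IsSeparable K F) :
    ∃ T : Finset F, (∀ t ∈ T, t ∈ B1 R τ) ∧
      ∀ x ∈ B1 R τ, x ∈ Submodule.span (Algebra.adjoin R {τ⁻¹}) (T : Set F) :=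
  exists_finset_span_B0 h.inv K (hK.trans (adjoin_simple_inv τ).symm) hfin hsep

omit [IsDomain R] [IsDiscreteValuationRing R] in
/-- the charts are root closed (they are integrally closed in `F`) -/
theorem rootClosed_B0 {m : ℕ} (hm : 0 < m) : ∀ z : F, z ^ m ∈ B0 R τ → z ∈ B0 R τ :=
  fun _ hz => mem_B0.mpr (IsIntegral.of_pow hm (mem_B0.mp hz))

omit [IsDomain R] [IsDiscreteValuationRing R] in
theorem rootClosed_B1 {m : ℕ} (hm : 0 < m) : ∀ z : F, z ^ m ∈ B1 R τ → z ∈ B1 R τ :=
  rootClosed_B0 hm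

omit [IsDomain R] [IsDiscreteValuationRing R] in
theorem rootClosed_B01 {m : ℕ} (hm : 0 < m) : ∀ z : F, z ^ m ∈ B01 R τ → z ∈ B01 R τ :=
  fun _ hz => mem_B01.mpr (IsIntegral.of_pow hm (mem_B01.mp hz))

/-- **(unit)** an element of `R` congruent to `1` modulo the maximal ideal of `O` is a unit
of `R`. -/
theorem exists_inv_of_sub_one (h : GoodCoord π O τ) (α : R)
    (hα : O.valuation (algebraMap R F α - 1) < 1) :
    ∃ β : R, algebraMap R F β = (algebraMap R F α)⁻¹ := by
  have hunit : IsUnit α := by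
    by_contra hnu
    have hmem : α ∈ IsLocalRing.maximalIdeal R := (IsLocalRing.mem_maximalIdeal α).mpr hnu
    rw [(IsDiscreteValuationRing.irreducible_iff_uniformizer π).mp h.irreducible,
      Ideal.mem_span_singleton] at hmem
    obtain ⟨a, rfl⟩ := hmem
    have h1 : O.valuation (algebraMap R F (π * a)) < 1 := by
      rw [map_mul]
      exact h.lt_one_iff.mpr ⟨_, h.algebraMap_mem a, rfl⟩
    have h2 : O.valuation (algebraMap R F (π * a) - (algebraMap R F (π * a) - 1)) < 1 :=
      Valuation.map_sub_lt _ h1 hα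
    rw [sub_sub_cancel, map_one] at h2
    exact lt_irrefl _ h2
  obtain ⟨u, rfl⟩ := hunit
  refine ⟨↑u⁻¹, ?_⟩
  have h1 : algebraMap R F ↑u * algebraMap R F ↑u⁻¹ = 1 := by
    rw [← map_mul, Units.mul_inv, map_one]
  exact (eq_inv_of_mul_eq_one_right h1)

/-- **(M5)** in the shape of the abstract Čech core. -/
theorem conn' (h : GoodCoord π O τ) (K : IntermediateField L F) (hK : K = L⟮τ⟯)
    (halg : Algebra.IsAlgebraic K F)
    (huniq : ∀ O'' : ValuationSubring F,
      O''.comap (algebraMap K F) = O.comap (algebraMap K F) → O'' = O)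
    (hκ : ∀ y ∈ O, ∀ p : R[X], p.Monic → O.valuation (aeval y p) < 1 →
      ∃ r : R, O.valuation (y - algebraMap R F r) < 1)
    {x0 x1 : F} (h0 : x0 ∈ B0 R τ) (h1 : x1 ∈ B1 R τ)
    (hb : ∃ b ∈ B01 R τ, x0 - x1 = algebraMap R F π * b) :
    ∃ r ∈ (algebraMap R F).range, ∃ b0 ∈ B0 R τ, x0 - r = algebraMap R F π * b0 := by
  obtain ⟨b, hb, hbe⟩ := hb
  have hlt : O.valuation (x0 - x1) < 1 := h.lt_one_iff.mpr ⟨b, B01_le h hb, hbe⟩
  obtain ⟨r, y, hy, hry⟩ := conn h K hK halg huniq hκ h0 h1 hlt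
  exact ⟨algebraMap R F r, ⟨r, rfl⟩, y, hy, hry⟩

end Final

end Fermat.Agent.S18.Core.Charts
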