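/-
S18 (project G), block C (core), leaf C1a (helper19): **place-free constant lemma**.

`K` a field, `E` a field over `K`, `T ∈ E`.  If `x ∈ E` is integral over `K[T]` and over `K[T⁻¹]`
then `x` is integral (hence algebraic) over `K`.  (No transcendence hypothesis is needed.)

Proof: every valuation subring `V` of `E` containing `K` contains `T` or `T⁻¹`, hence `K[T]` or
`K[T⁻¹]`, hence (being integrally closed) `x`; and the intersection of all valuation subrings
containing `K` is the integral closure of `K` in `E`.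

Consumers: (cap)/(conn) of the Čech core, with `E` the residue field `F̄ ⊆ κ((q))`, `K = κ`,
`T = t̄`: an element of `image(B^t) ∩ image(B^{1/t})` is algebraic over `κ`.

Mathlib only.
-/
import Mathlib

set_option autoImplicit false

namespace Fermat.Agent.S18.Core.ConstOfIntegral

open Polynomial WithZero

variable {K E : Type*} [Field K] [Field E] [Algebra K E]

/-- An element integral over a subalgebra contained in a valuation subring lies in it. -/
theorem mem_valuationSubring_of_isIntegral (V : ValuationSubring E) (S : Subalgebra K E)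
    (hS : ∀ y ∈ S, y ∈ V) {x : E} (hx : IsIntegral S x) : x ∈ V := by
  obtain ⟨p, hp, hpx⟩ := hx
  -- `x` is integral over the subring `V`
  have hxV : IsIntegral V x := by
    let φ : S →+* V := RingHom.codRestrict (algebraMap S E) V.toSubring (fun y => hS y y.2)
    refine ⟨p.map φ, hp.map φ, ?_⟩
    rw [eval₂_map]
    have : (algebraMap V E).comp φ = algebraMap S E := by
      ext y; rfl
    rw [this]; exact hpx
  obtain ⟨y, hy⟩ := IsIntegrallyClosedIn.isIntegral_iff.mp hxV
  rw [← hy]; exact y.2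

/-- integrality over the range subring of `algebraMap K E` is integrality over `K` -/
theorem isIntegral_of_isIntegral_closure_range {x : E}
    (hx : IsIntegral (Subring.closure (Set.range (algebraMap K E))) x) : IsIntegral K x := by
  obtain ⟨p, hp, hpx⟩ := hx
  have hcl : Subring.closure (Set.range (algebraMap K E)) = (algebraMap K E).range := by
    rw [← RingHom.coe_range, Subring.closure_eq]
  let φ : K →+* Subring.closure (Set.range (algebraMap K E)) :=
    RingHom.codRestrict (algebraMap K E) _ (fun c => Subring.subset_closure ⟨c, rfl⟩)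
  have hφ : Function.Surjective φ := by
    rintro ⟨y, hy⟩
    have hy' : y ∈ (algebraMap K E).range := by rw [← hcl]; exact hy
    obtain ⟨c, rfl⟩ := hy'
    exact ⟨c, rfl⟩
  have hlift : p ∈ Polynomial.lifts φ := by
    rw [Polynomial.mem_lifts]
    exact Polynomial.map_surjective φ hφ p
  obtain ⟨q, hq, -, hqm⟩ := Polynomial.lifts_and_degree_eq_and_monic hlift hp
  refine ⟨q, hqm, ?_⟩
  have hcomp : algebraMap K E
      = (algebraMap (Subring.closure (Set.range (algebraMap K E))) E).comp φ := by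
    ext c; rfl
  rw [hcomp, ← eval₂_map, hq]
  exact hpx

/-- **C1a.** If `x` is integral over `K[T]` and over `K[T⁻¹]`, then `x` is integral over `K`. -/
theorem isIntegral_of_isIntegral_adjoin_of_isIntegral_adjoin_inv (T x : E)
    (h1 : IsIntegral (Algebra.adjoin K {T}) x) (h2 : IsIntegral (Algebra.adjoin K {T⁻¹}) x) :
    IsIntegral K x := by
  -- `x` lies in every valuation subring containing the image of `K`
  have key : ∀ V : ValuationSubring E, Set.range (algebraMap K E) ⊆ V.toSubring → x ∈ V := by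
    intro V hV
    have hadj : ∀ u : E, u ∈ V → ∀ y ∈ Algebra.adjoin K {u}, y ∈ V := by
      intro u hu y hy
      induction hy using Algebra.adjoin_induction with
      | mem z hz => rw [Set.mem_singleton_iff] at hz; rw [hz]; exact hu
      | algebraMap r => exact hV ⟨r, rfl⟩
      | add a b _ _ ha hb => exact V.add_mem _ _ ha hb
      | mul a b _ _ ha hb => exact V.mul_mem _ _ ha hb
    rcases V.mem_or_inv_mem T with hT | hT
    · exact mem_valuationSubring_of_isIntegral V _ (hadj T hT) h1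
    · exact mem_valuationSubring_of_isIntegral V _ (hadj T⁻¹ hT) h2
  have hmem : x ∈ (⨅ V : {V : ValuationSubring E // Set.range (algebraMap K E) ⊆ V.toSubring},
      V.1.toSubring) := by
    rw [Subring.mem_iInf]
    intro V
    exact key V.1 V.2
  rw [iInf_valuationSubring_superset] at hmem
  exact isIntegral_of_isIntegral_closure_range hmem

/-- algebraic form of C1a -/
theorem isAlgebraic_of_isIntegral_adjoin_of_isIntegral_adjoin_inv (T x : E)
    (h1 : IsIntegral (Algebra.adjoin K {T}) x) (h2 : IsIntegral (Algebra.adjoin K {T⁻¹}) x) :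
    IsAlgebraic K x :=
  (isIntegral_of_isIntegral_adjoin_of_isIntegral_adjoin_inv T x h1 h2).isAlgebraic


/-- polynomial-equation form of integrality over `K[T]`: a monic `p ∈ K[X][Y]` with
`p(T, x) = 0` -/
theorem isIntegral_adjoin_of_monic (T x : E) (p : K[X][X]) (hp : p.Monic)
    (h : eval₂ ((aeval T : K[X] →ₐ[K] E) : K[X] →+* E) x p = 0) :
    IsIntegral (Algebra.adjoin K {T}) x := by
  let φ : K[X] →+* Algebra.adjoin K {T} :=
    RingHom.codRestrict ((aeval T : K[X] →ₐ[K] E) : K[X] →+* E)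
      (Algebra.adjoin K {T}).toSubring (fun f => by
        change aeval T f ∈ Algebra.adjoin K {T}
        rw [Algebra.adjoin_singleton_eq_range_aeval]
        exact ⟨f, rfl⟩)
  refine ⟨p.map φ, hp.map φ, ?_⟩
  rw [eval₂_map]
  have : (algebraMap (Algebra.adjoin K {T}) E).comp φ
      = ((aeval T : K[X] →ₐ[K] E) : K[X] →+* E) := by
    ext y <;> rfl
  rw [this]; exact h

/-- **C1a, polynomial form.** `p₁(T, x) = 0`, `p₂(T⁻¹, x) = 0` with `p₁ p₂ ∈ K[X][Y]` monic in `Y`
imply that `x` is integral over `K`. -/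
theorem isIntegral_of_monic_of_monic_inv (T x : E) (p₁ p₂ : K[X][X]) (hp₁ : p₁.Monic)
    (hp₂ : p₂.Monic)
    (h₁ : eval₂ ((aeval T : K[X] →ₐ[K] E) : K[X] →+* E) x p₁ = 0)
    (h₂ : eval₂ ((aeval T⁻¹ : K[X] →ₐ[K] E) : K[X] →+* E) x p₂ = 0) :
    IsIntegral K x :=
  isIntegral_of_isIntegral_adjoin_of_isIntegral_adjoin_inv T x
    (isIntegral_adjoin_of_monic T x p₁ hp₁ h₁) (isIntegral_adjoin_of_monic T⁻¹ x p₂ hp₂ h₂)

/-- corollary: if the algebraic elements of `E` are the constants, `x` is a constant -/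
theorem exists_eq_algebraMap_of_isIntegral (T x : E)
    (hK : ∀ z : E, IsAlgebraic K z → ∃ c : K, z = algebraMap K E c)
    (h1 : IsIntegral (Algebra.adjoin K {T}) x) (h2 : IsIntegral (Algebra.adjoin K {T⁻¹}) x) :
    ∃ c : K, x = algebraMap K E c :=
  hK x (isAlgebraic_of_isIntegral_adjoin_of_isIntegral_adjoin_inv T x h1 h2)

section Laurent

variable {κ : Type*} [Field κ]

theorem algebraMap_laurent_eq_C (c : κ) :
    (algebraMap κ (LaurentSeries κ)) c = HahnSeries.C c := by
  rw [HahnSeries.algebraMap_apply']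
  exact HahnSeries.ofPowerSeries_C c

/-- an algebraic element of `κ((q))` has no polar part -/
theorem coeff_eq_zero_of_isAlgebraic_of_neg {x : LaurentSeries κ} (hx : IsAlgebraic κ x)
    {n : ℤ} (hn : n < 0) : x.coeff n = 0 := by
  have hxi : IsIntegral κ x := hx.isIntegral
  have hxi' : IsIntegral (⊥ : Subalgebra κ (LaurentSeries κ)) x := hxi.tower_top
  let V : ValuationSubring (LaurentSeries κ) :=
    (Valued.v : Valuation (LaurentSeries κ) ℤᵐ⁰).valuationSubring
  have hbot : ∀ y ∈ (⊥ : Subalgebra κ (LaurentSeries κ)), y ∈ V := by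
    intro y hy
    obtain ⟨c, rfl⟩ := Algebra.mem_bot.mp hy
    change Valued.v (algebraMap κ (LaurentSeries κ) c) ≤ 1
    have : (1 : ℤᵐ⁰) = exp (-(0:ℤ)) := by simp
    rw [this, LaurentSeries.valuation_le_iff_coeff_lt_eq_zero]
    intro n hn
    rw [algebraMap_laurent_eq_C, HahnSeries.C_apply, HahnSeries.coeff_single_of_ne hn.ne]
  have hxV : x ∈ V := mem_valuationSubring_of_isIntegral V _ hbot hxi'
  have hxv : Valued.v x ≤ exp (-(0:ℤ)) := by
    have : (Valued.v x : ℤᵐ⁰) ≤ 1 := hxV
    simpa using this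
  exact LaurentSeries.coeff_zero_of_lt_valuation κ hxv hn

/-- **`κ` is algebraically closed in `κ((q))`**: an algebraic Laurent series is a constant. -/
theorem exists_eq_C_of_isAlgebraic {x : LaurentSeries κ} (hx : IsAlgebraic κ x) :
    ∃ c : κ, x = HahnSeries.C c := by
  refine ⟨x.coeff 0, ?_⟩
  by_contra hne
  set y : LaurentSeries κ := x - HahnSeries.C (x.coeff 0) with hy
  have hy0 : y ≠ 0 := sub_ne_zero.mpr hne
  have hCalg : IsAlgebraic κ (HahnSeries.C (x.coeff 0) : LaurentSeries κ) := by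
    rw [← algebraMap_laurent_eq_C]
    exact isAlgebraic_algebraMap (x.coeff 0)
  have hyalg : IsAlgebraic κ y := hx.sub hCalg
  have hyinv : IsAlgebraic κ y⁻¹ := hyalg.inv
  -- all coefficients of `y` below `1` vanish
  have hcoeff : ∀ n : ℤ, n < 1 → y.coeff n = 0 := by
    intro n hn
    have hn' : n < 0 ∨ n = 0 := by omega
    rcases hn' with h | h
    · exact coeff_eq_zero_of_isAlgebraic_of_neg hyalg h
    · subst h
      simp [hy, HahnSeries.C_apply]
  have hv1 : Valued.v y ≤ exp (-(1:ℤ)) :=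
    (LaurentSeries.valuation_le_iff_coeff_lt_eq_zero κ).mpr hcoeff
  -- `y⁻¹` has valuation `≤ 1`
  have hv2 : Valued.v y⁻¹ ≤ exp (-(0:ℤ)) :=
    (LaurentSeries.valuation_le_iff_coeff_lt_eq_zero κ).mpr
      (fun n hn => coeff_eq_zero_of_isAlgebraic_of_neg hyinv hn)
  have hmul : Valued.v y * Valued.v y⁻¹ = 1 := by
    rw [← map_mul, mul_inv_cancel₀ hy0, map_one]
  have hlt : Valued.v y * Valued.v y⁻¹ ≤ exp (-(1:ℤ)) * exp (-(0:ℤ)) :=
    mul_le_mul' hv1 hv2
  rw [hmul, ← exp_add] at hlt
  have : (1 : ℤᵐ⁰) = exp (0 : ℤ) := by simp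
  rw [this, exp_le_exp] at hlt
  omega


/-- **C1a in `κ((q))`.** A Laurent series integral over `κ[T]` and over `κ[T⁻¹]` is a constant. -/
theorem exists_eq_C_of_isIntegral_adjoin (T x : LaurentSeries κ)
    (h1 : IsIntegral (Algebra.adjoin κ {T}) x) (h2 : IsIntegral (Algebra.adjoin κ {T⁻¹}) x) :
    ∃ c : κ, x = HahnSeries.C c :=
  exists_eq_C_of_isAlgebraic (isAlgebraic_of_isIntegral_adjoin_of_isIntegral_adjoin_inv T x h1 h2)

/-- **C1a in `κ((q))`, polynomial form** (the shape produced by reducing monic equations over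
`R[t]`, `R[1/t]` modulo `π`). -/
theorem exists_eq_C_of_monic_of_monic_inv (T x : LaurentSeries κ) (p₁ p₂ : κ[X][X])
    (hp₁ : p₁.Monic) (hp₂ : p₂.Monic)
    (h₁ : eval₂ ((aeval T : κ[X] →ₐ[κ] LaurentSeries κ) : κ[X] →+* LaurentSeries κ) x p₁ = 0)
    (h₂ : eval₂ ((aeval T⁻¹ : κ[X] →ₐ[κ] LaurentSeries κ) : κ[X] →+* LaurentSeries κ) x p₂ = 0) :
    ∃ c : κ, x = HahnSeries.C c :=
  exists_eq_C_of_isAlgebraic (isIntegral_of_monic_of_monic_inv T x p₁ p₂ hp₁ hp₂ h₁ h₂).isAlgebraic

/-- **C1a in `κ((q))`, instance-free form**: the two coefficient maps `κ[X] → κ((q))` are arbitrary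
ring homomorphisms restricting to `HahnSeries.C` on constants and sending `X` to `T`, `T⁻¹`. -/
theorem exists_eq_C_of_ringHom (T x : LaurentSeries κ) (ψ₁ ψ₂ : κ[X] →+* LaurentSeries κ)
    (hC₁ : ∀ c, ψ₁ (Polynomial.C c) = HahnSeries.C c) (hX₁ : ψ₁ Polynomial.X = T)
    (hC₂ : ∀ c, ψ₂ (Polynomial.C c) = HahnSeries.C c) (hX₂ : ψ₂ Polynomial.X = T⁻¹)
    (p₁ p₂ : κ[X][X]) (hp₁ : p₁.Monic) (hp₂ : p₂.Monic)
    (h₁ : eval₂ ψ₁ x p₁ = 0) (h₂ : eval₂ ψ₂ x p₂ = 0) :
    ∃ c : κ, x = HahnSeries.C c := by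
  have e₁ : ψ₁ = ((aeval T : κ[X] →ₐ[κ] LaurentSeries κ) : κ[X] →+* LaurentSeries κ) := by
    refine Polynomial.ringHom_ext (fun c => ?_) ?_
    · rw [hC₁]
      simp [algebraMap_laurent_eq_C]
    · rw [hX₁]; simp
  have e₂ : ψ₂ = ((aeval T⁻¹ : κ[X] →ₐ[κ] LaurentSeries κ) : κ[X] →+* LaurentSeries κ) := by
    refine Polynomial.ringHom_ext (fun c => ?_) ?_
    · rw [hC₂]
      simp [algebraMap_laurent_eq_C]
    · rw [hX₂]; simp
  rw [e₁] at h₁
  rw [e₂] at h₂
  exact exists_eq_C_of_monic_of_monic_inv T x p₁ p₂ hp₁ hp₂ h₁ h₂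

end Laurent

end Fermat.Agent.S18.Core.ConstOfIntegral
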