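import Mathlib

/-!
# S18 core, bridge leaf: local principal ideal rings

* `isPrincipalIdealRing_of_maximalIdeal_eq_span` : a Noetherian local ring whose maximal ideal is
  principal is a principal ideal ring (no domain hypothesis: DVR, field, or Artinian local PIR).
* `isPrincipalIdealRing_quotient_of_maximalIdeal_le` : `R` Noetherian local, `π ∈ 𝔪`,
  `𝔪 ≤ (π, t)`: then `R ⧸ (π)` is a principal ideal ring.
* `isPrincipalIdealRing_localization_quotient` : the bridge between the elementwise statement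
  `∀ x ∈ 𝔫, ∃ s ∉ 𝔫, s * x ∈ (π, T)` (output of `Purity/EtalePoint`, and of the cusp block) and
  the hypothesis `(N_n)` `IsPrincipalIdealRing (Localization.AtPrime 𝔫 ⧸ span {π})` consumed by
  `Core/StartSection`.
-/

set_option autoImplicit false

namespace Fermat.Agent.S18.Core.LocalPID

open IsLocalRing

/-- A Noetherian local ring with principal maximal ideal is a principal ideal ring. -/
theorem isPrincipalIdealRing_of_maximalIdeal_eq_span {S : Type*} [CommRing S]
    [IsNoetherianRing S] [IsLocalRing S] (t : S) (ht : maximalIdeal S = Ideal.span {t}) :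
    IsPrincipalIdealRing S := by
  refine ⟨fun I => ?_⟩
  by_cases hI : I = ⊥
  · exact ⟨0, by rw [hI, Submodule.span_zero_singleton]⟩
  have hkrull : ⨅ n : ℕ, maximalIdeal S ^ n = ⊥ :=
    Ideal.iInf_pow_eq_bot_of_isLocalRing _ (maximalIdeal.isMaximal S).ne_top
  have hex : ∃ n, ¬ I ≤ maximalIdeal S ^ n := by
    by_contra h
    push Not at h
    apply hI
    rw [eq_bot_iff, ← hkrull]
    exact le_iInf h
  classical
  have hn0 : Nat.find hex ≠ 0 := by
    intro h0
    have h1 := Nat.find_spec hex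
    rw [h0, pow_zero, Ideal.one_eq_top] at h1
    exact h1 le_top
  obtain ⟨k, hk⟩ := Nat.exists_eq_succ_of_ne_zero hn0
  have hle : I ≤ maximalIdeal S ^ k := by
    have h1 := Nat.find_min hex (m := k) (by omega)
    exact not_not.mp h1
  have hnle : ¬ I ≤ maximalIdeal S ^ (k + 1) := by
    have h1 := Nat.find_spec hex
    rwa [hk] at h1
  rw [ht, Ideal.span_singleton_pow] at hle hnle
  obtain ⟨y, hyI, hy⟩ := SetLike.not_le_iff_exists.mp hnle
  obtain ⟨u, rfl⟩ := Ideal.mem_span_singleton.mp (hle hyI)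
  have hu : IsUnit u := by
    by_contra hu
    have hmem : u ∈ maximalIdeal S := (mem_maximalIdeal u).mpr hu
    rw [ht, Ideal.mem_span_singleton] at hmem
    obtain ⟨w, rfl⟩ := hmem
    apply hy
    rw [Ideal.mem_span_singleton]
    exact ⟨w, by ring⟩
  have htk : t ^ k ∈ I := by
    have h1 := I.mul_mem_right (↑hu.unit⁻¹ : S) hyI
    rwa [mul_assoc, IsUnit.mul_val_inv, mul_one] at h1
  refine ⟨t ^ k, le_antisymm ?_ ?_⟩
  · exact hle
  · rw [Submodule.span_singleton_le_iff_mem]
    exact htk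

/-- `R` Noetherian local, `π, t ∈ 𝔪`, `𝔪 ≤ (π, t)`: then `R ⧸ (π)` is a principal ideal ring. -/
theorem isPrincipalIdealRing_quotient_of_maximalIdeal_le {R : Type*} [CommRing R]
    [IsNoetherianRing R] [IsLocalRing R] (π t : R) (hπ : π ∈ maximalIdeal R)
    (ht : t ∈ maximalIdeal R) (h : maximalIdeal R ≤ Ideal.span {π, t}) :
    IsPrincipalIdealRing (R ⧸ Ideal.span {π}) := by
  have hne : Ideal.span {π} ≠ ⊤ := by
    intro htop
    apply (maximalIdeal.isMaximal R).ne_top
    rw [eq_top_iff, ← htop, Ideal.span_singleton_le_iff_mem]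
    exact hπ
  have hnt : Nontrivial (R ⧸ Ideal.span {π}) := Ideal.Quotient.nontrivial_iff.mpr hne
  have hloc : IsLocalRing (R ⧸ Ideal.span {π}) :=
    IsLocalRing.of_surjective' (Ideal.Quotient.mk _) Ideal.Quotient.mk_surjective
  have hmap : (maximalIdeal R).map (Ideal.Quotient.mk (Ideal.span {π})) =
      maximalIdeal (R ⧸ Ideal.span {π}) :=
    map_maximalIdeal_of_surjective _ Ideal.Quotient.mk_surjective
  refine isPrincipalIdealRing_of_maximalIdeal_eq_span
    (Ideal.Quotient.mk (Ideal.span {π}) t) ?_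
  apply le_antisymm
  · rw [← hmap]
    refine (Ideal.map_mono h).trans ?_
    rw [Ideal.map_span, Ideal.span_le]
    rintro _ ⟨z, hz, rfl⟩
    rcases hz with rfl | rfl
    · have h0 : Ideal.Quotient.mk (Ideal.span {z}) z = 0 :=
        Ideal.Quotient.eq_zero_iff_mem.mpr (Ideal.mem_span_singleton_self z)
      rw [h0]
      exact Ideal.zero_mem _
    · exact Ideal.mem_span_singleton_self _
  · rw [Ideal.span_singleton_le_iff_mem, ← hmap]
    exact Ideal.mem_map_of_mem _ ht

/-- **Bridge.** `B` Noetherian, `𝔫` a prime ideal, `π, T ∈ 𝔫` with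
`∀ x ∈ 𝔫, ∃ s ∉ 𝔫, s * x ∈ (π, T)` (i.e. `𝔫 B_𝔫 = (π, T) B_𝔫`). Then `B_𝔫 ⧸ (π)` is a principal
ideal ring: this is hypothesis `(N_n)` of `Core/StartSection`. -/
theorem isPrincipalIdealRing_localization_quotient {B : Type*} [CommRing B] [IsNoetherianRing B]
    (𝔫 : Ideal B) [h𝔫 : 𝔫.IsPrime] (π T : B) (hπ : π ∈ 𝔫) (hT : T ∈ 𝔫)
    (h : ∀ x ∈ 𝔫, ∃ s, s ∉ 𝔫 ∧ s * x ∈ Ideal.span {π, T}) :
    IsPrincipalIdealRing (Localization.AtPrime 𝔫 ⧸
      Ideal.span {algebraMap B (Localization.AtPrime 𝔫) π}) := by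
  have hN : IsNoetherianRing (Localization.AtPrime 𝔫) :=
    IsLocalization.isNoetherianRing 𝔫.primeCompl _ inferInstance
  have hmax : maximalIdeal (Localization.AtPrime 𝔫) =
      𝔫.map (algebraMap B (Localization.AtPrime 𝔫)) :=
    (Localization.AtPrime.map_eq_maximalIdeal).symm
  refine isPrincipalIdealRing_quotient_of_maximalIdeal_le _
    (algebraMap B (Localization.AtPrime 𝔫) T) ?_ ?_ ?_
  · rw [hmax]
    exact Ideal.mem_map_of_mem _ hπ
  · rw [hmax]
    exact Ideal.mem_map_of_mem _ hT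
  · rw [hmax, Ideal.map_le_iff_le_comap]
    intro x hx
    obtain ⟨s, hs, hsx⟩ := h x hx
    rw [Ideal.mem_comap]
    have hu : IsUnit (algebraMap B (Localization.AtPrime 𝔫) s) :=
      IsLocalization.map_units (Localization.AtPrime 𝔫) (⟨s, hs⟩ : 𝔫.primeCompl)
    have hmem : algebraMap B (Localization.AtPrime 𝔫) (s * x) ∈
        Ideal.span {algebraMap B (Localization.AtPrime 𝔫) π,
          algebraMap B (Localization.AtPrime 𝔫) T} := by
      have h1 := Ideal.mem_map_of_mem (algebraMap B (Localization.AtPrime 𝔫)) hsx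
      rwa [Ideal.map_span, Set.image_pair] at h1
    rw [map_mul] at hmem
    exact (Ideal.unit_mul_mem_iff_mem _ hu).mp hmem

end Fermat.Agent.S18.Core.LocalPID
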