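/-
S18, block C, leaf C0-M: the abstract Čech/deformation core in MODULE FORM.

`F` a field, `R ≤ B0, B1 ≤ B01` subrings (two affine charts of a curve over the DVR `R`
and their intersection), `π ∈ R`, `f : F`, `m : ℕ`.  For a chart `X` put
`Sec X f m = {y | f * y ^ m ∈ X}` (the sections over `X` of the line bundle `O(div f / m)`).
If the charts are `m`-root-closed, `Sec X f m` is an `X`-module.  The theorem
`exists_global_section` produces, from starting sections on the two charts which agree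
modulo `π`, a global section `y` with `f * y ^ m ∈ B0 ⊓ B1`, `f * y ^ m ≡ 1 mod π`.
Mathlib only.
-/
import Mathlib

set_option autoImplicit false

namespace Fermat.Agent.S18.Core.CechM

variable {F : Type*} [Field F]

/-- `X` is `m`-root-closed in `F`. -/
def RootClosed (X : Subring F) (m : ℕ) : Prop := ∀ z : F, z ^ m ∈ X → z ∈ X

/-- Sections over the chart `X` of the line bundle attached to `(f, m)`. -/
def Sec (X : Subring F) (f : F) (m : ℕ) : Set F := {y | f * y ^ m ∈ X}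

theorem mem_Sec {X : Subring F} {f : F} {m : ℕ} {y : F} : y ∈ Sec X f m ↔ f * y ^ m ∈ X :=
  Iff.rfl

theorem Sec_mono {X Y : Subring F} (h : X ≤ Y) {f : F} {m : ℕ} {y : F}
    (hy : y ∈ Sec X f m) : y ∈ Sec Y f m := h hy

section closure

variable {X : Subring F} {f : F} {m : ℕ}

/-- mixed monomials of two sections lie in the chart. -/
theorem mul_pow_mul_pow_mem (hX : RootClosed X m) {y y' : F}
    (hy : y ∈ Sec X f m) (hy' : y' ∈ Sec X f m) {k : ℕ} (hk : k ≤ m) :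
    f * (y ^ k * y' ^ (m - k)) ∈ X := by
  apply hX
  have h : (f * (y ^ k * y' ^ (m - k))) ^ m = (f * y ^ m) ^ k * (f * y' ^ m) ^ (m - k) := by
    have hm : m = k + (m - k) := by omega
    calc (f * (y ^ k * y' ^ (m - k))) ^ m
        = f ^ m * (y ^ k) ^ m * (y' ^ (m - k)) ^ m := by rw [mul_pow, mul_pow]; ring
      _ = f ^ (k + (m - k)) * (y ^ m) ^ k * (y' ^ m) ^ (m - k) := by
          rw [← hm, ← pow_mul, ← pow_mul, ← pow_mul, ← pow_mul, mul_comm k m,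
            mul_comm (m - k) m]
      _ = (f * y ^ m) ^ k * (f * y' ^ m) ^ (m - k) := by
          rw [pow_add, mul_pow, mul_pow]; ring
  rw [h]
  exact X.mul_mem (X.pow_mem hy _) (X.pow_mem hy' _)

theorem Sec_smul {y : F} (hy : y ∈ Sec X f m) {x : F} (hx : x ∈ X) : x * y ∈ Sec X f m := by
  show f * (x * y) ^ m ∈ X
  have : f * (x * y) ^ m = x ^ m * (f * y ^ m) := by rw [mul_pow]; ring
  rw [this]
  exact X.mul_mem (X.pow_mem hx _) hy

theorem Sec_smul' {y : F} (hy : y ∈ Sec X f m) {x : F} (hx : x ∈ X) : y * x ∈ Sec X f m := by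
  rw [mul_comm]; exact Sec_smul hy hx

theorem Sec_neg {y : F} (hy : y ∈ Sec X f m) : -y ∈ Sec X f m := by
  have : -y = (-1 : F) * y := by ring
  rw [this]
  exact Sec_smul hy (X.neg_mem X.one_mem)

/-- pure binomial expansion, first order. -/
theorem add_mul_pow_one (a b c : F) (m : ℕ) :
    (a + c * b) ^ m = a ^ m + c * ∑ j ∈ Finset.range m, (m.choose j : F) * c ^ (m - j - 1) *
      (a ^ j * b ^ (m - j)) := by
  rw [add_pow, Finset.sum_range_succ, Finset.mul_sum]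
  have hlast : a ^ m * (c * b) ^ (m - m) * (m.choose m : F) = a ^ m := by simp
  rw [hlast, add_comm]
  congr 1
  refine Finset.sum_congr rfl fun j hj => ?_
  have hj' : j < m := Finset.mem_range.mp hj
  have hsplit : m - j = (m - j - 1) + 1 := by omega
  rw [mul_pow]
  conv_lhs => rw [hsplit, pow_succ c]
  rw [← hsplit]
  ring

/-- pure binomial expansion, second order. -/
theorem add_mul_pow_two (a b c : F) (n : ℕ) :
    (a + c * b) ^ (n + 1) = a ^ (n + 1) + c * (((n + 1 : ℕ) : F) * (a ^ n * b)) +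
      c ^ 2 * ∑ j ∈ Finset.range n, ((n + 1).choose j : F) * c ^ (n + 1 - j - 2) *
        (a ^ j * b ^ (n + 1 - j)) := by
  rw [add_pow, Finset.sum_range_succ, Finset.sum_range_succ, Finset.mul_sum]
  have h1 : a ^ (n + 1) * (c * b) ^ (n + 1 - (n + 1)) * ((n + 1).choose (n + 1) : F)
      = a ^ (n + 1) := by simp
  have h2 : a ^ n * (c * b) ^ (n + 1 - n) * ((n + 1).choose n : F)
      = c * (((n + 1 : ℕ) : F) * (a ^ n * b)) := by
    rw [Nat.add_sub_cancel_left, Nat.choose_succ_self_right, pow_one]; ring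
  rw [h1, h2]
  have h3 : ∑ x ∈ Finset.range n, a ^ x * (c * b) ^ (n + 1 - x) * ((n + 1).choose x : F) =
      ∑ i ∈ Finset.range n, c ^ 2 * (((n + 1).choose i : F) * c ^ (n + 1 - i - 2) *
        (a ^ i * b ^ (n + 1 - i))) := by
    refine Finset.sum_congr rfl fun j hj => ?_
    have hj' : j < n := Finset.mem_range.mp hj
    have hsplit : n + 1 - j = (n + 1 - j - 2) + 2 := by omega
    rw [mul_pow]
    conv_lhs => rw [hsplit, pow_add c]
    rw [← hsplit]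
    ring
  rw [h3]; ring

/-- binomial expansion with all terms in the chart: `f (a + c b)^m = f a^m + c * r`. -/
theorem exists_expand_one (hX : RootClosed X m) {a b c : F}
    (ha : a ∈ Sec X f m) (hb : b ∈ Sec X f m) (hc : c ∈ X) :
    ∃ r ∈ X, f * (a + c * b) ^ m = f * a ^ m + c * r := by
  refine ⟨∑ j ∈ Finset.range m, (m.choose j : F) * c ^ (m - j - 1) *
      (f * (a ^ j * b ^ (m - j))), ?_, ?_⟩
  · refine X.sum_mem fun j hj => ?_
    have hj' : j ≤ m := (Finset.mem_range.mp hj).le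
    exact X.mul_mem (X.mul_mem (natCast_mem X _) (X.pow_mem hc _))
      (mul_pow_mul_pow_mem hX ha hb hj')
  · rw [add_mul_pow_one, mul_add, ← mul_assoc, mul_comm f c, mul_assoc, Finset.mul_sum]
    congr 2
    refine Finset.sum_congr rfl fun j _ => ?_
    ring

theorem Sec_add (hX : RootClosed X m) {y y' : F}
    (hy : y ∈ Sec X f m) (hy' : y' ∈ Sec X f m) : y + y' ∈ Sec X f m := by
  obtain ⟨r, hr, h⟩ := exists_expand_one hX hy hy' X.one_mem
  show f * (y + y') ^ m ∈ X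
  have : y + y' = y + 1 * y' := by ring
  rw [this, h]
  exact X.add_mem hy (X.mul_mem X.one_mem hr)

theorem Sec_sub (hX : RootClosed X m) {y y' : F}
    (hy : y ∈ Sec X f m) (hy' : y' ∈ Sec X f m) : y - y' ∈ Sec X f m := by
  rw [sub_eq_add_neg]; exact Sec_add hX hy (Sec_neg hy')

/-- second order expansion: `f (a + c b)^m = f a^m + c * (m * (f a^(m-1) b)) + c^2 * r`. -/
theorem exists_expand_two (hX : RootClosed X m) (hm : m ≠ 0) {a b c : F}
    (ha : a ∈ Sec X f m) (hb : b ∈ Sec X f m) (hc : c ∈ X) :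
    ∃ r ∈ X, f * (a + c * b) ^ m =
      f * a ^ m + c * ((m : F) * (f * (a ^ (m - 1) * b))) + c ^ 2 * r := by
  obtain ⟨n, rfl⟩ := Nat.exists_eq_succ_of_ne_zero hm
  refine ⟨∑ j ∈ Finset.range n, ((n + 1).choose j : F) * c ^ (n + 1 - j - 2) *
      (f * (a ^ j * b ^ (n + 1 - j))), ?_, ?_⟩
  · refine X.sum_mem fun j hj => ?_
    have hj' : j ≤ n + 1 := by have := Finset.mem_range.mp hj; omega
    exact X.mul_mem (X.mul_mem (natCast_mem X _) (X.pow_mem hc _))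
      (mul_pow_mul_pow_mem hX ha hb hj')
  · show f * (a + c * b) ^ (n + 1) = f * a ^ (n + 1) +
        c * (((n + 1 : ℕ) : F) * (f * (a ^ (n + 1 - 1) * b))) + c ^ 2 * _
    rw [add_mul_pow_two, Nat.add_sub_cancel, mul_add, mul_add]
    have hs : f * (c ^ 2 * ∑ j ∈ Finset.range n, ((n + 1).choose j : F) * c ^ (n + 1 - j - 2) *
          (a ^ j * b ^ (n + 1 - j))) =
        c ^ 2 * ∑ j ∈ Finset.range n, ((n + 1).choose j : F) * c ^ (n + 1 - j - 2) *
          (f * (a ^ j * b ^ (n + 1 - j))) := by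
      rw [← mul_assoc, mul_comm f (c ^ 2), mul_assoc, Finset.mul_sum]
      congr 1
      refine Finset.sum_congr rfl fun j _ => ?_
      ring
    rw [hs]; ring

end closure

section main

variable (R B0 B1 B01 : Subring F) (π : F) (m : ℕ) (f : F)

/-- connectedness modulo `π ^ n`, from connectedness modulo `π` and saturation. -/
theorem conn_pow
    (h1 : B1 ≤ B01) (hR0 : R ≤ B0) (hπR : π ∈ R) (hπ0 : π ≠ 0)
    (hsat1 : ∀ x ∈ B01, π * x ∈ B1 → x ∈ B1)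
    (hconn : ∀ x0 ∈ B0, ∀ x1 ∈ B1, (∃ b ∈ B01, x0 - x1 = π * b) →
      ∃ r ∈ R, ∃ b0 ∈ B0, x0 - r = π * b0)
    (h0 : B0 ≤ B01) (hR1 : R ≤ B1) :
    ∀ n : ℕ, ∀ x0 ∈ B0, ∀ x1 ∈ B1, (∃ b ∈ B01, x0 - x1 = π ^ n * b) →
      ∃ r ∈ R, ∃ b0 ∈ B0, ∃ b1 ∈ B1, x0 - r = π ^ n * b0 ∧ x1 - r = π ^ n * b1 := by
  intro n
  induction n with
  | zero =>
    intro x0 hx0 x1 hx1 _
    exact ⟨0, R.zero_mem, x0, hx0, x1, hx1, by simp, by simp⟩
  | succ n ih =>
    intro x0 hx0 x1 hx1 ⟨b, hb, hbe⟩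
    obtain ⟨r, hr, b0, hb0, b1, hb1, e0, e1⟩ :=
      ih x0 hx0 x1 hx1 ⟨π * b, B01.mul_mem (h0 (hR0 hπR)) hb, by rw [hbe]; ring⟩
    -- b0 - b1 = π * b
    have hπn : π ^ n ≠ 0 := pow_ne_zero _ hπ0
    have hdiff : b0 - b1 = π * b := by
      have : π ^ n * (b0 - b1) = π ^ n * (π * b) := by
        rw [mul_sub, ← e0, ← e1, sub_sub_sub_cancel_right, hbe]; ring
      exact mul_left_cancel₀ hπn this
    obtain ⟨r', hr', c0, hc0, ec0⟩ := hconn b0 hb0 b1 hb1 ⟨b, hb, hdiff⟩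
    have hc1 : b1 - r' = π * (c0 - b) := by
      have : b1 - r' = (b0 - r') - (b0 - b1) := by ring
      rw [this, ec0, hdiff]; ring
    have hc1mem : c0 - b ∈ B1 := by
      refine hsat1 _ (B01.sub_mem (h0 hc0) hb) ?_
      rw [← hc1]
      exact B1.sub_mem hb1 (hR1 hr')
    refine ⟨r + π ^ n * r', R.add_mem hr (R.mul_mem (R.pow_mem hπR _) hr'), c0, hc0,
      c0 - b, hc1mem, ?_, ?_⟩
    · have : x0 - (r + π ^ n * r') = (x0 - r) - π ^ n * r' := by ring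
      rw [this, e0, pow_succ, mul_assoc, ← ec0]; ring
    · have : x1 - (r + π ^ n * r') = (x1 - r) - π ^ n * r' := by ring
      rw [this, e1, pow_succ, mul_assoc, ← hc1]; ring

/-- The state of the induction at precision `π ^ n`. -/
def Approx (n : ℕ) : Prop :=
  ∃ y0 ∈ Sec B0 f m, ∃ y1 ∈ Sec B1 f m, ∃ w ∈ Sec B01 f m,
    y0 - y1 = π ^ n * w ∧ ∃ b ∈ B0, f * y0 ^ m - 1 = π * b

variable {R B0 B1 B01 π m f}

/-- one step of the deformation argument: precision `n ≥ 1` improves to `n + 1`. -/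
theorem approx_succ
    (hR0 : R ≤ B0) (hR1 : R ≤ B1) (h0 : B0 ≤ B01) (h1 : B1 ≤ B01)
    (hπR : π ∈ R) (hπ0 : π ≠ 0) (hπinv : π⁻¹ ∉ B01)
    (hunit : ∀ α ∈ R, (∃ b ∈ B01, α - 1 = π * b) → α⁻¹ ∈ R)
    (hmR : (m : F)⁻¹ ∈ R) (hm0 : (m : F) ≠ 0)
    (hsat1 : ∀ x ∈ B01, π * x ∈ B1 → x ∈ B1)
    (hroot0 : RootClosed B0 m) (hroot1 : RootClosed B1 m) (hroot01 : RootClosed B01 m)
    (hconn : ∀ x0 ∈ B0, ∀ x1 ∈ B1, (∃ b ∈ B01, x0 - x1 = π * b) →
      ∃ r ∈ R, ∃ b0 ∈ B0, x0 - r = π * b0)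
    {n : ℕ} (hn : 1 ≤ n) (h : Approx B0 B1 B01 π m f n) :
    Approx B0 B1 B01 π m f (n + 1) := by
  have hm : m ≠ 0 := by rintro rfl; simp at hm0
  obtain ⟨y0, hy0, y1, hy1, w, hw, hyw, b, hb, hfb⟩ := h
  have hπB0 : π ∈ B0 := hR0 hπR
  have hπB1 : π ∈ B1 := hR1 hπR
  have hπB01 : π ∈ B01 := h0 hπB0
  have hπn01 : π ^ n ∈ B01 := B01.pow_mem hπB01 n
  have hπn : π ^ n ≠ 0 := pow_ne_zero _ hπ0
  have hy1' : y1 ∈ Sec B01 f m := Sec_mono h1 hy1
  -- expansion of a0 = f y0^m around y1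
  have hy0eq : y0 = y1 + π ^ n * w := by rw [← hyw]; ring
  obtain ⟨r, hr, hexp⟩ := exists_expand_two hroot01 hm hy1' hw hπn01
  set a0 := f * y0 ^ m with ha0
  set a1 := f * y1 ^ m with ha1
  have ha0mem : a0 ∈ B0 := hy0
  have ha1mem : a1 ∈ B1 := hy1
  set w' := (m : F) * (f * (y1 ^ (m - 1) * w)) + π ^ n * r with hw'
  have hw'mem : w' ∈ B01 := by
    refine B01.add_mem (B01.mul_mem (natCast_mem B01 _) ?_) (B01.mul_mem hπn01 hr)
    have := mul_pow_mul_pow_mem hroot01 hy1' hw (k := m - 1) (by omega)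
    have h1' : m - (m - 1) = 1 := by omega
    rwa [h1', pow_one] at this
  have hdiff : a0 - a1 = π ^ n * w' := by
    rw [ha0, hy0eq, hexp, hw']; ring
  obtain ⟨α, hα, e0, he0, e1, he1, hαe0, hαe1⟩ :=
    conn_pow R B0 B1 B01 π h1 hR0 hπR hπ0 hsat1 hconn h0 hR1 n a0 ha0mem a1 ha1mem
      ⟨w', hw'mem, hdiff⟩
  -- e0 - e1 = w'
  have he01 : e0 - e1 = w' := by
    have : π ^ n * (e0 - e1) = π ^ n * w' := by
      rw [mul_sub, ← hαe0, ← hαe1, sub_sub_sub_cancel_right, hdiff]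
    exact mul_left_cancel₀ hπn this
  -- α is a unit of R
  obtain ⟨k, rfl⟩ : ∃ k, n = k + 1 := ⟨n - 1, by omega⟩
  have hα1 : α - 1 = π * (b - π ^ k * e0) := by
    have : α - 1 = (a0 - 1) - (a0 - α) := by ring
    rw [this, hfb, hαe0, pow_succ]; ring
  have hαinv : α⁻¹ ∈ R :=
    hunit α hα ⟨b - π ^ k * e0, B01.sub_mem (h0 hb)
      (B01.mul_mem (B01.pow_mem hπB01 _) (h0 he0)), hα1⟩
  have hα0 : α ≠ 0 := by
    rintro rfl
    apply hπinv
    have h' : π * (b - π ^ k * e0) = -1 := by rw [← hα1]; ring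
    have h'' : π * (-(b - π ^ k * e0)) = 1 := by linear_combination -h'
    have : π⁻¹ = -(b - π ^ k * e0) := (eq_inv_of_mul_eq_one_right h'').symm
    rw [this]
    exact B01.neg_mem (B01.sub_mem (h0 hb) (B01.mul_mem (B01.pow_mem hπB01 _) (h0 he0)))
  set β := (m : F)⁻¹ * α⁻¹ with hβ
  have hβR : β ∈ R := R.mul_mem hmR hαinv
  have hβ1 : β * ((m : F) * α) = 1 := by
    rw [hβ]; field_simp
  -- the key identity
  set z0 := y0 * e0 with hz0
  set z1 := y1 * e1 with hz1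
  have hz0mem : z0 ∈ Sec B0 f m := Sec_smul' hy0 he0
  have hz1mem : z1 ∈ Sec B1 f m := Sec_smul' hy1 he1
  set w2 := w * e0 + (m : F) * e1 * w + r * y1 with hw2
  have hw2mem : w2 ∈ Sec B01 f m := by
    refine Sec_add hroot01 (Sec_add hroot01 (Sec_smul' hw (h0 he0)) ?_) (Sec_smul hy1' hr)
    exact Sec_smul hw (B01.mul_mem (natCast_mem B01 _) (h1 he1))
  have hm1 : y1 ^ (m - 1) * y1 = y1 ^ m := by
    rw [← pow_succ]; congr 1; omega
  have hkey : (m : F) * α * w = z0 - z1 - π ^ (k + 1) * w2 := by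
    have hA : y1 * (e0 - e1) = (m : F) * a1 * w + π ^ (k + 1) * (r * y1) := by
      rw [he01, hw', ha1, ← hm1]; ring
    have hB : a1 = α + π ^ (k + 1) * e1 := by rw [← hαe1]; ring
    rw [hB] at hA
    rw [hz0, hz1, hw2, hy0eq]
    linear_combination -hA
  have hwsol : w = β * z0 - β * z1 - π ^ (k + 1) * (β * w2) := by
    have : w = β * ((m : F) * α * w) := by rw [← mul_assoc, ← mul_assoc, mul_assoc β, hβ1, one_mul]
    rw [this, hkey]; ring
  -- new approximations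
  have hβB0 : β ∈ B0 := hR0 hβR
  have hβB1 : β ∈ B1 := hR1 hβR
  have hc0 : -(π ^ (k + 1) * β) ∈ B0 := B0.neg_mem (B0.mul_mem (B0.pow_mem hπB0 _) hβB0)
  have hc1 : -(π ^ (k + 1) * β) ∈ B1 := B1.neg_mem (B1.mul_mem (B1.pow_mem hπB1 _) hβB1)
  refine ⟨y0 + -(π ^ (k + 1) * β) * z0, Sec_add hroot0 hy0 (Sec_smul hz0mem hc0),
    y1 + -(π ^ (k + 1) * β) * z1, Sec_add hroot1 hy1 (Sec_smul hz1mem hc1),
    π ^ k * (-(β * w2)), ?_, ?_, ?_⟩
  · exact Sec_smul (Sec_neg (Sec_smul hw2mem (h0 hβB0))) (B01.pow_mem hπB01 _)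
  · have : y0 + -(π ^ (k + 1) * β) * z0 - (y1 + -(π ^ (k + 1) * β) * z1) =
        (y0 - y1) - π ^ (k + 1) * (β * z0 - β * z1) := by ring
    rw [this, hyw]
    have h2 : π ^ (k + 1) * w - π ^ (k + 1) * (β * z0 - β * z1) =
        π ^ (k + 1) * (w - (β * z0 - β * z1)) := by ring
    rw [h2]
    have h3 : w - (β * z0 - β * z1) = -(π ^ (k + 1) * (β * w2)) := by
      linear_combination hwsol
    rw [h3]; ring
  · obtain ⟨r', hr', hexp'⟩ := exists_expand_one hroot0 hy0 hz0mem hc0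
    refine ⟨b - π ^ k * β * r', B0.sub_mem hb
      (B0.mul_mem (B0.mul_mem (B0.pow_mem hπB0 _) hβB0) hr'), ?_⟩
    rw [hexp']
    have : f * y0 ^ m + -(π ^ (k + 1) * β) * r' - 1 = (f * y0 ^ m - 1) - π ^ (k + 1) * β * r' := by
      ring
    rw [this, ← ha0, hfb, pow_succ]; ring

/-- **The abstract core, module form.** -/
theorem exists_global_section
    (hR0 : R ≤ B0) (hR1 : R ≤ B1) (h0 : B0 ≤ B01) (h1 : B1 ≤ B01)
    (hπR : π ∈ R) (hπ0 : π ≠ 0) (hπinv : π⁻¹ ∉ B01)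
    (hunit : ∀ α ∈ R, (∃ b ∈ B01, α - 1 = π * b) → α⁻¹ ∈ R)
    (hmR : (m : F)⁻¹ ∈ R) (hm0 : (m : F) ≠ 0)
    (hsat1 : ∀ x ∈ B01, π * x ∈ B1 → x ∈ B1)
    (hroot0 : RootClosed B0 m) (hroot1 : RootClosed B1 m) (hroot01 : RootClosed B01 m)
    (hconn : ∀ x0 ∈ B0, ∀ x1 ∈ B1, (∃ b ∈ B01, x0 - x1 = π * b) →
      ∃ r ∈ R, ∃ b0 ∈ B0, x0 - r = π * b0)
    (htor : ∃ c : ℕ, ∀ w ∈ Sec B01 f m, ∀ n : ℕ,
      (∃ z0 ∈ Sec B0 f m, ∃ z1 ∈ Sec B1 f m, π ^ n * w = z0 - z1) →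
        ∃ z0 ∈ Sec B0 f m, ∃ z1 ∈ Sec B1 f m, π ^ c * w = z0 - z1)
    (hstart : Approx B0 B1 B01 π m f 1) :
    ∃ y : F, y ≠ 0 ∧ f * y ^ m ∈ B0 ∧ f * y ^ m ∈ B1 ∧ ∃ b ∈ B0, f * y ^ m - 1 = π * b := by
  have hm : m ≠ 0 := by rintro rfl; simp at hm0
  obtain ⟨c, hc⟩ := htor
  have hall : ∀ n, 1 ≤ n → Approx B0 B1 B01 π m f n := by
    intro n hn
    induction n, hn using Nat.le_induction with
    | base => exact hstart
    | succ n hn ih =>
      exact approx_succ hR0 hR1 h0 h1 hπR hπ0 hπinv hunit hmR hm0 hsat1 hroot0 hroot1 hroot01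
        hconn hn ih
  obtain ⟨y0, hy0, y1, hy1, w, hw, hyw, b, hb, hfb⟩ := hall (c + 1) (by omega)
  obtain ⟨z0, hz0, z1, hz1, hz⟩ := hc w hw (c + 1) ⟨y0, hy0, y1, hy1, hyw.symm⟩
  have hπB0 : π ∈ B0 := hR0 hπR
  have hπB1 : π ∈ B1 := hR1 hπR
  have hy01 : y0 + -π * z0 = y1 + -π * z1 := by
    have : y0 - y1 = π * (z0 - z1) := by rw [hyw, pow_succ, ← hz]; ring
    linear_combination this
  have hmem0 : y0 + -π * z0 ∈ Sec B0 f m :=
    Sec_add hroot0 hy0 (Sec_smul hz0 (B0.neg_mem hπB0))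
  have hmem1 : y0 + -π * z0 ∈ Sec B1 f m := by
    rw [hy01]; exact Sec_add hroot1 hy1 (Sec_smul hz1 (B1.neg_mem hπB1))
  obtain ⟨r', hr', hexp'⟩ := exists_expand_one hroot0 hy0 hz0 (B0.neg_mem hπB0)
  have hcong : f * (y0 + -π * z0) ^ m - 1 = π * (b - r') := by
    rw [hexp']
    have : f * y0 ^ m + -π * r' - 1 = (f * y0 ^ m - 1) - π * r' := by ring
    rw [this, hfb]; ring
  refine ⟨y0 + -π * z0, ?_, hmem0, hmem1, b - r', B0.sub_mem hb hr', hcong⟩
  -- nonvanishing: otherwise -1 = π * (b - r'), so π⁻¹ ∈ B0 ≤ B01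
  intro hzero
  apply hπinv
  rw [hzero, zero_pow hm, mul_zero, zero_sub] at hcong
  have h'' : π * (-(b - r')) = 1 := by linear_combination hcong
  have : π⁻¹ = -(b - r') := (eq_inv_of_mul_eq_one_right h'').symm
  rw [this]
  exact B01.neg_mem (h0 (B0.sub_mem hb hr'))

end main

end Fermat.Agent.S18.Core.CechM
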