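/-
S18, block C, leaf C3a: the abstract core `CechM.exists_global_section` repackaged with a
valuation subring `O` (the Gauss valuation, uniformiser `π`): starting sections are given by
`v(y_i - 1) > 0`, saturation/connectedness are stated valuation-theoretically, and the output
is `f * y ^ m = c` with `c ∈ R`, `c ≠ 0`.
-/
import Mathlib
import Fermat.Agent.S18.Core.CechM

set_option autoImplicit false

namespace Fermat.Agent.S18.Core.CechVal

open Fermat.Agent.S18.Core.CechM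

variable {F : Type*} [Field F]

/-- iterated saturation. -/
theorem sat_pow {X : Subring F} {O : ValuationSubring F} {π : F} (hπO : π ∈ O)
    (hsat : ∀ x ∈ O, π * x ∈ X → x ∈ X) :
    ∀ (k : ℕ) (x : F), x ∈ O → π ^ k * x ∈ X → x ∈ X := by
  intro k
  induction k with
  | zero => intro x _ hx; simpa using hx
  | succ k ih =>
    intro x hxO hx
    refine hsat x hxO (ih (π * x) (O.mul_mem _ _ hπO hxO) ?_)
    have : π ^ k * (π * x) = π ^ (k + 1) * x := by rw [pow_succ]; ring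
    rw [this]; exact hx

theorem exists_const_of_starts
    (R B0 B1 B01 : Subring F) (O : ValuationSubring F) (π : F) (m : ℕ) (f : F)
    (hR0 : R ≤ B0) (hR1 : R ≤ B1) (h0 : B0 ≤ B01) (h1 : B1 ≤ B01) (h01O : ∀ x ∈ B01, x ∈ O)
    (hπR : π ∈ R) (hπ0 : π ≠ 0) (hπv : O.valuation π < 1)
    (hgen : ∀ x : F, O.valuation x < 1 → ∃ y ∈ O, x = π * y)
    (hunit : ∀ α ∈ R, O.valuation α = 1 → α⁻¹ ∈ R)
    (hmR : (m : F)⁻¹ ∈ R) (hm0 : (m : F) ≠ 0)
    (hsat0 : ∀ x ∈ O, π * x ∈ B0 → x ∈ B0) (hsat1 : ∀ x ∈ O, π * x ∈ B1 → x ∈ B1)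
    (hsat01 : ∀ x ∈ O, π * x ∈ B01 → x ∈ B01)
    (hroot0 : RootClosed B0 m) (hroot1 : RootClosed B1 m) (hroot01 : RootClosed B01 m)
    (hconn : ∀ x0 ∈ B0, ∀ x1 ∈ B1, O.valuation (x0 - x1) < 1 →
      ∃ r ∈ R, O.valuation (x0 - r) < 1)
    (hcap : ∀ x ∈ B0, x ∈ B1 → x ∈ R)
    (htor : ∃ c : ℕ, ∀ w ∈ Sec B01 f m, ∀ n : ℕ,
      (∃ z0 ∈ Sec B0 f m, ∃ z1 ∈ Sec B1 f m, π ^ n * w = z0 - z1) →
        ∃ z0 ∈ Sec B0 f m, ∃ z1 ∈ Sec B1 f m, π ^ c * w = z0 - z1)
    (hf : O.valuation (f - 1) < 1)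
    (y0 y1 : F) (hy0 : f * y0 ^ m ∈ B0) (hy1 : f * y1 ^ m ∈ B1)
    (hy0v : O.valuation (y0 - 1) < 1) (hy1v : O.valuation (y1 - 1) < 1) :
    ∃ y : F, y ≠ 0 ∧ ∃ c ∈ R, c ≠ 0 ∧ f * y ^ m = c := by
  have hm : m ≠ 0 := by rintro rfl; simp at hm0
  have hπO : π ∈ O := (O.valuation_le_one_iff π).mp hπv.le
  -- elements congruent to 1 are in O with valuation 1
  have hone : ∀ z : F, O.valuation (z - 1) < 1 → O.valuation z = 1 := by
    intro z hz
    have : z = 1 + (z - 1) := by ring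
    rw [this]
    rw [Valuation.map_add_eq_of_lt_left _ (by rw [Valuation.map_one]; exact hz), Valuation.map_one]
  have hmemO : ∀ z : F, O.valuation z = 1 → z ∈ O := fun z hz =>
    (O.valuation_le_one_iff z).mp hz.le
  have hfv : O.valuation f = 1 := hone f hf
  have hy0val : O.valuation y0 = 1 := hone y0 hy0v
  have hy1val : O.valuation y1 = 1 := hone y1 hy1v
  have hlt_of : ∀ b : F, b ∈ O → O.valuation (π * b) < 1 := by
    intro b hb
    rw [Valuation.map_mul]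
    calc O.valuation π * O.valuation b ≤ O.valuation π * 1 :=
          mul_le_mul' le_rfl ((O.valuation_le_one_iff b).mpr hb)
      _ = O.valuation π := mul_one _
      _ < 1 := hπv
  -- π⁻¹ ∉ B01
  have hπinv : π⁻¹ ∉ B01 := by
    intro h
    have h1' : O.valuation π⁻¹ ≤ 1 := (O.valuation_le_one_iff _).mpr (h01O _ h)
    have h2 : O.valuation π * O.valuation π⁻¹ = 1 := by
      rw [← Valuation.map_mul, mul_inv_cancel₀ hπ0, Valuation.map_one]
    have h3 : O.valuation π * O.valuation π⁻¹ < 1 := by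
      calc O.valuation π * O.valuation π⁻¹ ≤ O.valuation π * 1 := mul_le_mul' le_rfl h1'
        _ = O.valuation π := mul_one _
        _ < 1 := hπv
    rw [h2] at h3
    exact lt_irrefl _ h3
  -- unit hypothesis of the core
  have hunit' : ∀ α ∈ R, (∃ b ∈ B01, α - 1 = π * b) → α⁻¹ ∈ R := by
    rintro α hα ⟨b, hb, hαb⟩
    exact hunit α hα (hone α (by rw [hαb]; exact hlt_of b (h01O b hb)))
  -- saturation in the core's shape
  have hsat1' : ∀ x ∈ B01, π * x ∈ B1 → x ∈ B1 := fun x hx => hsat1 x (h01O x hx)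
  -- connectedness in the core's shape
  have hconn' : ∀ x0 ∈ B0, ∀ x1 ∈ B1, (∃ b ∈ B01, x0 - x1 = π * b) →
      ∃ r ∈ R, ∃ b0 ∈ B0, x0 - r = π * b0 := by
    rintro x0 hx0 x1 hx1 ⟨b, hb, hbe⟩
    obtain ⟨r, hr, hrv⟩ := hconn x0 hx0 x1 hx1 (by rw [hbe]; exact hlt_of b (h01O b hb))
    obtain ⟨b0, hb0O, hb0⟩ := hgen _ hrv
    refine ⟨r, hr, b0, hsat0 b0 hb0O ?_, hb0⟩
    rw [← hb0]; exact B0.sub_mem hx0 (hR0 hr)
  -- starting data
  have hstart : Approx B0 B1 B01 π m f 1 := by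
    have hy0S : y0 ∈ Sec B01 f m := Sec_mono h0 hy0
    have hy1S : y1 ∈ Sec B01 f m := Sec_mono h1 hy1
    have hdv : O.valuation (y0 - y1) < 1 := by
      have : y0 - y1 = (y0 - 1) - (y1 - 1) := by ring
      rw [this]
      exact lt_of_le_of_lt (Valuation.map_sub _ _ _) (max_lt hy0v hy1v)
    obtain ⟨w, hwO, hw⟩ := hgen _ hdv
    have hwS : w ∈ Sec B01 f m := by
      have hsub : y0 - y1 ∈ Sec B01 f m := Sec_sub hroot01 hy0S hy1S
      rw [hw] at hsub
      have h' : π ^ m * (f * w ^ m) ∈ B01 := by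
        have : π ^ m * (f * w ^ m) = f * (π * w) ^ m := by rw [mul_pow]; ring
        rw [this]; exact hsub
      exact sat_pow hπO hsat01 m _ (O.mul_mem _ _ (hmemO f hfv) (O.pow_mem hwO m)) h'
    refine ⟨y0, hy0, y1, hy1, w, hwS, by rw [pow_one]; exact hw, ?_⟩
    have hv : O.valuation (f * y0 ^ m - 1) < 1 := by
      have hpow : O.valuation (y0 ^ m - 1) < 1 := by
        have hy0O : y0 ∈ O := hmemO y0 hy0val
        have hsumO : (∑ i ∈ Finset.range m, y0 ^ i) ∈ O :=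
          O.sum_mem fun i _ => O.pow_mem hy0O i
        rw [← geom_sum_mul, Valuation.map_mul]
        calc O.valuation (∑ i ∈ Finset.range m, y0 ^ i) * O.valuation (y0 - 1)
            ≤ 1 * O.valuation (y0 - 1) :=
              mul_le_mul' ((O.valuation_le_one_iff _).mpr hsumO) le_rfl
          _ = O.valuation (y0 - 1) := one_mul _
          _ < 1 := hy0v
      have : f * y0 ^ m - 1 = (f - 1) * y0 ^ m + (y0 ^ m - 1) := by ring
      rw [this]
      refine lt_of_le_of_lt (Valuation.map_add _ _ _) (max_lt ?_ hpow)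
      rw [Valuation.map_mul, Valuation.map_pow, hy0val, one_pow, mul_one]
      exact hf
    obtain ⟨b, hbO, hb⟩ := hgen _ hv
    refine ⟨b, hsat0 b hbO ?_, hb⟩
    rw [← hb]; exact B0.sub_mem hy0 B0.one_mem
  obtain ⟨y, hy0', hyB0, hyB1, b, hb, hyb⟩ :=
    exists_global_section hR0 hR1 h0 h1 hπR hπ0 hπinv hunit' hmR hm0 hsat1' hroot0 hroot1
      hroot01 hconn' htor hstart
  refine ⟨y, hy0', f * y ^ m, hcap _ hyB0 hyB1, ?_, rfl⟩
  intro hzero
  apply hπinv
  rw [hzero, zero_sub] at hyb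
  have h'' : π * (-b) = 1 := by linear_combination hyb
  have : π⁻¹ = -b := (eq_inv_of_mul_eq_one_right h'').symm
  rw [this]
  exact B01.neg_mem (h0 hb)

end Fermat.Agent.S18.Core.CechVal
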