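import Mathlib

/-!
# S18 leaf C-tor: bounded `π`-power torsion in finitely generated modules

Generic statements (Mathlib only) feeding hypothesis `(tor)` of the abstract core `C0`.
-/

set_option autoImplicit false

namespace Fermat.Agent.S18.Core.BoundedTorsion

variable {R : Type*} [CommRing R] {M : Type*} [AddCommGroup M] [Module R M]

/-- In a Noetherian module the `π`-power torsion is killed by one fixed power of `π`. -/
theorem exists_bound [IsNoetherian R M] (π : R) :
    ∃ c : ℕ, ∀ (x : M) (n : ℕ), π ^ n • x = 0 → π ^ c • x = 0 := by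
  let f : ℕ →o Submodule R M :=
    { toFun := fun n => LinearMap.ker ((π ^ n) • (LinearMap.id : M →ₗ[R] M))
      monotone' := by
        intro a b hab x hx
        simp only [LinearMap.mem_ker, LinearMap.smul_apply, LinearMap.id_coe, id_eq] at hx ⊢
        obtain ⟨d, rfl⟩ := Nat.exists_eq_add_of_le hab
        rw [pow_add, mul_comm, mul_smul, hx, smul_zero] }
  obtain ⟨c, hc⟩ := monotone_stabilizes_iff_noetherian.mpr (inferInstance : IsNoetherian R M) f
  refine ⟨c, fun x n hx => ?_⟩
  have hmem : x ∈ f n := by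
    simpa [f] using hx
  have hmem' : x ∈ f (max n c) := f.monotone (le_max_left n c) hmem
  rw [← hc (max n c) (le_max_right n c)] at hmem'
  simpa [f] using hmem'

/-- Finite modules over Noetherian rings: the `π`-power torsion is bounded. -/
theorem exists_bound_of_finite [IsNoetherianRing R] [Module.Finite R M] (π : R) :
    ∃ c : ℕ, ∀ (x : M) (n : ℕ), π ^ n • x = 0 → π ^ c • x = 0 :=
  exists_bound π

/-- Quotient form: if `B` is generated modulo `N` by finitely many elements, then the
`π`-power torsion of `B` modulo `N` is bounded. This is hypothesis `(tor)` of the abstract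
core, with `B = B01` and `N = s • B0 + B1`. -/
theorem exists_bound_of_le_span_sup [IsNoetherianRing R] (B N : Submodule R M)
    (S : Set M) (hS : S.Finite) (hB : B ≤ Submodule.span R S ⊔ N) (π : R) :
    ∃ c : ℕ, ∀ x ∈ B, ∀ n : ℕ, π ^ n • x ∈ N → π ^ c • x ∈ N := by
  -- the image of `span S` in `M ⧸ N` is a Noetherian module
  set G' : Submodule R (M ⧸ N) := (Submodule.span R S).map N.mkQ with hG'
  have hfg : G'.FG := (Submodule.fg_span hS).map _
  have : IsNoetherian R G' := isNoetherian_of_fg_of_noetherian G' hfg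
  obtain ⟨c, hc⟩ := exists_bound (R := R) (M := G') π
  refine ⟨c, fun x hx n hn => ?_⟩
  obtain ⟨g, hg, y, hy, rfl⟩ := Submodule.mem_sup.mp (hB hx)
  have hgG : N.mkQ g ∈ G' := Submodule.mem_map_of_mem hg
  have key : ∀ k : ℕ, π ^ k • (g + y) ∈ N ↔ π ^ k • (⟨N.mkQ g, hgG⟩ : G') = 0 := by
    intro k
    rw [smul_add, Submodule.add_mem_iff_left _ (N.smul_mem _ hy)]
    rw [← Subtype.coe_inj]
    simp only [Submodule.coe_smul, Submodule.coe_zero, Submodule.mkQ_apply]
    rw [← Submodule.Quotient.mk_smul, Submodule.Quotient.mk_eq_zero]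
  exact (key c).mpr (hc _ n ((key n).mp hn))

/-- Variant with a `Module.Finite` quotient. -/
theorem exists_bound_of_finite_quotient [IsNoetherianRing R] (B N : Submodule R M)
    [Module.Finite R (↥B ⧸ N.submoduleOf B)] (π : R) :
    ∃ c : ℕ, ∀ x ∈ B, ∀ n : ℕ, π ^ n • x ∈ N → π ^ c • x ∈ N := by
  obtain ⟨c, hc⟩ := exists_bound_of_finite (R := R) (M := ↥B ⧸ N.submoduleOf B) π
  refine ⟨c, fun x hx n hn => ?_⟩
  have key : ∀ k : ℕ, π ^ k • x ∈ N ↔
      π ^ k • (Submodule.Quotient.mk (⟨x, hx⟩ : B) : ↥B ⧸ N.submoduleOf B) = 0 := by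
    intro k
    rw [← Submodule.Quotient.mk_smul, Submodule.Quotient.mk_eq_zero, Submodule.submoduleOf,
      Submodule.mem_comap]
    rfl
  exact (key c).mpr (hc _ n ((key n).mp hn))

/-- Ring form used by the abstract core: `F` a commutative ring, `R`-submodules `B01`, `N`
of `F` with `B01` finitely generated modulo `N`; `π` acts by multiplication. -/
theorem exists_bound_mul {F : Type*} [CommRing F] [Algebra R F] [IsNoetherianRing R]
    (B N : Submodule R F) (S : Set F) (hS : S.Finite) (hB : B ≤ Submodule.span R S ⊔ N)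
    (π : R) :
    ∃ c : ℕ, ∀ x ∈ B, ∀ n : ℕ,
      algebraMap R F π ^ n * x ∈ N → algebraMap R F π ^ c * x ∈ N := by
  obtain ⟨c, hc⟩ := exists_bound_of_le_span_sup B N S hS hB π
  refine ⟨c, fun x hx n hn => ?_⟩
  have e : ∀ k : ℕ, algebraMap R F π ^ k * x = π ^ k • x := by
    intro k
    rw [Algebra.smul_def, map_pow]
  rw [e] at hn ⊢
  exact hc x hx n hn

end Fermat.Agent.S18.Core.BoundedTorsion
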