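import Mathlib
import Fermat.Agent.S18.Core.BoundedTorsion

/-!
# S18 leaf C1b: `M01 / (M0 + M1)` is finitely generated over `R`

`F` a commutative `R`-algebra, `t` a unit of `F`; `M0`, `M1`, `M01` are `R`-submodules of `F`
with `M0` stable under `t⁻¹`, `M1` stable under `t`, `M0` generated over `R[t⁻¹]` by a finite
set `S0` each of whose elements is pushed into `M1` by a power of `t`, and `M01 = ⋃ tⁿ M0`.
Then `M01 ≤ span_R (finite set) ⊔ M0 ⊔ M1`, hence (for Noetherian `R`) the `π`-power torsion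
of `M01 / (M0 + M1)` is bounded: hypothesis `(tor)` of the Cech core.
-/

set_option autoImplicit false

namespace Fermat.Agent.S18.Core.TorsionBound

open Fermat.Agent.S18.Core

variable {R F : Type*} [CommRing R] [CommRing F] [Algebra R F]

/-- The finite set of "middle" elements `t ^ k * s`, `s ∈ S0`, `k < N`. -/
def middle (t : Fˣ) (S0 : Finset F) (N : ℕ) : Set F :=
  {x | ∃ s ∈ S0, ∃ k : ℕ, k < N ∧ x = ((t ^ k : Fˣ) : F) * s}

theorem middle_finite (t : Fˣ) (S0 : Finset F) (N : ℕ) : (middle t S0 N).Finite := by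
  classical
  have : middle t S0 N ⊆
      ((S0 ×ˢ Finset.range N).image fun p : F × ℕ => ((t ^ p.2 : Fˣ) : F) * p.1 : Finset F) := by
    rintro x ⟨s, hs, k, hk, rfl⟩
    simp only [Finset.coe_image, Set.mem_image, Finset.mem_coe, Finset.mem_product,
      Finset.mem_range]
    exact ⟨(s, k), ⟨hs, hk⟩, rfl⟩
  exact (Finset.finite_toSet _).subset this

/-- Core computation, `R`-span form of the generation hypothesis. -/
theorem le_span_sup_of_span (t : Fˣ) (M0 M1 M01 : Submodule R F)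
    (h0 : ∀ y ∈ M0, ((t⁻¹ : Fˣ) : F) * y ∈ M0) (h1 : ∀ y ∈ M1, (t : F) * y ∈ M1)
    (S0 : Finset F) (hS0 : ∀ s ∈ S0, s ∈ M0)
    (hgen : ∀ y ∈ M0, y ∈ Submodule.span R
      {x : F | ∃ s ∈ S0, ∃ k : ℕ, x = ((t⁻¹ : Fˣ) : F) ^ k * s})
    (hS1 : ∀ s ∈ S0, ∃ n : ℕ, (t : F) ^ n * s ∈ M1)
    (h01 : ∀ x ∈ M01, ∃ n : ℕ, ∃ y ∈ M0, x = (t : F) ^ n * y) :
    ∃ S : Set F, S.Finite ∧ M01 ≤ Submodule.span R S ⊔ (M0 ⊔ M1) := by
  classical
  -- stability under powers
  have h0pow : ∀ (k : ℕ) (y : F), y ∈ M0 → ((t⁻¹ : Fˣ) : F) ^ k * y ∈ M0 := by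
    intro k
    induction k with
    | zero => intro y hy; simpa using hy
    | succ k ih =>
      intro y hy
      rw [pow_succ, mul_assoc]
      exact ih _ (h0 y hy)
  have h1pow : ∀ (k : ℕ) (y : F), y ∈ M1 → (t : F) ^ k * y ∈ M1 := by
    intro k
    induction k with
    | zero => intro y hy; simpa using hy
    | succ k ih =>
      intro y hy
      rw [pow_succ, mul_assoc]
      exact ih _ (h1 y hy)
  -- a uniform exponent
  choose! e he using hS1
  set N : ℕ := S0.sup e with hN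
  have hN1 : ∀ s ∈ S0, ∀ n : ℕ, N ≤ n → (t : F) ^ n * s ∈ M1 := by
    intro s hs n hn
    have hle : e s ≤ n := (Finset.le_sup hs).trans hn
    obtain ⟨d, rfl⟩ := Nat.exists_eq_add_of_le hle
    rw [add_comm, pow_add, mul_assoc]
    exact h1pow d _ (he s hs)
  refine ⟨middle t S0 N, middle_finite t S0 N, ?_⟩
  set T : Submodule R F := Submodule.span R (middle t S0 N) ⊔ (M0 ⊔ M1) with hT
  have hM0T : M0 ≤ T := le_sup_of_le_right le_sup_left
  have hM1T : M1 ≤ T := le_sup_of_le_right le_sup_right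
  -- key: `t ^ n * (t⁻¹ ^ k * s) ∈ T`
  have key : ∀ s ∈ S0, ∀ n k : ℕ, (t : F) ^ n * (((t⁻¹ : Fˣ) : F) ^ k * s) ∈ T := by
    intro s hs n k
    rcases le_total k n with hkn | hnk
    · -- `t ^ (n - k) * s`
      obtain ⟨d, rfl⟩ := Nat.exists_eq_add_of_le hkn
      have : (t : F) ^ (k + d) * (((t⁻¹ : Fˣ) : F) ^ k * s) = (t : F) ^ d * s := by
        have hu : (t : F) ^ k * ((t⁻¹ : Fˣ) : F) ^ k = 1 := by
          rw [← mul_pow, Units.mul_inv, one_pow]
        calc (t : F) ^ (k + d) * (((t⁻¹ : Fˣ) : F) ^ k * s)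
            = ((t : F) ^ k * ((t⁻¹ : Fˣ) : F) ^ k) * ((t : F) ^ d * s) := by
              rw [pow_add]; ring
          _ = (t : F) ^ d * s := by rw [hu, one_mul]
      rw [this]
      rcases lt_or_ge d N with hd | hd
      · refine Submodule.mem_sup_left (Submodule.subset_span ⟨s, hs, d, hd, ?_⟩)
        rw [Units.val_pow_eq_pow_val]
      · exact hM1T (hN1 s hs d hd)
    · -- `t⁻¹ ^ (k - n) * s ∈ M0`
      obtain ⟨d, rfl⟩ := Nat.exists_eq_add_of_le hnk
      have : (t : F) ^ n * (((t⁻¹ : Fˣ) : F) ^ (n + d) * s) = ((t⁻¹ : Fˣ) : F) ^ d * s := by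
        have hu : (t : F) ^ n * ((t⁻¹ : Fˣ) : F) ^ n = 1 := by
          rw [← mul_pow, Units.mul_inv, one_pow]
        calc (t : F) ^ n * (((t⁻¹ : Fˣ) : F) ^ (n + d) * s)
            = ((t : F) ^ n * ((t⁻¹ : Fˣ) : F) ^ n) * (((t⁻¹ : Fˣ) : F) ^ d * s) := by
              rw [pow_add]; ring
          _ = ((t⁻¹ : Fˣ) : F) ^ d * s := by rw [hu, one_mul]
      rw [this]
      exact hM0T (h0pow d s (hS0 s hs))
  have main : ∀ (n : ℕ) (y : F), y ∈ Submodule.span R
      {x : F | ∃ s ∈ S0, ∃ k : ℕ, x = ((t⁻¹ : Fˣ) : F) ^ k * s} → (t : F) ^ n * y ∈ T := by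
    intro n y hy'
    induction hy' using Submodule.span_induction with
    | mem z hz =>
      obtain ⟨s, hs, k, rfl⟩ := hz
      exact key s hs n k
    | zero => rw [mul_zero]; exact Submodule.zero_mem _
    | add a b _ _ ha hb => rw [mul_add]; exact Submodule.add_mem _ ha hb
    | smul r a _ ha =>
      rw [mul_smul_comm]
      exact Submodule.smul_mem _ r ha
  intro x hx
  obtain ⟨n, y, hy, rfl⟩ := h01 x hx
  exact main n y (hgen y hy)

/-- **(tor)**: bounded `π`-power torsion of `M01` modulo `M0 + M1`. -/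
theorem exists_bound [IsNoetherianRing R] (t : Fˣ) (M0 M1 M01 : Submodule R F)
    (h0 : ∀ y ∈ M0, ((t⁻¹ : Fˣ) : F) * y ∈ M0) (h1 : ∀ y ∈ M1, (t : F) * y ∈ M1)
    (S0 : Finset F) (hS0 : ∀ s ∈ S0, s ∈ M0)
    (hgen : ∀ y ∈ M0, y ∈ Submodule.span R
      {x : F | ∃ s ∈ S0, ∃ k : ℕ, x = ((t⁻¹ : Fˣ) : F) ^ k * s})
    (hS1 : ∀ s ∈ S0, ∃ n : ℕ, (t : F) ^ n * s ∈ M1)
    (h01 : ∀ x ∈ M01, ∃ n : ℕ, ∃ y ∈ M0, x = (t : F) ^ n * y) (π : R) :
    ∃ c : ℕ, ∀ w ∈ M01, ∀ n : ℕ, π ^ n • w ∈ M0 ⊔ M1 → π ^ c • w ∈ M0 ⊔ M1 := by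
  obtain ⟨S, hS, hle⟩ := le_span_sup_of_span t M0 M1 M01 h0 h1 S0 hS0 hgen hS1 h01
  exact BoundedTorsion.exists_bound_of_le_span_sup M01 (M0 ⊔ M1) S hS hle π

/-- Conversion of the generation hypothesis: a finite generating set over the subalgebra
`R[t⁻¹]` gives the `R`-span form. -/
theorem mem_span_pow_of_mem_span_adjoin (tinv : F) (S0 : Finset F) {y : F}
    (hy : y ∈ Submodule.span (Algebra.adjoin R {tinv}) (S0 : Set F)) :
    y ∈ Submodule.span R {x : F | ∃ s ∈ S0, ∃ k : ℕ, x = tinv ^ k * s} := by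
  set V : Submodule R F := Submodule.span R {x : F | ∃ s ∈ S0, ∃ k : ℕ, x = tinv ^ k * s}
    with hV
  -- `V` is stable under multiplication by `tinv`, hence by `R[tinv]`
  have hstab : ∀ z ∈ V, tinv * z ∈ V := by
    intro z hz
    induction hz using Submodule.span_induction with
    | mem w hw =>
      obtain ⟨s, hs, k, rfl⟩ := hw
      refine Submodule.subset_span ⟨s, hs, k + 1, ?_⟩
      rw [pow_succ]; ring
    | zero => rw [mul_zero]; exact Submodule.zero_mem _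
    | add a b _ _ ha hb => rw [mul_add]; exact Submodule.add_mem _ ha hb
    | smul r a _ ha => rw [mul_smul_comm]; exact Submodule.smul_mem _ r ha
  have hstabA : ∀ a ∈ Algebra.adjoin R {tinv}, ∀ z ∈ V, a * z ∈ V := by
    intro a ha
    induction ha using Algebra.adjoin_induction with
    | mem x hx =>
      rw [Set.mem_singleton_iff] at hx
      subst hx
      exact hstab
    | algebraMap r =>
      intro z hz
      rw [← Algebra.smul_def]
      exact Submodule.smul_mem _ r hz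
    | add a b _ _ ha hb =>
      intro z hz
      rw [add_mul]
      exact Submodule.add_mem _ (ha z hz) (hb z hz)
    | mul a b _ _ ha hb =>
      intro z hz
      rw [mul_assoc]
      exact ha _ (hb z hz)
  induction hy using Submodule.span_induction with
  | mem w hw =>
    exact Submodule.subset_span ⟨w, hw, 0, by simp⟩
  | zero => exact Submodule.zero_mem _
  | add a b _ _ ha hb => exact Submodule.add_mem _ ha hb
  | smul a z _ hz =>
    exact hstabA (a : F) a.2 z hz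

/-- **(tor)**, subalgebra form of the generation hypothesis: `M0` is generated over
`R[t⁻¹]` by the finite set `S0 ⊆ M0`. -/
theorem exists_bound' [IsNoetherianRing R] (t : Fˣ) (M0 M1 M01 : Submodule R F)
    (h0 : ∀ y ∈ M0, ((t⁻¹ : Fˣ) : F) * y ∈ M0) (h1 : ∀ y ∈ M1, (t : F) * y ∈ M1)
    (S0 : Finset F) (hS0 : ∀ s ∈ S0, s ∈ M0)
    (hgen : ∀ y ∈ M0,
      y ∈ Submodule.span (Algebra.adjoin R {((t⁻¹ : Fˣ) : F)}) (S0 : Set F))
    (hS1 : ∀ s ∈ S0, ∃ n : ℕ, (t : F) ^ n * s ∈ M1)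
    (h01 : ∀ x ∈ M01, ∃ n : ℕ, ∃ y ∈ M0, x = (t : F) ^ n * y) (π : R) :
    ∃ c : ℕ, ∀ w ∈ M01, ∀ n : ℕ, π ^ n • w ∈ M0 ⊔ M1 → π ^ c • w ∈ M0 ⊔ M1 :=
  exists_bound t M0 M1 M01 h0 h1 S0 hS0
    (fun y hy => mem_span_pow_of_mem_span_adjoin _ S0 (hgen y hy)) hS1 h01 π

end Fermat.Agent.S18.Core.TorsionBound
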