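/-
S18, block C, leaf C1c: the bounded-torsion hypothesis `htor` of `CechM.exists_global_section`
from finiteness of the chart `B0` over `R[t⁻¹]` (via `TorsionBound.exists_bound'`).
-/
import Mathlib
import Fermat.Agent.S18.Core.CechM
import Fermat.Agent.S18.Core.TorsionBound

set_option autoImplicit false

namespace Fermat.Agent.S18.Core.SecTorsion

open Fermat.Agent.S18.Core.CechM

variable {F : Type*} [Field F]

/-- `Sec X f m` as a submodule over a subring `R ≤ X`. -/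
def secSubmodule (R X : Subring F) (hRX : R ≤ X) (f : F) (m : ℕ) (hm : m ≠ 0)
    (hroot : RootClosed X m) : Submodule R F where
  carrier := Sec X f m
  add_mem' := fun ha hb => Sec_add hroot ha hb
  zero_mem' := by
    show f * (0 : F) ^ m ∈ X
    rw [zero_pow hm, mul_zero]; exact X.zero_mem
  smul_mem' := fun r y hy => by
    show (r : F) * y ∈ Sec X f m
    exact Sec_smul hy (hRX r.2)

theorem mem_secSubmodule {R X : Subring F} {hRX : R ≤ X} {f : F} {m : ℕ} {hm : m ≠ 0}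
    {hroot : RootClosed X m} {y : F} :
    y ∈ secSubmodule R X hRX f m hm hroot ↔ y ∈ Sec X f m := Iff.rfl

/-- elements of `R[s]` lie in the subring `X` as soon as `R ≤ X` and `s ∈ X`. -/
theorem adjoin_le_subring (R X : Subring F) (hRX : R ≤ X) {s : F} (hs : s ∈ X)
    (a : Algebra.adjoin R {s}) : (a : F) ∈ X := by
  obtain ⟨a, ha⟩ := a
  show a ∈ X
  induction ha using Algebra.adjoin_induction with
  | mem x hx => rw [Set.mem_singleton_iff] at hx; rw [hx]; exact hs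
  | algebraMap r => exact hRX r.2
  | add x y _ _ hx hy => exact X.add_mem hx hy
  | mul x y _ _ hx hy => exact X.mul_mem hx hy

theorem isNoetherianRing_adjoin_singleton (R : Subring F) [IsNoetherianRing R] (s : F) :
    IsNoetherianRing (Algebra.adjoin R {s}) := by
  have hsurj : Function.Surjective
      ((Polynomial.aeval (R := R) s).rangeRestrict) := AlgHom.rangeRestrict_surjective _
  have h1 : IsNoetherianRing (Polynomial.aeval (R := R) s).range :=
    isNoetherianRing_of_surjective _ _ _ hsurj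
  rw [Algebra.adjoin_singleton_eq_range_aeval]
  exact h1

/-- finite generation of `Sec B0 f m` over `R[s]` (`s = t⁻¹`). -/
theorem exists_finset_span (R B0 : Subring F) [IsNoetherianRing R] (hR0 : R ≤ B0) (s : F)
    (hs : s ∈ B0) (f : F) (hf0 : f ≠ 0) (m : ℕ) (hm : m ≠ 0) (hroot0 : RootClosed B0 m)
    (T0 : Finset F)
    (hfin0 : ∀ x ∈ B0, x ∈ Submodule.span (Algebra.adjoin R {s}) (T0 : Set F))
    (hfrac : ∀ x : F, ∃ h ∈ B0, h ≠ 0 ∧ x * h ∈ B0) :
    ∃ S0 : Finset F, (∀ y ∈ S0, y ∈ Sec B0 f m) ∧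
      ∀ y ∈ Sec B0 f m, y ∈ Submodule.span (Algebra.adjoin R {s}) (S0 : Set F) := by
  classical
  haveI := isNoetherianRing_adjoin_singleton R s
  -- a common denominator `h` with `h • Sec ⊆ B0`
  obtain ⟨h, hhB, hh0, hfh⟩ := hfrac f⁻¹
  have hmul : ∀ y ∈ Sec B0 f m, h * y ∈ B0 := by
    intro y hy
    apply hroot0
    obtain ⟨k, rfl⟩ := Nat.exists_eq_succ_of_ne_zero hm
    have : (h * y) ^ (k + 1) = h ^ k * (f⁻¹ * h) * (f * y ^ (k + 1)) := by
      rw [mul_pow, pow_succ h]; field_simp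
    rw [this]
    exact B0.mul_mem (B0.mul_mem (B0.pow_mem hhB _) hfh) hy
  -- the module `h • Sec` over `R[s]`
  let 𝕄 : Submodule (Algebra.adjoin R {s}) F :=
    { carrier := {z | h⁻¹ * z ∈ Sec B0 f m}
      add_mem' := fun {a b} ha hb => by
        show h⁻¹ * (a + b) ∈ Sec B0 f m
        rw [mul_add]; exact Sec_add hroot0 ha hb
      zero_mem' := by
        show f * (h⁻¹ * 0) ^ m ∈ B0
        rw [mul_zero, zero_pow hm, mul_zero]; exact B0.zero_mem
      smul_mem' := fun a z hz => by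
        show h⁻¹ * (a • z) ∈ Sec B0 f m
        have : h⁻¹ * (a • z) = (a : F) * (h⁻¹ * z) := by
          rw [Algebra.smul_def]; show h⁻¹ * ((a : F) * z) = _; ring
        rw [this]
        exact Sec_smul hz (adjoin_le_subring R B0 hR0 hs a) }
  have hle : 𝕄 ≤ Submodule.span (Algebra.adjoin R {s}) (T0 : Set F) := by
    intro z hz
    have hz' : h⁻¹ * z ∈ Sec B0 f m := hz
    have : z = h * (h⁻¹ * z) := by field_simp
    rw [this]
    exact hfin0 _ (hmul _ hz')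
  haveI : IsNoetherian (Algebra.adjoin R {s})
      (Submodule.span (Algebra.adjoin R {s}) (T0 : Set F)) :=
    isNoetherian_span_of_finite _ T0.finite_toSet
  have hfg : 𝕄.FG := isNoetherian_submodule.mp inferInstance 𝕄 hle
  obtain ⟨S, hS⟩ := hfg
  refine ⟨S.image (fun z => h⁻¹ * z), ?_, ?_⟩
  · intro y hy
    obtain ⟨z, hz, rfl⟩ := Finset.mem_image.mp hy
    have : z ∈ 𝕄 := by rw [← hS]; exact Submodule.subset_span hz
    exact this
  · intro y hy
    have hmem : h * y ∈ 𝕄 := by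
      show h⁻¹ * (h * y) ∈ Sec B0 f m
      have : h⁻¹ * (h * y) = y := by field_simp
      rw [this]; exact hy
    rw [← hS] at hmem
    have hmap := Submodule.mem_map_of_mem
      (f := LinearMap.mulLeft (Algebra.adjoin R {s}) (h⁻¹ : F)) hmem
    rw [Submodule.map_span] at hmap
    have hy' : (LinearMap.mulLeft (Algebra.adjoin R {s}) (h⁻¹ : F)) (h * y) = y := by
      show h⁻¹ * (h * y) = y
      field_simp
    rw [hy'] at hmap
    have hcoe : ((S.image (fun z => h⁻¹ * z) : Finset F) : Set F) =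
        ⇑(LinearMap.mulLeft (Algebra.adjoin R {s}) (h⁻¹ : F)) '' (S : Set F) := by
      rw [Finset.coe_image]; rfl
    rw [hcoe]
    exact hmap

theorem span_adjoin_congr (R : Subring F) (S : Set F) {a b : F} (hab : b = a) {y : F}
    (hy : y ∈ Submodule.span (Algebra.adjoin R {a}) S) :
    y ∈ Submodule.span (Algebra.adjoin R {b}) S := by
  subst hab; exact hy

/-- **(htor)** of the core from finiteness of the chart `B0` over `R[t⁻¹]`. -/
theorem htor_of_finite (R B0 B1 B01 : Subring F) [IsNoetherianRing R]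
    (hR0 : R ≤ B0) (hR1 : R ≤ B1) (h0 : B0 ≤ B01) (h1 : B1 ≤ B01)
    (t : F) (ht0 : t ≠ 0) (htB1 : t ∈ B1) (htB0 : t⁻¹ ∈ B0)
    (π : F) (hπR : π ∈ R) (f : F) (hf0 : f ≠ 0) (m : ℕ) (hm : m ≠ 0)
    (hroot0 : RootClosed B0 m) (hroot1 : RootClosed B1 m) (hroot01 : RootClosed B01 m)
    (T0 : Finset F)
    (hfin0 : ∀ x ∈ B0, x ∈ Submodule.span (Algebra.adjoin R {t⁻¹}) (T0 : Set F))
    (hfrac : ∀ x : F, ∃ h ∈ B0, h ≠ 0 ∧ x * h ∈ B0)
    (hpow0 : ∀ x ∈ B01, ∃ n : ℕ, t⁻¹ ^ n * x ∈ B0)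
    (hpow1 : ∀ x ∈ B01, ∃ n : ℕ, t ^ n * x ∈ B1) :
    ∃ c : ℕ, ∀ w ∈ Sec B01 f m, ∀ n : ℕ,
      (∃ z0 ∈ Sec B0 f m, ∃ z1 ∈ Sec B1 f m, π ^ n * w = z0 - z1) →
        ∃ z0 ∈ Sec B0 f m, ∃ z1 ∈ Sec B1 f m, π ^ c * w = z0 - z1 := by
  classical
  obtain ⟨S0, hS0mem, hS0gen⟩ :=
    exists_finset_span R B0 hR0 t⁻¹ htB0 f hf0 m hm hroot0 T0 hfin0 hfrac
  set M0 := secSubmodule R B0 hR0 f m hm hroot0 with hM0
  set M1 := secSubmodule R B1 hR1 f m hm hroot1 with hM1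
  set M01 := secSubmodule R B01 (hR0.trans h0) f m hm hroot01 with hM01
  -- powers of t push sections of B01 into the charts
  have key1 : ∀ x ∈ Sec B01 f m, ∃ n : ℕ, t ^ n * x ∈ Sec B1 f m := by
    intro x hx
    obtain ⟨n, hn⟩ := hpow1 _ hx
    refine ⟨n, ?_⟩
    show f * (t ^ n * x) ^ m ∈ B1
    obtain ⟨k, rfl⟩ := Nat.exists_eq_succ_of_ne_zero hm
    have : f * (t ^ n * x) ^ (k + 1) = (t ^ n) ^ k * (t ^ n * (f * x ^ (k + 1))) := by
      rw [mul_pow, pow_succ (t ^ n)]; ring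
    rw [this]
    exact B1.mul_mem (B1.pow_mem (B1.pow_mem htB1 _) _) hn
  have key0 : ∀ x ∈ Sec B01 f m, ∃ n : ℕ, t⁻¹ ^ n * x ∈ Sec B0 f m := by
    intro x hx
    obtain ⟨n, hn⟩ := hpow0 _ hx
    refine ⟨n, ?_⟩
    show f * (t⁻¹ ^ n * x) ^ m ∈ B0
    obtain ⟨k, rfl⟩ := Nat.exists_eq_succ_of_ne_zero hm
    have : f * (t⁻¹ ^ n * x) ^ (k + 1) = (t⁻¹ ^ n) ^ k * (t⁻¹ ^ n * (f * x ^ (k + 1))) := by
      rw [mul_pow, pow_succ (t⁻¹ ^ n)]; ring
    rw [this]
    exact B0.mul_mem (B0.pow_mem (B0.pow_mem htB0 _) _) hn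
  obtain ⟨c, hc⟩ := TorsionBound.exists_bound' (R := R) (F := F) (Units.mk0 t ht0) M0 M1 M01
    (fun y hy => by
      show t⁻¹ * y ∈ Sec B0 f m
      exact Sec_smul hy htB0)
    (fun y hy => by
      show t * y ∈ Sec B1 f m
      exact Sec_smul hy htB1)
    S0 hS0mem
    (fun y hy => span_adjoin_congr R (S0 : Set F)
      (by rw [Units.val_inv_eq_inv_val, Units.val_mk0]) (hS0gen y hy))
    (fun s hs => by
      obtain ⟨n, hn⟩ := key1 s (Sec_mono h0 (hS0mem s hs))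
      exact ⟨n, hn⟩)
    (fun x hx => by
      obtain ⟨n, hn⟩ := key0 x hx
      refine ⟨n, t⁻¹ ^ n * x, hn, ?_⟩
      show x = t ^ n * (t⁻¹ ^ n * x)
      rw [← mul_assoc, ← mul_pow, mul_inv_cancel₀ ht0, one_pow, one_mul])
    ⟨π, hπR⟩
  refine ⟨c, fun w hw n ⟨z0, hz0, z1, hz1, hz⟩ => ?_⟩
  have hmem : (⟨π, hπR⟩ : R) ^ n • w ∈ M0 ⊔ M1 := by
    rw [Submodule.mem_sup]
    refine ⟨z0, hz0, -z1, Sec_neg hz1, ?_⟩
    show z0 + -z1 = π ^ n * w
    rw [hz]; ring
  have := hc w hw n hmem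
  rw [Submodule.mem_sup] at this
  obtain ⟨a, ha, b, hb, hab⟩ := this
  refine ⟨a, ha, -b, Sec_neg hb, ?_⟩
  have : (⟨π, hπR⟩ : R) ^ c • w = π ^ c * w := rfl
  rw [← this, ← hab]; ring

end Fermat.Agent.S18.Core.SecTorsion
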