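import Mathlib

/-!
# S18 leaf C2a: principal ideals in rings `S` with `π` in the Jacobson radical and `S ⧸ π` a PID

If `π` lies in the Jacobson radical of `S`, the quotient `S ⧸ (π)` is a principal ideal ring
and `I` is a finitely generated ideal on which `π` is a nonzerodivisor modulo `I`
(`π * y ∈ I → y ∈ I`, e.g. `I` prime with `π ∉ I`), then `I` is principal, generated by an
element outside `(π)` unless `I = ⊥`.
-/

set_option autoImplicit false

namespace Fermat.Agent.S18.Core.SemilocalPrincipal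

open Ideal

variable {S : Type*} [CommRing S]

/-- Nakayama step: an f.g. ideal `I` with `I ≤ (g) ⊔ π I`, `g ∈ I`, `π` in the Jacobson
radical, is generated by `g`. -/
theorem eq_span_of_le_sup_mul {π : S} (hπ : π ∈ Ideal.jacobson (⊥ : Ideal S))
    {I : Ideal S} (hfg : I.FG) {g : S} (hg : g ∈ I)
    (h : I ≤ Ideal.span {g} ⊔ Ideal.span {π} * I) : I = Ideal.span {g} := by
  refine le_antisymm ?_ ((Ideal.span_singleton_le_iff_mem (I := I)).mpr hg)
  refine Submodule.le_of_le_smul_of_le_jacobson_bot (I := Ideal.span {π}) hfg ?_ ?_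
  · rw [Ideal.span_le]
    intro x hx
    rw [Set.mem_singleton_iff] at hx
    rw [hx]
    exact hπ
  · simpa [smul_eq_mul] using h

/-- **C2a, general form.** `π` in the Jacobson radical, `S ⧸ (π)` a principal ideal ring,
`I` an f.g. ideal with `π * y ∈ I → y ∈ I`. Then `I` is principal. -/
theorem exists_generator_of_regular {π : S} (hπ : π ∈ Ideal.jacobson (⊥ : Ideal S))
    [IsPrincipalIdealRing (S ⧸ Ideal.span {π})] {I : Ideal S} (hfg : I.FG)
    (hreg : ∀ y : S, π * y ∈ I → y ∈ I) :
    ∃ g : S, g ∈ I ∧ I = Ideal.span {g} ∧ (I ≠ ⊥ → g ∉ Ideal.span {π}) := by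
  set mk := Ideal.Quotient.mk (Ideal.span {π}) with hmk
  have hsurj : Function.Surjective mk := Ideal.Quotient.mk_surjective
  -- a generator of the image of `I`
  obtain ⟨gbar, hgbar⟩ := (IsPrincipalIdealRing.principal (I.map mk)).principal
  have hgbar_mem : gbar ∈ I.map mk := by rw [hgbar]; exact Submodule.mem_span_singleton_self _
  obtain ⟨g, hgI, hg⟩ := (Ideal.mem_map_iff_of_surjective mk hsurj).mp hgbar_mem
  -- `I ≤ (g) + π I`
  have hle : I ≤ Ideal.span {g} ⊔ Ideal.span {π} * I := by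
    intro x hx
    have hx' : mk x ∈ I.map mk := Ideal.mem_map_of_mem mk hx
    rw [hgbar] at hx'
    obtain ⟨abar, habar⟩ := Submodule.mem_span_singleton.mp hx'
    obtain ⟨a, rfl⟩ := hsurj abar
    -- `x - a * g ∈ (π)`
    have hdiff : x - a * g ∈ Ideal.span {π} := by
      rw [← Ideal.Quotient.eq_zero_iff_mem, map_sub, map_mul, hg, ← habar, smul_eq_mul, sub_self]
    obtain ⟨y, hy⟩ := Ideal.mem_span_singleton'.mp hdiff
    have hyI : y ∈ I := by
      apply hreg
      rw [mul_comm, hy]
      exact I.sub_mem hx (I.mul_mem_left a hgI)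
    have : x = a * g + π * y := by rw [mul_comm π y, hy]; ring
    rw [this]
    refine Submodule.add_mem_sup ?_ ?_
    · exact Ideal.mul_mem_left _ a (Ideal.mem_span_singleton_self g)
    · exact Ideal.mul_mem_mul (Ideal.mem_span_singleton_self π) hyI
  have hI : I = Ideal.span {g} := eq_span_of_le_sup_mul hπ hfg hgI hle
  refine ⟨g, hgI, hI, fun hne hgπ => hne ?_⟩
  -- if `g ∈ (π)` then `g = π g'` with `g' ∈ I = (g)`, so `I ≤ π I` and `I = ⊥` by Nakayama
  obtain ⟨g', hg'⟩ := Ideal.mem_span_singleton'.mp hgπ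
  have hg'I : g' ∈ I := hreg g' (by rw [mul_comm, hg']; exact hgI)
  have hle0 : I ≤ Ideal.span {(0 : S)} ⊔ Ideal.span {π} * I := by
    intro x hx
    have hx' : x ∈ Ideal.span {g} := hI ▸ hx
    obtain ⟨a, rfl⟩ := Ideal.mem_span_singleton'.mp hx'
    refine Submodule.mem_sup_right ?_
    have : a * g = π * (a * g') := by rw [← hg']; ring
    rw [this]
    exact Ideal.mul_mem_mul (Ideal.mem_span_singleton_self π) (I.mul_mem_left a hg'I)
  have := eq_span_of_le_sup_mul hπ hfg (Submodule.zero_mem I) hle0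
  rw [this]
  simp

/-- **C2a.** Every prime ideal `p` of a Noetherian ring `S` not containing `π` (with `π` in
the Jacobson radical and `S ⧸ (π)` a principal ideal ring) is principal; if `p ≠ ⊥` the
generator is not divisible by `π`. -/
theorem exists_generator {π : S} (hπ : π ∈ Ideal.jacobson (⊥ : Ideal S))
    [IsNoetherianRing S] [IsPrincipalIdealRing (S ⧸ Ideal.span {π})]
    (p : Ideal S) [hp : p.IsPrime] (hπp : π ∉ p) :
    ∃ g : S, g ∈ p ∧ p = Ideal.span {g} ∧ (p ≠ ⊥ → g ∉ Ideal.span {π}) :=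
  exists_generator_of_regular hπ (IsNoetherian.noetherian p)
    (fun _ hy => (hp.mem_or_mem hy).resolve_left hπp)

/-- The generator of a nonzero prime is a prime element (domain case). -/
theorem exists_prime_generator [IsDomain S] {π : S} (hπ : π ∈ Ideal.jacobson (⊥ : Ideal S))
    [IsNoetherianRing S] [IsPrincipalIdealRing (S ⧸ Ideal.span {π})]
    (p : Ideal S) [hp : p.IsPrime] (hp0 : p ≠ ⊥) (hπp : π ∉ p) :
    ∃ g : S, Prime g ∧ p = Ideal.span {g} ∧ ¬ π ∣ g := by
  obtain ⟨g, -, hpg, hg⟩ := exists_generator hπ p hπp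
  have hg0 : g ≠ 0 := by
    rintro rfl
    apply hp0
    rw [hpg]
    simp
  refine ⟨g, ?_, hpg, fun hdvd => hg hp0 (Ideal.mem_span_singleton.mpr hdvd)⟩
  rw [← Ideal.span_singleton_prime hg0, ← hpg]
  exact hp

/-- Products: an ideal of the form `∏ pᵢ ^ nᵢ` with the `pᵢ` primes not containing `π`
is generated by the corresponding product of generators. (Convenience for building
`s₁ = ∏ g_P ^ n_P`.) -/
theorem exists_generators_family {ι : Type*} {π : S}
    (hπ : π ∈ Ideal.jacobson (⊥ : Ideal S))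
    [IsNoetherianRing S] [IsPrincipalIdealRing (S ⧸ Ideal.span {π})]
    (p : ι → Ideal S) (hp : ∀ i, (p i).IsPrime) (hπp : ∀ i, π ∉ p i) :
    ∃ g : ι → S, (∀ i, p i = Ideal.span {g i}) ∧ ∀ i, p i ≠ ⊥ → g i ∉ Ideal.span {π} := by
  have h : ∀ i, ∃ g : S, g ∈ p i ∧ p i = Ideal.span {g} ∧ (p i ≠ ⊥ → g ∉ Ideal.span {π}) :=
    fun i => by
      have := hp i
      exact exists_generator hπ (p i) (hπp i)
  choose g _ hg2 hg3 using h
  exact ⟨g, hg2, hg3⟩

end Fermat.Agent.S18.Core.SemilocalPrincipal
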