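import Mathlib
import Fermat.Agent.S18.Core.SemilocalPrincipal

/-!
# S18 leaf C2-M: the start section of the Čech core (abstract form)

`B` a Noetherian domain with fraction field `F`, `B ⊆ O_v` for a valuation subring `O_v` of `F`,
`π ∈ B` with `v(π) < 1`, saturation `b ∈ B, v(b) < 1 → π ∣ b`, `B` closed under `m`-th roots in
`F`, `v(f - 1) < 1`.  If at every maximal ideal `n ∋ π` of `B` either `f` is a unit of `B_n` or
`n B_n = (π, T)` and `v_O(f)` is an `m`-th power in the value group of every valuation subring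
`O ⊇ B_n` of `F` in which `π` is a unit, then there is `y ∈ F` with `f * y ^ m ∈ B` and
`v(y - 1) < 1`.

The local step uses that `B_n` is a UFD (every height one prime is principal:
`SemilocalPrincipal.exists_generator`).
-/

set_option autoImplicit false

namespace Fermat.Agent.S18.Core.StartSectionUFD

open Ideal

section UFD

variable {S : Type*} [CommRing S] [IsDomain S]

/-- Uniqueness of the exponent in `g ^ n * x`, `g ∤ x`, for a prime `g`. -/
theorem pow_mul_eq_pow_mul {g : S} (hg : Prime g) {n n' : ℕ} {x x' : S} (hx : ¬ g ∣ x)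
    (hx' : ¬ g ∣ x') (h : g ^ n * x = g ^ n' * x') : n = n' := by
  have key : ∀ {n n' : ℕ} {x x' : S}, ¬ g ∣ x → ¬ g ∣ x' → g ^ n * x = g ^ n' * x' → n ≤ n' →
      n = n' := by
    intro n n' x x' hx hx' h hle
    obtain ⟨d, rfl⟩ := Nat.exists_eq_add_of_le hle
    rw [pow_add, mul_assoc] at h
    have h2 : x = g ^ d * x' := mul_left_cancel₀ (pow_ne_zero _ hg.ne_zero) h
    rcases Nat.eq_zero_or_pos d with rfl | hd
    · rfl
    · exfalso
      apply hx
      rw [h2]
      exact Dvd.dvd.mul_right (dvd_pow_self g hd.ne') x'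
  rcases le_total n n' with hle | hle
  · exact key hx hx' h hle
  · exact (key hx' hx h.symm hle).symm

variable [UniqueFactorizationMonoid S]

/-- In a UFD, an element all of whose prime multiplicities are divisible by `m` is a unit
times an `m`-th power. -/
theorem exists_unit_mul_pow {m : ℕ} (hm : 0 < m) (a : S)
    (H : ∀ g : S, Prime g → g ∣ a → ∃ (n : ℕ) (a' : S), a = g ^ (m * n) * a' ∧ ¬ g ∣ a') :
    ∃ (u A : S), IsUnit u ∧ a = u * A ^ m := by
  revert H
  induction a using UniqueFactorizationMonoid.induction_on_coprime with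
  | h0 =>
    intro _
    exact ⟨1, 0, isUnit_one, by rw [zero_pow hm.ne', mul_zero]⟩
  | h1 hx =>
    intro _
    exact ⟨_, 1, hx, by rw [one_pow, mul_one]⟩
  | hpr i hp =>
    rename_i p
    intro H
    rcases Nat.eq_zero_or_pos i with rfl | hi
    · exact ⟨1, 1, isUnit_one, by simp⟩
    · obtain ⟨n, a', h, ha'⟩ := H p hp (dvd_pow_self p hi.ne')
      have h1 : p ^ i * 1 = p ^ (m * n) * a' := by rw [mul_one]; exact h
      have hin : i = m * n := pow_mul_eq_pow_mul hp hp.not_dvd_one ha' h1
      refine ⟨1, p ^ n, isUnit_one, ?_⟩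
      rw [one_mul, ← pow_mul, hin, mul_comm n m]
  | hcp hxy hx hy =>
    rename_i x y
    intro H
    by_cases hx0 : x = 0
    · exact ⟨1, 0, isUnit_one, by rw [hx0, zero_mul, zero_pow hm.ne', mul_zero]⟩
    by_cases hy0 : y = 0
    · exact ⟨1, 0, isUnit_one, by rw [hy0, mul_zero, zero_pow hm.ne', mul_zero]⟩
    -- the hypothesis passes to coprime factors
    have pass : ∀ {x y : S}, x ≠ 0 → IsRelPrime x y →
        (∀ g : S, Prime g → g ∣ x * y → ∃ (n : ℕ) (a' : S), x * y = g ^ (m * n) * a' ∧ ¬ g ∣ a') →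
        ∀ g : S, Prime g → g ∣ x → ∃ (n : ℕ) (a' : S), x = g ^ (m * n) * a' ∧ ¬ g ∣ a' := by
      intro x y hx0 hxy H g hg hgx
      obtain ⟨n, a', h, ha'⟩ := H g hg (Dvd.dvd.mul_right hgx y)
      have hgy : ¬ g ∣ y := fun hgy => hg.not_isUnit (hxy hgx hgy)
      obtain ⟨x', hx', hgx'⟩ :=
        (FiniteMultiplicity.of_prime_left hg hx0).exists_eq_pow_mul_and_not_dvd
      have h2 : g ^ (multiplicity g x) * (x' * y) = g ^ (m * n) * a' := by
        rw [← h]; nth_rewrite 2 [hx']; ring
      have hnd : ¬ g ∣ x' * y := fun hd => (hg.dvd_or_dvd hd).elim hgx' hgy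
      have hj : multiplicity g x = m * n := pow_mul_eq_pow_mul hg hnd ha' h2
      exact ⟨n, x', by rw [← hj]; exact hx', hgx'⟩
    obtain ⟨u, A, hu, hA⟩ := hx (pass hx0 hxy H)
    have H' : ∀ g : S, Prime g → g ∣ y * x →
        ∃ (n : ℕ) (a' : S), y * x = g ^ (m * n) * a' ∧ ¬ g ∣ a' := by
      intro g hg hd
      rw [mul_comm] at hd
      obtain ⟨n, a', h, ha'⟩ := H g hg hd
      exact ⟨n, a', by rw [mul_comm]; exact h, ha'⟩
    obtain ⟨u', A', hu', hA'⟩ := hy (pass hy0 hxy.symm H')
    refine ⟨u * u', A * A', hu.mul hu', ?_⟩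
    rw [hA, hA']; ring

end UFD

section Frac

variable {S F : Type*} [CommRing S] [IsDomain S] [Field F] [Algebra S F] [IsFractionRing S F]

/-- `m ∣ ord_g f`, in multiplicity-free split form: `f = g ^ (± m n) * a / c` with `g ∤ a, c`. -/
def DivAt (m : ℕ) (f : F) (g : S) : Prop :=
  ∃ (n : ℕ) (a c : S), ¬ g ∣ a ∧ ¬ g ∣ c ∧
    (f * algebraMap S F c = algebraMap S F g ^ (m * n) * algebraMap S F a ∨
      f * algebraMap S F c * algebraMap S F g ^ (m * n) = algebraMap S F a)

variable [UniqueFactorizationMonoid S]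

/-- If `f = a / c` is a reduced fraction and `m ∣ ord_g f` for all primes `g` dividing `a` or
`c`, then `a` and `c` are units times `m`-th powers. -/
theorem exists_pow_of_fraction {m : ℕ} (hm : 0 < m) {f : F} {a c : S} (ha : a ≠ 0) (hc : c ≠ 0)
    (hrel : IsRelPrime a c) (hf : f * algebraMap S F c = algebraMap S F a)
    (H : ∀ g : S, Prime g → (g ∣ a ∨ g ∣ c) → DivAt m f g) :
    ∃ (A C u u' : S), IsUnit u ∧ IsUnit u' ∧ a = u * A ^ m ∧ c = u' * C ^ m := by
  have hinj : Function.Injective (algebraMap S F) := IsFractionRing.injective S F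
  -- the basic cross-multiplied identities
  have cross1 : ∀ {g a3 c3 : S} {n : ℕ},
      f * algebraMap S F c3 = algebraMap S F g ^ (m * n) * algebraMap S F a3 →
      a * c3 = g ^ (m * n) * (a3 * c) := by
    intro g a3 c3 n h
    apply hinj
    simp only [map_mul, map_pow]
    calc algebraMap S F a * algebraMap S F c3
        = (f * algebraMap S F c3) * algebraMap S F c := by rw [← hf]; ring
      _ = _ := by rw [h]; ring
  have cross2 : ∀ {g a3 c3 : S} {n : ℕ},
      f * algebraMap S F c3 * algebraMap S F g ^ (m * n) = algebraMap S F a3 →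
      g ^ (m * n) * (a * c3) = a3 * c := by
    intro g a3 c3 n h
    apply hinj
    simp only [map_mul, map_pow]
    calc algebraMap S F g ^ (m * n) * (algebraMap S F a * algebraMap S F c3)
        = (f * algebraMap S F c3 * algebraMap S F g ^ (m * n)) * algebraMap S F c := by
          rw [← hf]; ring
      _ = _ := by rw [h]
  have Ha : ∀ g : S, Prime g → g ∣ a → ∃ (n : ℕ) (a' : S), a = g ^ (m * n) * a' ∧ ¬ g ∣ a' := by
    intro g hg hga
    have hgc : ¬ g ∣ c := fun hgc => hg.not_isUnit (hrel hga hgc)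
    obtain ⟨n, a3, c3, ha3, hc3, h | h⟩ := H g hg (Or.inl hga)
    · have h1 := cross1 h
      obtain ⟨a', ha', hga'⟩ :=
        (FiniteMultiplicity.of_prime_left hg ha).exists_eq_pow_mul_and_not_dvd
      have h2 : g ^ (multiplicity g a) * (a' * c3) = g ^ (m * n) * (a3 * c) := by
        rw [← h1]; nth_rewrite 2 [ha']; ring
      have hj : multiplicity g a = m * n :=
        pow_mul_eq_pow_mul hg (fun hd => (hg.dvd_or_dvd hd).elim hga' hc3)
          (fun hd => (hg.dvd_or_dvd hd).elim ha3 hgc) h2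
      exact ⟨n, a', by rw [← hj]; exact ha', hga'⟩
    · exfalso
      have h1 := cross2 h
      have hd : g ∣ a3 * c := by
        rw [← h1]
        exact Dvd.dvd.mul_left (Dvd.dvd.mul_right hga c3) _
      exact (hg.dvd_or_dvd hd).elim ha3 hgc
  have Hc : ∀ g : S, Prime g → g ∣ c → ∃ (n : ℕ) (c' : S), c = g ^ (m * n) * c' ∧ ¬ g ∣ c' := by
    intro g hg hgc
    have hga : ¬ g ∣ a := fun hga => hg.not_isUnit (hrel hga hgc)
    obtain ⟨n, a3, c3, ha3, hc3, h | h⟩ := H g hg (Or.inr hgc)
    · exfalso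
      have h1 := cross1 h
      have hd : g ∣ a * c3 := by
        rw [h1]
        exact Dvd.dvd.mul_left (Dvd.dvd.mul_left hgc a3) _
      exact (hg.dvd_or_dvd hd).elim hga hc3
    · have h1 := cross2 h
      obtain ⟨c', hc', hgc'⟩ :=
        (FiniteMultiplicity.of_prime_left hg hc).exists_eq_pow_mul_and_not_dvd
      have h2 : g ^ (multiplicity g c) * (a3 * c') = g ^ (m * n) * (a * c3) := by
        rw [h1]; nth_rewrite 2 [hc']; ring
      have hj : multiplicity g c = m * n :=
        pow_mul_eq_pow_mul hg (fun hd => (hg.dvd_or_dvd hd).elim ha3 hgc')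
          (fun hd => (hg.dvd_or_dvd hd).elim hga hc3) h2
      exact ⟨n, c', by rw [← hj]; exact hc', hgc'⟩
  obtain ⟨u, A, hu, hA⟩ := exists_unit_mul_pow hm a Ha
  obtain ⟨u', C, hu', hC⟩ := exists_unit_mul_pow hm c Hc
  exact ⟨A, C, u, u', hu, hu', hA, hC⟩

end Frac

section Local

variable {S F : Type*} [CommRing S] [IsDomain S] [IsNoetherianRing S] [Field F] [Algebra S F]
  [IsFractionRing S F]

/-- A Noetherian domain with `π ≠ 0` in the Jacobson radical and `S ⧸ (π)` a principal ideal
domain is a UFD. -/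
theorem ufd_of_quotient_pid {π : S} (hπ0 : π ≠ 0) (hπJ : π ∈ Ideal.jacobson (⊥ : Ideal S))
    [IsPrincipalIdealRing (S ⧸ Ideal.span {π})] [IsDomain (S ⧸ Ideal.span {π})] :
    UniqueFactorizationMonoid S := by
  refine UniqueFactorizationMonoid.of_forall_isPrincipal_of_height_eq_one ?_
  intro p hp hht
  by_cases hπp : π ∈ p
  · have hprime : Prime π := by
      rw [← Ideal.span_singleton_prime hπ0]
      exact (Ideal.Quotient.isDomain_iff_prime _).mp inferInstance
    exact ⟨π, p.eq_span_singleton_of_height_eq_one hht hπp hprime⟩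
  · obtain ⟨g, -, hpg, -⟩ := SemilocalPrincipal.exists_generator hπJ p hπp
    exact ⟨g, hpg⟩

omit [IsDomain S] [IsNoetherianRing S] in
/-- A lift of a unit modulo an element of the Jacobson radical is a unit. -/
theorem isUnit_of_isUnit_mk {π : S} (hπJ : π ∈ Ideal.jacobson (⊥ : Ideal S)) {x : S}
    (hx : IsUnit (Ideal.Quotient.mk (Ideal.span {π}) x)) : IsUnit x := by
  obtain ⟨ybar, hy⟩ := hx.exists_right_inv
  obtain ⟨y, rfl⟩ := Ideal.Quotient.mk_surjective ybar
  have h1 : x * y - 1 ∈ Ideal.span {π} := by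
    rw [← Ideal.Quotient.eq_zero_iff_mem, map_sub, map_mul, hy, map_one, sub_self]
  obtain ⟨z, hz⟩ := Ideal.mem_span_singleton'.mp h1
  have h2 : IsUnit (π * z + 1) := (Ideal.mem_jacobson_bot.mp hπJ) z
  have h3 : x * y = π * z + 1 := by rw [mul_comm π z, hz]; ring
  exact isUnit_of_mul_isUnit_left (h3 ▸ h2)

/-- **Local step.** -/
theorem exists_local_section (Ov : ValuationSubring F) (hS : ∀ s : S, algebraMap S F s ∈ Ov)
    {π : S} (hπ0 : π ≠ 0) (hπJ : π ∈ Ideal.jacobson (⊥ : Ideal S))
    [IsPrincipalIdealRing (S ⧸ Ideal.span {π})] [IsDomain (S ⧸ Ideal.span {π})]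
    (hπv : Ov.valuation (algebraMap S F π) < 1)
    (sat : ∀ s : S, Ov.valuation (algebraMap S F s) < 1 → π ∣ s)
    {m : ℕ} (hm : 0 < m) {f : F} (hf : Ov.valuation (f - 1) < 1)
    (hdiv : ∀ g : S, Prime g → ¬ Associated g π → DivAt m f g) :
    ∃ (y : F) (u ε : S), IsUnit u ∧ IsUnit ε ∧ f * y ^ m = algebraMap S F u ∧
      Ov.valuation (y - algebraMap S F ε) < 1 := by
  have : UniqueFactorizationMonoid S := ufd_of_quotient_pid hπ0 hπJ
  set v := Ov.valuation with hv
  set φ := algebraMap S F with hφ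
  have hinj : Function.Injective φ := IsFractionRing.injective S F
  have hle : ∀ s : S, v (φ s) ≤ 1 := fun s => (Ov.valuation_le_one_iff _).mpr (hS s)
  have hvf : v f = 1 := by
    have : f = 1 + (f - 1) := by ring
    rw [this]
    exact v.map_one_add_of_lt hf
  have hf0 : f ≠ 0 := by
    rintro rfl
    rw [map_zero] at hvf
    exact zero_ne_one hvf
  -- `π` is not a unit
  have hπu : ¬ IsUnit π := by
    intro hu
    obtain ⟨w, hw⟩ := hu.exists_right_inv
    have h1 : v (φ π) * v (φ w) = 1 := by rw [← map_mul, ← map_mul, hw, map_one, map_one]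
    have h2 : v (φ π) * v (φ w) < 1 := by
      calc v (φ π) * v (φ w) ≤ v (φ π) * 1 := by gcongr; exact hle w
        _ = v (φ π) := mul_one _
        _ < 1 := hπv
    exact (ne_of_lt h2) h1
  have hdvd_lt : ∀ s : S, π ∣ s → v (φ s) < 1 := by
    rintro s ⟨w, rfl⟩
    rw [map_mul, map_mul]
    calc v (φ π) * v (φ w) ≤ v (φ π) * 1 := by gcongr; exact hle w
      _ = v (φ π) := mul_one _
      _ < 1 := hπv
  have hndvd_eq : ∀ s : S, ¬ π ∣ s → v (φ s) = 1 := fun s hs =>
    le_antisymm (hle s) (not_lt.mp fun h => hs (sat s h))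
  -- reduced fraction
  obtain ⟨a, ⟨c, hc⟩, hrel, hmk⟩ := IsFractionRing.exists_reduced_fraction S f
  have hc0 : c ≠ 0 := nonZeroDivisors.ne_zero hc
  have hfc : f * φ c = φ a := by
    rw [← hmk]
    exact IsLocalization.mk'_spec F a ⟨c, hc⟩
  have hφc0 : φ c ≠ 0 := fun h => hc0 (hinj (by rw [h, map_zero]))
  have ha0 : a ≠ 0 := by
    rintro rfl
    rw [map_zero] at hfc
    exact (mul_ne_zero hf0 hφc0) hfc
  have hvac : v (φ a) = v (φ c) := by rw [← hfc, map_mul, hvf, one_mul]
  have hπa : ¬ π ∣ a := by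
    intro h
    have h1 : v (φ c) < 1 := hvac ▸ hdvd_lt a h
    exact hπu (hrel h (sat c h1))
  have hπc : ¬ π ∣ c := by
    intro h
    have h1 : v (φ a) < 1 := hvac.symm ▸ hdvd_lt c h
    exact hπu (hrel (sat a h1) h)
  -- apply the fraction lemma
  have H : ∀ g : S, Prime g → (g ∣ a ∨ g ∣ c) → DivAt m f g := by
    intro g hg hgac
    apply hdiv g hg
    intro hass
    rcases hgac with h | h
    · exact hπa (hass.symm.dvd.trans h)
    · exact hπc (hass.symm.dvd.trans h)
  obtain ⟨A, C, u, u', hu, hu', hA, hC⟩ := exists_pow_of_fraction hm ha0 hc0 hrel hfc H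
  have hA0 : A ≠ 0 := by
    rintro rfl
    rw [zero_pow hm.ne', mul_zero] at hA
    exact ha0 hA
  have hC0 : C ≠ 0 := by
    rintro rfl
    rw [zero_pow hm.ne', mul_zero] at hC
    exact hc0 hC
  have hφA0 : φ A ≠ 0 := fun h => hA0 (hinj (by rw [h, map_zero]))
  have hφC0 : φ C ≠ 0 := fun h => hC0 (hinj (by rw [h, map_zero]))
  have hπA : ¬ π ∣ A := fun h => hπa (by
    rw [hA]; exact Dvd.dvd.mul_left (dvd_pow h hm.ne') u)
  obtain ⟨w', hw'⟩ := hu'.exists_right_inv
  have hw'u : IsUnit w' := IsUnit.of_mul_eq_one_right u' hw'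
  have hφu' : φ u' * φ w' = 1 := by rw [← map_mul, hw', map_one]
  have hφu'0 : φ u' ≠ 0 := left_ne_zero_of_mul_eq_one hφu'
  -- the candidate
  refine ⟨φ C / φ A, u * w', ?_⟩
  have hfy : f * (φ C / φ A) ^ m = φ (u * w') := by
    have h1 : f = φ a / φ c := by rw [← hfc]; field_simp
    have h2 : φ w' = (φ u')⁻¹ := eq_inv_of_mul_eq_one_right hφu'
    rw [h1, hA, hC, div_pow]
    simp only [map_mul, map_pow]
    rw [h2]
    field_simp
  -- the residue class of the candidate
  have hac : π ∣ a - c := by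
    apply sat
    have : φ (a - c) = φ c * (f - 1) := by rw [map_sub, ← hfc]; ring
    rw [this, map_mul]
    calc v (φ c) * v (f - 1) ≤ 1 * v (f - 1) := by gcongr; exact hle c
      _ = v (f - 1) := one_mul _
      _ < 1 := hf
  set mk := Ideal.Quotient.mk (Ideal.span {π}) with hmkdef
  have hmk_eq : mk a = mk c := by
    rw [← sub_eq_zero, ← map_sub, Ideal.Quotient.eq_zero_iff_mem]
    exact Ideal.mem_span_singleton.mpr hac
  have hmku : IsUnit (mk u) := hu.map mk
  have hmku' : IsUnit (mk u') := hu'.map mk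
  have hrelD : mk u * mk A ^ m = mk u' * mk C ^ m := by
    rw [← map_pow, ← map_pow, ← map_mul, ← map_mul, ← hA, ← hC, hmk_eq]
  have hAC : mk A ∣ mk C := by
    rw [← IsIntegrallyClosed.pow_dvd_pow_iff hm.ne']
    have : mk C ^ m = mk A ^ m * (mk u * ↑(hmku'.unit⁻¹)) := by
      have h1 : mk u' * ↑(hmku'.unit⁻¹) = 1 := hmku'.mul_val_inv
      calc mk C ^ m = (mk u' * mk C ^ m) * ↑(hmku'.unit⁻¹) := by
            rw [mul_comm (mk u'), mul_assoc, h1, mul_one]
        _ = _ := by rw [← hrelD]; ring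
    exact Dvd.intro _ this.symm
  have hCA : mk C ∣ mk A := by
    rw [← IsIntegrallyClosed.pow_dvd_pow_iff hm.ne']
    have : mk A ^ m = mk C ^ m * (mk u' * ↑(hmku.unit⁻¹)) := by
      have h1 : mk u * ↑(hmku.unit⁻¹) = 1 := hmku.mul_val_inv
      calc mk A ^ m = (mk u * mk A ^ m) * ↑(hmku.unit⁻¹) := by
            rw [mul_comm (mk u), mul_assoc, h1, mul_one]
        _ = _ := by rw [hrelD]; ring
    exact Dvd.intro _ this.symm
  obtain ⟨e, he⟩ := associated_of_dvd_dvd hAC hCA
  obtain ⟨ε, hε⟩ := Ideal.Quotient.mk_surjective (e : S ⧸ Ideal.span {π})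
  have hεu : IsUnit ε := isUnit_of_isUnit_mk hπJ (by rw [hε]; exact e.isUnit)
  have hCε : π ∣ C - ε * A := by
    rw [← Ideal.mem_span_singleton, ← Ideal.Quotient.eq_zero_iff_mem, map_sub, map_mul, hε,
      ← he]
    ring
  obtain ⟨z, hz⟩ := hCε
  refine ⟨ε, hu.mul hw'u, hεu, hfy, ?_⟩
  have hyε : φ C / φ A - φ ε = φ π * φ z / φ A := by
    have : φ C = φ ε * φ A + φ π * φ z := by
      rw [← map_mul, ← map_mul, ← map_add, ← hz]; congr 1; ring
    rw [this]; field_simp; ring
  rw [hyε, map_div₀, map_mul, hndvd_eq A hπA, div_one]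
  calc v (φ π) * v (φ z) ≤ v (φ π) * 1 := by gcongr; exact hle z
    _ = v (φ π) := mul_one _
    _ < 1 := hπv

end Local

section PrimeVal

variable {S F : Type*} [CommRing S] [IsDomain S] [UniqueFactorizationMonoid S] [Field F]
  [Algebra S F] [IsFractionRing S F]

/-- The valuation subring `S_(g)` of the fraction field, for a prime element `g` of a UFD. -/
def primeValSubring (g : S) (hg : Prime g) : ValuationSubring F where
  carrier := {x | ∃ a c : S, ¬ g ∣ c ∧ x * algebraMap S F c = algebraMap S F a}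
  mul_mem' := by
    rintro x y ⟨a, c, hc, h⟩ ⟨a', c', hc', h'⟩
    refine ⟨a * a', c * c', fun hd => (hg.dvd_or_dvd hd).elim hc hc', ?_⟩
    rw [map_mul, map_mul, ← h, ← h']; ring
  one_mem' := ⟨1, 1, hg.not_dvd_one, by simp⟩
  add_mem' := by
    rintro x y ⟨a, c, hc, h⟩ ⟨a', c', hc', h'⟩
    refine ⟨a * c' + a' * c, c * c', fun hd => (hg.dvd_or_dvd hd).elim hc hc', ?_⟩
    rw [map_add, map_mul, map_mul, map_mul, ← h, ← h']; ring
  zero_mem' := ⟨0, 1, hg.not_dvd_one, by simp⟩
  neg_mem' := by
    rintro x ⟨a, c, hc, h⟩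
    exact ⟨-a, c, hc, by rw [map_neg, ← h]; ring⟩
  mem_or_inv_mem' := by
    intro x
    obtain ⟨a, ⟨c, hc⟩, hrel, hmk⟩ := IsFractionRing.exists_reduced_fraction S x
    have hxc : x * algebraMap S F c = algebraMap S F a := by
      rw [← hmk]
      exact IsLocalization.mk'_spec F a ⟨c, hc⟩
    by_cases hgc : g ∣ c
    · right
      have hga : ¬ g ∣ a := fun hga => hg.not_isUnit (hrel hga hgc)
      have ha0 : a ≠ 0 := fun h => hga (h ▸ dvd_zero g)
      have hφa0 : algebraMap S F a ≠ 0 := fun h =>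
        ha0 ((IsFractionRing.injective S F) (by rw [h, map_zero]))
      have hx0 : x ≠ 0 := by
        rintro rfl
        rw [zero_mul] at hxc
        exact hφa0 hxc.symm
      refine ⟨c, a, hga, ?_⟩
      rw [← hxc]
      field_simp
    · left
      exact ⟨a, c, hgc, hxc⟩

theorem mem_primeValSubring_iff {g : S} (hg : Prime g) {x : F} :
    x ∈ (primeValSubring g hg : ValuationSubring F) ↔
      ∃ a c : S, ¬ g ∣ c ∧ x * algebraMap S F c = algebraMap S F a := Iff.rfl

theorem algebraMap_mem_primeValSubring {g : S} (hg : Prime g) (s : S) :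
    algebraMap S F s ∈ (primeValSubring g hg : ValuationSubring F) :=
  ⟨s, 1, hg.not_dvd_one, by simp⟩

/-- valuation one from membership of the element and its inverse. -/
theorem valuation_eq_one_of_mem_of_inv_mem (O : ValuationSubring F) {x : F} (hx0 : x ≠ 0)
    (hx : x ∈ O) (hx' : x⁻¹ ∈ O) : O.valuation x = 1 := by
  have h1 : O.valuation x ≤ 1 := (O.valuation_le_one_iff _).mpr hx
  have h2 : O.valuation x⁻¹ ≤ 1 := (O.valuation_le_one_iff _).mpr hx'
  have h3 : O.valuation x * O.valuation x⁻¹ = 1 := by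
    rw [← map_mul, mul_inv_cancel₀ hx0, map_one]
  refine le_antisymm h1 (not_lt.mp fun hlt => ?_)
  have : O.valuation x * O.valuation x⁻¹ < 1 := by
    calc O.valuation x * O.valuation x⁻¹ ≤ O.valuation x * 1 := by gcongr
      _ = O.valuation x := mul_one _
      _ < 1 := hlt
  exact (ne_of_lt this) h3

theorem valuation_primeValSubring_eq_one {g : S} (hg : Prime g) {s : S} (hs : ¬ g ∣ s) :
    (primeValSubring g hg : ValuationSubring F).valuation (algebraMap S F s) = 1 := by
  have hs0 : s ≠ 0 := fun h => hs (h ▸ dvd_zero g)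
  have hφs0 : algebraMap S F s ≠ 0 := fun h =>
    hs0 ((IsFractionRing.injective S F) (by rw [h, map_zero]))
  refine valuation_eq_one_of_mem_of_inv_mem _ hφs0 (algebraMap_mem_primeValSubring hg s) ?_
  exact ⟨1, s, hs, by rw [map_one]; field_simp⟩

theorem exists_of_valuation_primeValSubring_eq_one {g : S} (hg : Prime g) {z : F}
    (hz : (primeValSubring g hg : ValuationSubring F).valuation z = 1) :
    ∃ a c : S, ¬ g ∣ a ∧ ¬ g ∣ c ∧ z * algebraMap S F c = algebraMap S F a := by
  set O : ValuationSubring F := primeValSubring g hg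
  have hz0 : z ≠ 0 := by
    rintro rfl
    rw [map_zero] at hz
    exact zero_ne_one hz
  have h1 : z ∈ O := (O.valuation_le_one_iff _).mp hz.le
  have h2 : z⁻¹ ∈ O := by
    apply (O.valuation_le_one_iff _).mp
    rw [map_inv₀, hz, inv_one]
  obtain ⟨a1, c1, hc1, e1⟩ := h1
  obtain ⟨a2, c2, hc2, e2⟩ := h2
  refine ⟨a1, c1, ?_, hc1, e1⟩
  intro hga1
  -- `c1 * c2 = a1 * a2`
  have hcc : c1 * c2 = a1 * a2 := by
    apply IsFractionRing.injective S F
    rw [map_mul, map_mul, ← e1, ← e2]
    field_simp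
  have : g ∣ c1 * c2 := hcc ▸ Dvd.dvd.mul_right hga1 a2
  exact (hg.dvd_or_dvd this).elim hc1 hc2

/-- every nonzero element of `F` is `g ^ (i - j) * a' / c'` with `g ∤ a', c'`, `i = 0 ∨ j = 0`. -/
theorem exists_prime_pow_decomp {g : S} (hg : Prime g) {y : F} (hy : y ≠ 0) :
    ∃ (i j : ℕ) (a' c' : S), ¬ g ∣ a' ∧ ¬ g ∣ c' ∧
      y * algebraMap S F c' * algebraMap S F g ^ j = algebraMap S F g ^ i * algebraMap S F a' := by
  obtain ⟨a, ⟨c, hc⟩, -, hmk⟩ := IsFractionRing.exists_reduced_fraction S y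
  have hc0 : c ≠ 0 := nonZeroDivisors.ne_zero hc
  have hyc : y * algebraMap S F c = algebraMap S F a := by
    rw [← hmk]
    exact IsLocalization.mk'_spec F a ⟨c, hc⟩
  have ha0 : a ≠ 0 := by
    rintro rfl
    rw [map_zero] at hyc
    have hφc0 : algebraMap S F c ≠ 0 := fun h =>
      hc0 ((IsFractionRing.injective S F) (by rw [h, map_zero]))
    exact (mul_ne_zero hy hφc0) hyc
  obtain ⟨a', ha', hga'⟩ :=
    (FiniteMultiplicity.of_prime_left hg ha0).exists_eq_pow_mul_and_not_dvd
  obtain ⟨c', hc', hgc'⟩ :=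
    (FiniteMultiplicity.of_prime_left hg hc0).exists_eq_pow_mul_and_not_dvd
  refine ⟨multiplicity g a, multiplicity g c, a', c', hga', hgc', ?_⟩
  have h1 : algebraMap S F c = algebraMap S F g ^ multiplicity g c * algebraMap S F c' := by
    rw [← map_pow, ← map_mul, ← hc']
  have h2 : algebraMap S F a = algebraMap S F g ^ multiplicity g a * algebraMap S F a' := by
    rw [← map_pow, ← map_mul, ← ha']
  rw [← h2, ← hyc, h1]; ring

/-- `m ∣ ord_g f` from: `v_g(f)` is an `m`-th power in the value group of `S_(g)`. -/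
theorem divAt_of_valuation {g : S} (hg : Prime g) {m : ℕ} {f : F}
    (h : ∃ y : F, (primeValSubring g hg : ValuationSubring F).valuation (f * y ^ m) = 1) :
    DivAt m f g := by
  obtain ⟨y, hy⟩ := h
  have hy0 : y ≠ 0 ∨ m = 0 := by
    by_cases hm : m = 0
    · exact Or.inr hm
    · refine Or.inl ?_
      rintro rfl
      rw [zero_pow hm, mul_zero, map_zero] at hy
      exact zero_ne_one hy
  obtain ⟨a1, c1, ha1, hc1, e1⟩ := exists_of_valuation_primeValSubring_eq_one hg hy
  rcases hy0 with hy0 | rfl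
  · obtain ⟨i, j, a', c', ha', hc', e2⟩ := exists_prime_pow_decomp hg hy0
    -- `f * (a'^m c1) * g^(m i) = (a1 c'^m) * g^(m j)`
    have key : f * algebraMap S F (a' ^ m * c1) * algebraMap S F g ^ (m * i) =
        algebraMap S F g ^ (m * j) * algebraMap S F (a1 * c' ^ m) := by
      have e3 : (y * algebraMap S F c' * algebraMap S F g ^ j) ^ m =
          (algebraMap S F g ^ i * algebraMap S F a') ^ m := by rw [e2]
      simp only [map_mul, map_pow]
      calc f * (algebraMap S F a' ^ m * algebraMap S F c1) * algebraMap S F g ^ (m * i)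
          = f * algebraMap S F c1 * (algebraMap S F g ^ i * algebraMap S F a') ^ m := by
            rw [pow_mul']; ring
        _ = f * algebraMap S F c1 * (y * algebraMap S F c' * algebraMap S F g ^ j) ^ m := by
            rw [e3]
        _ = (f * y ^ m * algebraMap S F c1) * algebraMap S F c' ^ m *
              algebraMap S F g ^ (m * j) := by rw [pow_mul']; ring
        _ = _ := by rw [e1]; ring
    have hna : ¬ g ∣ a' ^ m * c1 := fun hd =>
      (hg.dvd_or_dvd hd).elim (fun h => ha' (hg.dvd_of_dvd_pow h)) hc1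
    have hnc : ¬ g ∣ a1 * c' ^ m := fun hd =>
      (hg.dvd_or_dvd hd).elim ha1 (fun h => hc' (hg.dvd_of_dvd_pow h))
    have hφg0 : algebraMap S F g ≠ 0 := fun h =>
      hg.ne_zero ((IsFractionRing.injective S F) (by rw [h, map_zero]))
    rcases le_total i j with hij | hij
    · -- `f = g^(m (j - i)) * a / c`
      obtain ⟨d, rfl⟩ := Nat.exists_eq_add_of_le hij
      refine ⟨d, a1 * c' ^ m, a' ^ m * c1, hnc, hna, Or.inl ?_⟩
      have : algebraMap S F g ^ (m * (i + d)) =
          algebraMap S F g ^ (m * i) * algebraMap S F g ^ (m * d) := by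
        rw [← pow_add, mul_add]
      rw [this] at key
      apply mul_right_cancel₀ (pow_ne_zero (m * i) hφg0)
      rw [key]; ring
    · obtain ⟨d, rfl⟩ := Nat.exists_eq_add_of_le hij
      refine ⟨d, a1 * c' ^ m, a' ^ m * c1, hnc, hna, Or.inr ?_⟩
      have : algebraMap S F g ^ (m * (j + d)) =
          algebraMap S F g ^ (m * j) * algebraMap S F g ^ (m * d) := by
        rw [← pow_add, mul_add]
      rw [this] at key
      apply mul_right_cancel₀ (pow_ne_zero (m * j) hφg0)
      calc f * algebraMap S F (a' ^ m * c1) * algebraMap S F g ^ (m * d) *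
            algebraMap S F g ^ (m * j)
          = f * algebraMap S F (a' ^ m * c1) *
              (algebraMap S F g ^ (m * j) * algebraMap S F g ^ (m * d)) := by ring
        _ = _ := by rw [key]; ring
  · refine ⟨0, a1, c1, ha1, hc1, Or.inl ?_⟩
    rw [pow_zero, mul_one] at e1
    rw [e1]; simp

end PrimeVal

section Global

variable {B F : Type*} [CommRing B] [IsDomain B] [IsNoetherianRing B] [Field F] [Algebra B F]
  [IsFractionRing B F]

omit [IsDomain B] [IsNoetherianRing B] [IsFractionRing B F] in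
/-- `M = {y | f * y ^ m ∈ B}` is closed under addition when `B` is closed under `m`-th roots. -/
theorem mul_add_pow_mem {m : ℕ}
    (root : ∀ z : F, z ^ m ∈ (algebraMap B F).range → z ∈ (algebraMap B F).range)
    {f y₁ y₂ : F} (h₁ : f * y₁ ^ m ∈ (algebraMap B F).range)
    (h₂ : f * y₂ ^ m ∈ (algebraMap B F).range) :
    f * (y₁ + y₂) ^ m ∈ (algebraMap B F).range := by
  rw [add_pow, Finset.mul_sum]
  refine Subring.sum_mem _ fun k hk => ?_
  have hkm : k ≤ m := Nat.lt_succ_iff.mp (Finset.mem_range.mp hk)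
  have hw : f * (y₁ ^ k * y₂ ^ (m - k)) ∈ (algebraMap B F).range := by
    apply root
    have : (f * (y₁ ^ k * y₂ ^ (m - k))) ^ m = (f * y₁ ^ m) ^ k * (f * y₂ ^ m) ^ (m - k) := by
      have hf : f ^ m = f ^ k * f ^ (m - k) := by rw [← pow_add, Nat.add_sub_cancel' hkm]
      rw [mul_pow, mul_pow, mul_pow, mul_pow, hf, ← pow_mul, ← pow_mul, ← pow_mul, ← pow_mul,
        mul_comm k m, mul_comm (m - k) m]
      ring
    rw [this]
    exact Subring.mul_mem _ (Subring.pow_mem _ h₁ _) (Subring.pow_mem _ h₂ _)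
  have hc : ((m.choose k : ℕ) : F) ∈ (algebraMap B F).range := natCast_mem _ _
  have : f * (y₁ ^ k * y₂ ^ (m - k) * (m.choose k : F)) =
      f * (y₁ ^ k * y₂ ^ (m - k)) * (m.choose k : F) := by ring
  rw [this]
  exact Subring.mul_mem _ hw hc

/-- **C2-M, the start section.** -/
theorem exists_start_section (Ov : ValuationSubring F) (hB : ∀ b : B, algebraMap B F b ∈ Ov)
    {π : B} (hπ0 : π ≠ 0) (hπv : Ov.valuation (algebraMap B F π) < 1)
    (sat : ∀ b : B, Ov.valuation (algebraMap B F b) < 1 → π ∣ b)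
    {m : ℕ} (hm : 0 < m)
    (root : ∀ z : F, z ^ m ∈ (algebraMap B F).range → z ∈ (algebraMap B F).range)
    {f : F} (hf : Ov.valuation (f - 1) < 1)
    (hloc : ∀ n : Ideal B, n.IsMaximal → π ∈ n →
      (∃ a h : B, a ∉ n ∧ h ∉ n ∧ f * algebraMap B F h = algebraMap B F a) ∨
      ((∃ T : B, T ∈ n ∧ ∀ x ∈ n, ∃ s : B, s ∉ n ∧ s * x ∈ Ideal.span {π, T}) ∧
        ∀ O : ValuationSubring F, (∀ b : B, algebraMap B F b ∈ O) →
          (∀ b : B, b ∉ n → O.valuation (algebraMap B F b) = 1) →
          O.valuation (algebraMap B F π) = 1 → ∃ y : F, O.valuation (f * y ^ m) = 1)) :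
    ∃ y : F, f * y ^ m ∈ (algebraMap B F).range ∧ Ov.valuation (y - 1) < 1 := by
  set v := Ov.valuation with hv
  set φ := algebraMap B F with hφ
  have hinj : Function.Injective φ := IsFractionRing.injective B F
  have hle : ∀ b : B, v (φ b) ≤ 1 := fun b => (Ov.valuation_le_one_iff _).mpr (hB b)
  obtain ⟨m', rfl⟩ : ∃ m', m = m' + 1 := ⟨m - 1, by omega⟩
  -- local data
  have hlocal : ∀ n : Ideal B, n.IsMaximal → π ∈ n →
      ∃ (y : F) (b : B), b ∉ n ∧ f * y ^ (m' + 1) ∈ φ.range ∧ v (y - φ b) < 1 := by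
    intro n hn hπn
    have hvn : ∀ b : B, b ∉ n → v (φ b) = 1 := fun b hb =>
      le_antisymm (hle b) (not_lt.mp fun h => hb (n.mem_of_dvd (sat b h) hπn))
    rcases hloc n hn hπn with ⟨a, h, -, hh, hfa⟩ | ⟨⟨T, hTn, hT⟩, hdiv⟩
    · refine ⟨φ h, h, hh, ⟨a * h ^ m', ?_⟩, by rw [sub_self, map_zero]; exact zero_lt_one⟩
      rw [map_mul, map_pow, pow_succ, ← hfa]; ring
    · -- the localisation
      have := hn.isPrime
      have hcompl : n.primeCompl ≤ nonZeroDivisors B := Ideal.primeCompl_le_nonZeroDivisors n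
      have hunits : ∀ y : n.primeCompl, IsUnit (φ y) := fun y =>
        IsUnit.mk0 _ fun h0 => (nonZeroDivisors.ne_zero (hcompl y.2)) (hinj (by rw [h0, map_zero]))
      let algSF : Algebra (Localization.AtPrime n) F :=
        (IsLocalization.lift (M := n.primeCompl) (S := Localization.AtPrime n) hunits).toAlgebra
      have : IsScalarTower B (Localization.AtPrime n) F :=
        IsScalarTower.of_algebraMap_eq fun b => (IsLocalization.lift_eq hunits b).symm
      have : IsDomain (Localization.AtPrime n) :=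
        IsLocalization.isDomain_localization hcompl
      have : IsNoetherianRing (Localization.AtPrime n) :=
        IsLocalization.isNoetherianRing n.primeCompl _ inferInstance
      have : IsFractionRing (Localization.AtPrime n) F :=
        IsFractionRing.isFractionRing_of_isDomain_of_isLocalization n.primeCompl _ F
      set ι := algebraMap B (Localization.AtPrime n) with hι
      set ψ := algebraMap (Localization.AtPrime n) F with hψ
      have hψι : ∀ b : B, ψ (ι b) = φ b := fun b =>
        (IsScalarTower.algebraMap_apply B (Localization.AtPrime n) F b).symm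
      have hιinj : Function.Injective ι := IsLocalization.injective _ hcompl
      have hsurj : ∀ s : Localization.AtPrime n, ∃ (b h : B), h ∉ n ∧ s * ι h = ι b := by
        intro s
        obtain ⟨⟨b, h⟩, e⟩ := IsLocalization.surj n.primeCompl s
        exact ⟨b, h, h.2, e⟩
      have hιunit : ∀ h : B, h ∉ n → IsUnit (ι h) := fun h hh =>
        IsLocalization.map_units (Localization.AtPrime n) (⟨h, hh⟩ : n.primeCompl)
      -- valuation of elements of the localisation
      have hvS : ∀ s : Localization.AtPrime n, ∀ b h : B, h ∉ n → s * ι h = ι b →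
          v (ψ s) = v (φ b) := by
        intro s b h hh e
        have : ψ s * φ h = φ b := by rw [← hψι, ← hψι, ← map_mul, e]
        rw [← this, map_mul, hvn h hh, mul_one]
      have hS : ∀ s : Localization.AtPrime n, ψ s ∈ Ov := by
        intro s
        obtain ⟨b, h, hh, e⟩ := hsurj s
        rw [← Ov.valuation_le_one_iff, ← hv, hvS s b h hh e]
        exact hle b
      have hπS0 : ι π ≠ 0 := fun h => hπ0 (hιinj (by rw [h, map_zero]))
      have hπSmax : ι π ∈ IsLocalRing.maximalIdeal (Localization.AtPrime n) :=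
        (IsLocalization.AtPrime.to_map_mem_maximal_iff _ n π).mpr hπn
      have hπJ : ι π ∈ Ideal.jacobson (⊥ : Ideal (Localization.AtPrime n)) := by
        rw [IsLocalRing.jacobson_eq_maximalIdeal ⊥ bot_ne_top]
        exact hπSmax
      have hπvS : v (ψ (ι π)) < 1 := by rw [hψι]; exact hπv
      have satS : ∀ s : Localization.AtPrime n, v (ψ s) < 1 → ι π ∣ s := by
        intro s hs
        obtain ⟨b, h, hh, e⟩ := hsurj s
        rw [hvS s b h hh e] at hs
        obtain ⟨b', rfl⟩ := sat b hs
        obtain ⟨w, hw⟩ := (hιunit h hh).exists_right_inv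
        refine ⟨ι b' * w, ?_⟩
        calc s = s * (ι h * w) := by rw [hw, mul_one]
          _ = (s * ι h) * w := by ring
          _ = ι π * (ι b' * w) := by rw [e, map_mul]; ring
      -- `ι π` is prime
      have hπSprime : Prime (ι π) := by
        refine ⟨hπS0, fun hu => ?_, fun x y hxy => ?_⟩
        · exact (IsLocalRing.mem_maximalIdeal _).mp hπSmax hu
        · have hlt : v (ψ (x * y)) < 1 := by
            obtain ⟨w, hw⟩ := hxy
            rw [hw, map_mul, map_mul]
            calc v (ψ (ι π)) * v (ψ w) ≤ v (ψ (ι π)) * 1 := by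
                  gcongr; exact (Ov.valuation_le_one_iff _).mpr (hS w)
              _ = v (ψ (ι π)) := mul_one _
              _ < 1 := hπvS
          rw [map_mul, map_mul] at hlt
          by_contra hcon
          rw [not_or] at hcon
          have hx1 : v (ψ x) = 1 := le_antisymm ((Ov.valuation_le_one_iff _).mpr (hS x))
            (not_lt.mp fun h => hcon.1 (satS x h))
          have hy1 : v (ψ y) = 1 := le_antisymm ((Ov.valuation_le_one_iff _).mpr (hS y))
            (not_lt.mp fun h => hcon.2 (satS y h))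
          rw [hx1, hy1, mul_one] at hlt
          exact lt_irrefl _ hlt
      have hDdom : IsDomain (Localization.AtPrime n ⧸ Ideal.span {ι π}) := by
        rw [Ideal.Quotient.isDomain_iff_prime, Ideal.span_singleton_prime hπS0]
        exact hπSprime
      -- the maximal ideal of the localisation is `(π, T)`
      have hmaxS : ∀ x : Localization.AtPrime n, x ∈ IsLocalRing.maximalIdeal _ →
          x ∈ Ideal.span {ι π, ι T} := by
        intro x hx
        obtain ⟨b, h, hh, e⟩ := hsurj x
        have hbn : b ∈ n := by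
          rw [← IsLocalization.AtPrime.to_map_mem_maximal_iff (Localization.AtPrime n) n b, ← e]
          exact Ideal.mul_mem_right _ _ hx
        obtain ⟨s, hs, hsb⟩ := hT b hbn
        obtain ⟨w, hw⟩ := (hιunit (s * h) (fun hmem => (hn.isPrime.mem_or_mem hmem).elim hs hh)
          ).exists_right_inv
        have hxeq : x = ι (s * b) * w := by
          calc x = x * (ι (s * h) * w) := by rw [hw, mul_one]
            _ = ι s * (x * ι h) * w := by rw [map_mul]; ring
            _ = ι (s * b) * w := by rw [e, map_mul]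
        rw [hxeq]
        refine Ideal.mul_mem_right _ _ ?_
        have : Ideal.map ι (Ideal.span {π, T}) = Ideal.span {ι π, ι T} := by
          rw [Ideal.map_span]; congr 1; simp [Set.image_pair]
        rw [← this]
        exact Ideal.mem_map_of_mem ι hsb
      -- the quotient is a principal ideal ring
      have : IsLocalRing (Localization.AtPrime n ⧸ Ideal.span {ι π}) :=
        IsLocalRing.of_surjective' (Ideal.Quotient.mk _) Ideal.Quotient.mk_surjective
      have hDpid : IsPrincipalIdealRing (Localization.AtPrime n ⧸ Ideal.span {ι π}) := by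
        refine ((tfae_of_isNoetherianRing_of_isLocalRing_of_isDomain
          (Localization.AtPrime n ⧸ Ideal.span {ι π})).out 0 4).mpr ?_
        refine ⟨Ideal.Quotient.mk _ (ι T), le_antisymm ?_ ?_⟩
        · intro xbar hxbar
          obtain ⟨x, rfl⟩ := Ideal.Quotient.mk_surjective xbar
          have hx : x ∈ IsLocalRing.maximalIdeal (Localization.AtPrime n) := by
            rw [IsLocalRing.mem_maximalIdeal, mem_nonunits_iff] at hxbar ⊢
            exact fun hu => hxbar (hu.map _)
          obtain ⟨α, β, hαβ⟩ := Ideal.mem_span_pair.mp (hmaxS x hx)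
          rw [← hαβ, map_add, map_mul, map_mul]
          have : Ideal.Quotient.mk (Ideal.span {ι π}) (ι π) = 0 :=
            Ideal.Quotient.eq_zero_iff_mem.mpr (Ideal.mem_span_singleton_self _)
          rw [this, mul_zero, zero_add]
          exact Ideal.mul_mem_left _ _ (Ideal.mem_span_singleton_self _)
        · rw [Ideal.submodule_span_eq, Ideal.span_le, Set.singleton_subset_iff]
          have hTmax : ι T ∈ IsLocalRing.maximalIdeal (Localization.AtPrime n) :=
            (IsLocalization.AtPrime.to_map_mem_maximal_iff _ n T).mpr hTn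
          show _ ∈ IsLocalRing.maximalIdeal _
          rw [IsLocalRing.mem_maximalIdeal, mem_nonunits_iff]
          intro hu
          exact (IsLocalRing.mem_maximalIdeal _).mp hTmax (isUnit_of_isUnit_mk hπJ hu)
      have hufd : UniqueFactorizationMonoid (Localization.AtPrime n) :=
        ufd_of_quotient_pid hπS0 hπJ
      -- the divisibility hypothesis
      have hdivS : ∀ g : Localization.AtPrime n, Prime g → ¬ Associated g (ι π) →
          DivAt (m' + 1) f g := by
        intro g hg hass
        apply divAt_of_valuation hg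
        apply hdiv (primeValSubring g hg)
        · intro b
          rw [← hψι]
          exact algebraMap_mem_primeValSubring hg _
        · intro b hb
          rw [← hψι]
          apply valuation_primeValSubring_eq_one hg
          intro hd
          exact hg.not_isUnit (isUnit_of_dvd_unit hd (hιunit b hb))
        · rw [← hψι]
          apply valuation_primeValSubring_eq_one hg
          rintro ⟨w, hw⟩
          rcases hπSprime.irreducible.isUnit_or_isUnit hw with hu | hu
          · exact hg.not_isUnit hu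
          · exact hass ⟨hu.unit, by rw [hw]; rfl⟩
      obtain ⟨y0, u, ε, hu, hε, hfy0, hy0ε⟩ :=
        exists_local_section Ov hS hπS0 hπJ hπvS satS (Nat.succ_pos m') hf hdivS
      obtain ⟨u1, s1, hs1, eu⟩ := hsurj u
      obtain ⟨e1, s2, hs2, eε⟩ := hsurj ε
      have he1 : e1 ∉ n := by
        intro hmem
        have h1 : ι e1 ∈ IsLocalRing.maximalIdeal (Localization.AtPrime n) :=
          (IsLocalization.AtPrime.to_map_mem_maximal_iff _ n e1).mpr hmem
        rw [← eε] at h1
        exact (IsLocalRing.mem_maximalIdeal _).mp h1 (hε.mul (hιunit s2 hs2))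
      refine ⟨φ s1 * φ s2 * y0, s1 * e1,
        fun hmem => (hn.isPrime.mem_or_mem hmem).elim hs1 he1, ⟨s1 ^ m' * s2 ^ (m' + 1) * u1, ?_⟩, ?_⟩
      · have h1 : ψ u * φ s1 = φ u1 := by rw [← hψι, ← hψι, ← map_mul, eu]
        calc φ (s1 ^ m' * s2 ^ (m' + 1) * u1)
            = φ s1 ^ m' * φ s2 ^ (m' + 1) * (ψ u * φ s1) := by
              rw [h1]; simp only [map_mul, map_pow]
          _ = (f * y0 ^ (m' + 1)) * (φ s1 ^ (m' + 1) * φ s2 ^ (m' + 1)) := by
              rw [hfy0, pow_succ (φ s1) m']; ring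
          _ = f * (φ s1 * φ s2 * y0) ^ (m' + 1) := by ring
      · have h2 : ψ ε * φ s2 = φ e1 := by rw [← hψι, ← hψι, ← map_mul, eε]
        have h3 : φ s1 * φ s2 * y0 - φ (s1 * e1) = φ s1 * φ s2 * (y0 - ψ ε) := by
          rw [map_mul, ← h2]; ring
        rw [h3, map_mul, map_mul, hvn s1 hs1, hvn s2 hs2, one_mul, one_mul]
        exact hy0ε
  -- the partition of unity ideal
  let 𝔞 : Ideal B :=
    { carrier := {b | ∃ y : F, f * y ^ (m' + 1) ∈ φ.range ∧ v (y - φ b) < 1}
      add_mem' := by
        rintro b₁ b₂ ⟨y₁, h₁, hv₁⟩ ⟨y₂, h₂, hv₂⟩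
        refine ⟨y₁ + y₂, mul_add_pow_mem root h₁ h₂, ?_⟩
        have : y₁ + y₂ - φ (b₁ + b₂) = (y₁ - φ b₁) + (y₂ - φ b₂) := by rw [map_add]; ring
        rw [this]
        exact v.map_add_lt hv₁ hv₂
      zero_mem' := ⟨0, by rw [zero_pow (Nat.succ_ne_zero m'), mul_zero]; exact Subring.zero_mem _,
        by rw [map_zero, sub_self, map_zero]; exact zero_lt_one⟩
      smul_mem' := by
        rintro c b ⟨y, h, hvy⟩
        refine ⟨φ c * y, ?_, ?_⟩
        · have : f * (φ c * y) ^ (m' + 1) = φ c ^ (m' + 1) * (f * y ^ (m' + 1)) := by ring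
          rw [this]
          exact Subring.mul_mem _ (Subring.pow_mem _ (RingHom.mem_range_self φ c) _) h
        · have : φ c * y - φ (c • b) = φ c * (y - φ b) := by rw [smul_eq_mul, map_mul]; ring
          rw [this, map_mul]
          calc v (φ c) * v (y - φ b) ≤ 1 * v (y - φ b) := by gcongr; exact hle c
            _ = v (y - φ b) := one_mul _
            _ < 1 := hvy }
  have hπ𝔞 : π ∈ 𝔞 := ⟨0, by rw [zero_pow (Nat.succ_ne_zero m'), mul_zero]; exact Subring.zero_mem _,
    by rw [zero_sub, Valuation.map_neg]; exact hπv⟩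
  have htop : 𝔞 = ⊤ := by
    by_contra hne
    obtain ⟨n, hn, hle𝔞⟩ := Ideal.exists_le_maximal 𝔞 hne
    obtain ⟨y, b, hb, hy, hvy⟩ := hlocal n hn (hle𝔞 hπ𝔞)
    exact hb (hle𝔞 ⟨y, hy, hvy⟩)
  have h1 : (1 : B) ∈ 𝔞 := htop ▸ Submodule.mem_top
  obtain ⟨y, hy, hvy⟩ := h1
  exact ⟨y, hy, by rwa [map_one] at hvy⟩

end Global

end Fermat.Agent.S18.Core.StartSectionUFD
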