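import Mathlib
import Fermat.Agent.S18.Core.StartSectionUFD

/-!
# S18 leaf C2-M, `Place` form

Same as `StartSectionUFD.exists_start_section`, but the divisibility hypothesis is the global
statement: for every valuation subring `W ≠ ⊤` of `F` containing `B` and `π⁻¹` which is a
principal ideal ring, `v_W(f)` is an `m`-th power in the value group.  For this we show that the
valuation subring `S_(g)` of a prime element `g` of a UFD is a discrete valuation ring.
-/

set_option autoImplicit false

namespace Fermat.Agent.S18.Core.StartSectionPlace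

open Ideal Fermat.Agent.S18.Core.StartSectionUFD

section PrimeValDVR

variable {S F : Type*} [CommRing S] [IsDomain S] [UniqueFactorizationMonoid S] [Field F]
  [Algebra S F] [IsFractionRing S F]

theorem inv_algebraMap_mem_primeValSubring {g : S} (hg : Prime g) {s : S} (hs : ¬ g ∣ s) :
    (algebraMap S F s)⁻¹ ∈ (primeValSubring g hg : ValuationSubring F) := by
  have hs0 : s ≠ 0 := fun h => hs (h ▸ dvd_zero g)
  have hφs0 : algebraMap S F s ≠ 0 := fun h =>
    hs0 ((IsFractionRing.injective S F) (by rw [h, map_zero]))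
  exact ⟨1, s, hs, by rw [map_one]; field_simp⟩

theorem inv_algebraMap_self_not_mem {g : S} (hg : Prime g) :
    (algebraMap S F g)⁻¹ ∉ (primeValSubring g hg : ValuationSubring F) := by
  rintro ⟨a, c, hc, h⟩
  have hφg0 : algebraMap S F g ≠ 0 := fun h0 =>
    hg.ne_zero ((IsFractionRing.injective S F) (by rw [h0, map_zero]))
  have h1 : algebraMap S F c = algebraMap S F (g * a) := by
    rw [map_mul, ← h]; field_simp
  exact hc ⟨a, IsFractionRing.injective S F h1⟩

theorem primeValSubring_ne_top {g : S} (hg : Prime g) :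
    (primeValSubring g hg : ValuationSubring F) ≠ ⊤ := by
  intro h
  apply inv_algebraMap_self_not_mem (F := F) hg
  rw [h]
  exact ValuationSubring.mem_top _

/-- every nonzero element of `S_(g)` is `g ^ n` times a unit of `S_(g)`. -/
theorem exists_pow_mul_unit_of_mem {g : S} (hg : Prime g) {x : F} (hx0 : x ≠ 0)
    (hx : x ∈ (primeValSubring g hg : ValuationSubring F)) :
    ∃ (n : ℕ) (w : F), w ∈ (primeValSubring g hg : ValuationSubring F) ∧
      w⁻¹ ∈ (primeValSubring g hg : ValuationSubring F) ∧ w ≠ 0 ∧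
      x = algebraMap S F g ^ n * w := by
  have hinj : Function.Injective (algebraMap S F) := IsFractionRing.injective S F
  have hφg0 : algebraMap S F g ≠ 0 := fun h0 => hg.ne_zero (hinj (by rw [h0, map_zero]))
  obtain ⟨a, c, hc, hxc⟩ := hx
  obtain ⟨i, j, a', c', ha', hc', e⟩ := exists_prime_pow_decomp hg hx0
  have ha'0 : a' ≠ 0 := fun h => ha' (h ▸ dvd_zero g)
  have hc'0 : c' ≠ 0 := fun h => hc' (h ▸ dvd_zero g)
  have hφa'0 : algebraMap S F a' ≠ 0 := fun h0 => ha'0 (hinj (by rw [h0, map_zero]))
  have hφc'0 : algebraMap S F c' ≠ 0 := fun h0 => hc'0 (hinj (by rw [h0, map_zero]))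
  have hc0 : c ≠ 0 := fun h => hc (h ▸ dvd_zero g)
  have hφc0 : algebraMap S F c ≠ 0 := fun h0 => hc0 (hinj (by rw [h0, map_zero]))
  -- `a c' g^j = g^i a' c`
  have key : a * c' * g ^ j = g ^ i * (a' * c) := by
    apply hinj
    simp only [map_mul, map_pow]
    calc algebraMap S F a * algebraMap S F c' * algebraMap S F g ^ j
        = (x * algebraMap S F c' * algebraMap S F g ^ j) * algebraMap S F c := by
          rw [← hxc]; ring
      _ = _ := by rw [e]; ring
  have hji : j ≤ i := by
    by_contra hlt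
    rw [not_le] at hlt
    obtain ⟨d, rfl⟩ := Nat.exists_eq_add_of_lt hlt
    have h2 : g ^ i * (g ^ (d + 1) * (a * c')) = g ^ i * (a' * c) := by
      rw [← key, add_assoc, pow_add]; ring
    have h3 : g ^ (d + 1) * (a * c') = a' * c :=
      mul_left_cancel₀ (pow_ne_zero i hg.ne_zero) h2
    have : g ∣ a' * c := by
      rw [← h3]
      exact Dvd.dvd.mul_right (dvd_pow_self g (Nat.succ_ne_zero d)) _
    exact (hg.dvd_or_dvd this).elim ha' hc
  obtain ⟨d, rfl⟩ := Nat.exists_eq_add_of_le hji
  refine ⟨d, algebraMap S F a' / algebraMap S F c', ⟨a', c', hc', by field_simp⟩,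
    ⟨c', a', ha', by field_simp⟩, div_ne_zero hφa'0 hφc'0, ?_⟩
  have e2 : x * algebraMap S F c' * algebraMap S F g ^ j =
      (algebraMap S F g ^ d * algebraMap S F a') * algebraMap S F g ^ j := by
    rw [e, pow_add]; ring
  have e3 : x * algebraMap S F c' = algebraMap S F g ^ d * algebraMap S F a' :=
    mul_right_cancel₀ (pow_ne_zero j hφg0) e2
  field_simp
  rw [e3]

/-- `S_(g)` is a discrete valuation ring. -/
theorem isDiscreteValuationRing_primeValSubring {g : S} (hg : Prime g) :
    IsDiscreteValuationRing (primeValSubring g hg : ValuationSubring F) := by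
  set O : ValuationSubring F := primeValSubring g hg with hO
  have hinj : Function.Injective (algebraMap S F) := IsFractionRing.injective S F
  have hφg0 : algebraMap S F g ≠ 0 := fun h0 => hg.ne_zero (hinj (by rw [h0, map_zero]))
  let p : O := ⟨algebraMap S F g, algebraMap_mem_primeValSubring hg g⟩
  have hp0 : p ≠ 0 := fun h => hφg0 (congrArg Subtype.val h)
  have hpu : ¬ IsUnit p := by
    intro hu
    obtain ⟨q, hq⟩ := hu.exists_right_inv
    have h1 : algebraMap S F g * (q : F) = 1 := congrArg Subtype.val hq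
    have h2 : (q : F) = (algebraMap S F g)⁻¹ := eq_inv_of_mul_eq_one_right h1
    exact inv_algebraMap_self_not_mem (F := F) hg (h2 ▸ q.2)
  have hfac : ∀ x : O, x ≠ 0 → ∃ n : ℕ, Associated (p ^ n) x := by
    intro x hx0
    have hx0' : (x : F) ≠ 0 := fun h => hx0 (Subtype.ext h)
    obtain ⟨n, w, hw, hw', hw0, hxw⟩ := exists_pow_mul_unit_of_mem hg hx0' x.2
    refine ⟨n, ⟨⟨⟨w, hw⟩, ⟨w⁻¹, hw'⟩, Subtype.ext (mul_inv_cancel₀ hw0),
      Subtype.ext (inv_mul_cancel₀ hw0)⟩, ?_⟩⟩
    apply Subtype.ext
    simp only [MulMemClass.coe_mul, SubmonoidClass.coe_pow]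
    exact hxw.symm
  apply IsDiscreteValuationRing.ofHasUnitMulPowIrreducibleFactorization
  refine ⟨p, ⟨hpu, ?_⟩, fun {x} hx => hfac x hx⟩
  intro x y hxy
  by_contra hcon
  rw [not_or] at hcon
  have hx0 : x ≠ 0 := by rintro rfl; rw [zero_mul] at hxy; exact hp0 hxy
  have hy0 : y ≠ 0 := by rintro rfl; rw [mul_zero] at hxy; exact hp0 hxy
  obtain ⟨n1, u1, h1⟩ := hfac x hx0
  obtain ⟨n2, u2, h2⟩ := hfac y hy0
  have hn1 : n1 ≠ 0 := by
    rintro rfl
    rw [pow_zero, one_mul] at h1
    exact hcon.1 (h1 ▸ u1.isUnit)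
  have hn2 : n2 ≠ 0 := by
    rintro rfl
    rw [pow_zero, one_mul] at h2
    exact hcon.2 (h2 ▸ u2.isUnit)
  obtain ⟨k1, rfl⟩ := Nat.exists_eq_succ_of_ne_zero hn1
  obtain ⟨k2, rfl⟩ := Nat.exists_eq_succ_of_ne_zero hn2
  have h3 : p * 1 = p * (p ^ (k1 + k2 + 1) * (u1 * u2)) := by
    rw [mul_one]
    nth_rewrite 1 [hxy]
    rw [← h1, ← h2]
    simp only [Nat.succ_eq_add_one, pow_succ]
    ring
  have h4 : (1 : O) = p ^ (k1 + k2 + 1) * (u1 * u2) := mul_left_cancel₀ hp0 h3
  apply hpu
  refine IsUnit.of_mul_eq_one (p ^ (k1 + k2) * (u1 * u2)) ?_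
  rw [h4, pow_succ]; ring

theorem isPrincipalIdealRing_primeValSubring {g : S} (hg : Prime g) :
    IsPrincipalIdealRing (primeValSubring g hg : ValuationSubring F) := by
  have := isDiscreteValuationRing_primeValSubring (F := F) hg
  infer_instance

end PrimeValDVR

section Global

variable {B F : Type*} [CommRing B] [IsDomain B] [IsNoetherianRing B] [Field F] [Algebra B F]
  [IsFractionRing B F]

/-- **C2-M, the start section, with the divisibility hypothesis in `Place` form.** -/
theorem exists_start_section_place (Ov : ValuationSubring F) (hB : ∀ b : B, algebraMap B F b ∈ Ov)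
    {π : B} (hπ0 : π ≠ 0) (hπv : Ov.valuation (algebraMap B F π) < 1)
    (sat : ∀ b : B, Ov.valuation (algebraMap B F b) < 1 → π ∣ b)
    {m : ℕ} (hm : 0 < m)
    (root : ∀ z : F, z ^ m ∈ (algebraMap B F).range → z ∈ (algebraMap B F).range)
    {f : F} (hf : Ov.valuation (f - 1) < 1)
    (hdiv : ∀ W : ValuationSubring F, (∀ b : B, algebraMap B F b ∈ W) →
      (algebraMap B F π)⁻¹ ∈ W → W ≠ ⊤ → IsPrincipalIdealRing W →
      ∃ u : F, W.valuation (f * u ^ m) = 1)
    (hloc : ∀ n : Ideal B, n.IsMaximal → π ∈ n →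
      (∃ a h : B, a ∉ n ∧ h ∉ n ∧ f * algebraMap B F h = algebraMap B F a) ∨
      (∃ T : B, T ∈ n ∧ ∀ x ∈ n, ∃ s : B, s ∉ n ∧ s * x ∈ Ideal.span {π, T})) :
    ∃ y : F, f * y ^ m ∈ (algebraMap B F).range ∧ Ov.valuation (y - 1) < 1 := by
  set v := Ov.valuation with hv
  set φ := algebraMap B F with hφ
  have hinj : Function.Injective φ := IsFractionRing.injective B F
  have hle : ∀ b : B, v (φ b) ≤ 1 := fun b => (Ov.valuation_le_one_iff _).mpr (hB b)
  obtain ⟨m', rfl⟩ : ∃ m', m = m' + 1 := ⟨m - 1, by omega⟩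
  -- local data
  have hlocal : ∀ n : Ideal B, n.IsMaximal → π ∈ n →
      ∃ (y : F) (b : B), b ∉ n ∧ f * y ^ (m' + 1) ∈ φ.range ∧ v (y - φ b) < 1 := by
    intro n hn hπn
    have hvn : ∀ b : B, b ∉ n → v (φ b) = 1 := fun b hb =>
      le_antisymm (hle b) (not_lt.mp fun h => hb (n.mem_of_dvd (sat b h) hπn))
    rcases hloc n hn hπn with ⟨a, h, -, hh, hfa⟩ | ⟨T, hTn, hT⟩
    · refine ⟨φ h, h, hh, ⟨a * h ^ m', ?_⟩, by rw [sub_self, map_zero]; exact zero_lt_one⟩
      rw [map_mul, map_pow, pow_succ, ← hfa]; ring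
    · -- the localisation
      have := hn.isPrime
      have hcompl : n.primeCompl ≤ nonZeroDivisors B := Ideal.primeCompl_le_nonZeroDivisors n
      have hunits : ∀ y : n.primeCompl, IsUnit (φ y) := fun y =>
        IsUnit.mk0 _ fun h0 => (nonZeroDivisors.ne_zero (hcompl y.2)) (hinj (by rw [h0, map_zero]))
      let algSF : Algebra (Localization.AtPrime n) F :=
        (IsLocalization.lift (M := n.primeCompl) (S := Localization.AtPrime n) hunits).toAlgebra
      have : IsScalarTower B (Localization.AtPrime n) F :=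
        IsScalarTower.of_algebraMap_eq fun b => (IsLocalization.lift_eq hunits b).symm
      have : IsDomain (Localization.AtPrime n) :=
        IsLocalization.isDomain_localization hcompl
      have : IsNoetherianRing (Localization.AtPrime n) :=
        IsLocalization.isNoetherianRing n.primeCompl _ inferInstance
      have : IsFractionRing (Localization.AtPrime n) F :=
        IsFractionRing.isFractionRing_of_isDomain_of_isLocalization n.primeCompl _ F
      set ι := algebraMap B (Localization.AtPrime n) with hι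
      set ψ := algebraMap (Localization.AtPrime n) F with hψ
      have hψι : ∀ b : B, ψ (ι b) = φ b := fun b =>
        (IsScalarTower.algebraMap_apply B (Localization.AtPrime n) F b).symm
      have hιinj : Function.Injective ι := IsLocalization.injective _ hcompl
      have hsurj : ∀ s : Localization.AtPrime n, ∃ (b h : B), h ∉ n ∧ s * ι h = ι b := by
        intro s
        obtain ⟨⟨b, h⟩, e⟩ := IsLocalization.surj n.primeCompl s
        exact ⟨b, h, h.2, e⟩
      have hιunit : ∀ h : B, h ∉ n → IsUnit (ι h) := fun h hh =>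
        IsLocalization.map_units (Localization.AtPrime n) (⟨h, hh⟩ : n.primeCompl)
      -- valuation of elements of the localisation
      have hvS : ∀ s : Localization.AtPrime n, ∀ b h : B, h ∉ n → s * ι h = ι b →
          v (ψ s) = v (φ b) := by
        intro s b h hh e
        have : ψ s * φ h = φ b := by rw [← hψι, ← hψι, ← map_mul, e]
        rw [← this, map_mul, hvn h hh, mul_one]
      have hS : ∀ s : Localization.AtPrime n, ψ s ∈ Ov := by
        intro s
        obtain ⟨b, h, hh, e⟩ := hsurj s
        rw [← Ov.valuation_le_one_iff, ← hv, hvS s b h hh e]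
        exact hle b
      have hπS0 : ι π ≠ 0 := fun h => hπ0 (hιinj (by rw [h, map_zero]))
      have hπSmax : ι π ∈ IsLocalRing.maximalIdeal (Localization.AtPrime n) :=
        (IsLocalization.AtPrime.to_map_mem_maximal_iff _ n π).mpr hπn
      have hπJ : ι π ∈ Ideal.jacobson (⊥ : Ideal (Localization.AtPrime n)) := by
        rw [IsLocalRing.jacobson_eq_maximalIdeal ⊥ bot_ne_top]
        exact hπSmax
      have hπvS : v (ψ (ι π)) < 1 := by rw [hψι]; exact hπv
      have satS : ∀ s : Localization.AtPrime n, v (ψ s) < 1 → ι π ∣ s := by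
        intro s hs
        obtain ⟨b, h, hh, e⟩ := hsurj s
        rw [hvS s b h hh e] at hs
        obtain ⟨b', rfl⟩ := sat b hs
        obtain ⟨w, hw⟩ := (hιunit h hh).exists_right_inv
        refine ⟨ι b' * w, ?_⟩
        calc s = s * (ι h * w) := by rw [hw, mul_one]
          _ = (s * ι h) * w := by ring
          _ = ι π * (ι b' * w) := by rw [e, map_mul]; ring
      -- `ι π` is prime
      have hπSprime : Prime (ι π) := by
        refine ⟨hπS0, fun hu => ?_, fun x y hxy => ?_⟩
        · exact (IsLocalRing.mem_maximalIdeal _).mp hπSmax hu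
        · have hlt : v (ψ (x * y)) < 1 := by
            obtain ⟨w, hw⟩ := hxy
            rw [hw, map_mul, map_mul]
            calc v (ψ (ι π)) * v (ψ w) ≤ v (ψ (ι π)) * 1 := by
                  gcongr; exact (Ov.valuation_le_one_iff _).mpr (hS w)
              _ = v (ψ (ι π)) := mul_one _
              _ < 1 := hπvS
          rw [map_mul, map_mul] at hlt
          by_contra hcon
          rw [not_or] at hcon
          have hx1 : v (ψ x) = 1 := le_antisymm ((Ov.valuation_le_one_iff _).mpr (hS x))
            (not_lt.mp fun h => hcon.1 (satS x h))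
          have hy1 : v (ψ y) = 1 := le_antisymm ((Ov.valuation_le_one_iff _).mpr (hS y))
            (not_lt.mp fun h => hcon.2 (satS y h))
          rw [hx1, hy1, mul_one] at hlt
          exact lt_irrefl _ hlt
      have hDdom : IsDomain (Localization.AtPrime n ⧸ Ideal.span {ι π}) := by
        rw [Ideal.Quotient.isDomain_iff_prime, Ideal.span_singleton_prime hπS0]
        exact hπSprime
      -- the maximal ideal of the localisation is `(π, T)`
      have hmaxS : ∀ x : Localization.AtPrime n, x ∈ IsLocalRing.maximalIdeal _ →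
          x ∈ Ideal.span {ι π, ι T} := by
        intro x hx
        obtain ⟨b, h, hh, e⟩ := hsurj x
        have hbn : b ∈ n := by
          rw [← IsLocalization.AtPrime.to_map_mem_maximal_iff (Localization.AtPrime n) n b, ← e]
          exact Ideal.mul_mem_right _ _ hx
        obtain ⟨s, hs, hsb⟩ := hT b hbn
        obtain ⟨w, hw⟩ := (hιunit (s * h) (fun hmem => (hn.isPrime.mem_or_mem hmem).elim hs hh)
          ).exists_right_inv
        have hxeq : x = ι (s * b) * w := by
          calc x = x * (ι (s * h) * w) := by rw [hw, mul_one]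
            _ = ι s * (x * ι h) * w := by rw [map_mul]; ring
            _ = ι (s * b) * w := by rw [e, map_mul]
        rw [hxeq]
        refine Ideal.mul_mem_right _ _ ?_
        have : Ideal.map ι (Ideal.span {π, T}) = Ideal.span {ι π, ι T} := by
          rw [Ideal.map_span]; congr 1; simp [Set.image_pair]
        rw [← this]
        exact Ideal.mem_map_of_mem ι hsb
      -- the quotient is a principal ideal ring
      have : IsLocalRing (Localization.AtPrime n ⧸ Ideal.span {ι π}) :=
        IsLocalRing.of_surjective' (Ideal.Quotient.mk _) Ideal.Quotient.mk_surjective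
      have hDpid : IsPrincipalIdealRing (Localization.AtPrime n ⧸ Ideal.span {ι π}) := by
        refine ((tfae_of_isNoetherianRing_of_isLocalRing_of_isDomain
          (Localization.AtPrime n ⧸ Ideal.span {ι π})).out 0 4).mpr ?_
        refine ⟨Ideal.Quotient.mk _ (ι T), le_antisymm ?_ ?_⟩
        · intro xbar hxbar
          obtain ⟨x, rfl⟩ := Ideal.Quotient.mk_surjective xbar
          have hx : x ∈ IsLocalRing.maximalIdeal (Localization.AtPrime n) := by
            rw [IsLocalRing.mem_maximalIdeal, mem_nonunits_iff] at hxbar ⊢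
            exact fun hu => hxbar (hu.map _)
          obtain ⟨α, β, hαβ⟩ := Ideal.mem_span_pair.mp (hmaxS x hx)
          rw [← hαβ, map_add, map_mul, map_mul]
          have : Ideal.Quotient.mk (Ideal.span {ι π}) (ι π) = 0 :=
            Ideal.Quotient.eq_zero_iff_mem.mpr (Ideal.mem_span_singleton_self _)
          rw [this, mul_zero, zero_add]
          exact Ideal.mul_mem_left _ _ (Ideal.mem_span_singleton_self _)
        · rw [Ideal.submodule_span_eq, Ideal.span_le, Set.singleton_subset_iff]
          have hTmax : ι T ∈ IsLocalRing.maximalIdeal (Localization.AtPrime n) :=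
            (IsLocalization.AtPrime.to_map_mem_maximal_iff _ n T).mpr hTn
          show _ ∈ IsLocalRing.maximalIdeal _
          rw [IsLocalRing.mem_maximalIdeal, mem_nonunits_iff]
          intro hu
          exact (IsLocalRing.mem_maximalIdeal _).mp hTmax (isUnit_of_isUnit_mk hπJ hu)
      have hufd : UniqueFactorizationMonoid (Localization.AtPrime n) :=
        ufd_of_quotient_pid hπS0 hπJ
      -- the divisibility hypothesis
      have hdivS : ∀ g : Localization.AtPrime n, Prime g → ¬ Associated g (ι π) →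
          DivAt (m' + 1) f g := by
        intro g hg hass
        apply divAt_of_valuation hg
        have hgπ : ¬ g ∣ ι π := by
          rintro ⟨w, hw⟩
          rcases hπSprime.irreducible.isUnit_or_isUnit hw with hu | hu
          · exact hg.not_isUnit hu
          · exact hass ⟨hu.unit, by rw [hw]; rfl⟩
        apply hdiv (primeValSubring g hg)
        · intro b
          rw [← hψι]
          exact algebraMap_mem_primeValSubring hg _
        · rw [← hψι]
          exact inv_algebraMap_mem_primeValSubring hg hgπ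
        · exact primeValSubring_ne_top hg
        · exact isPrincipalIdealRing_primeValSubring hg
      obtain ⟨y0, u, ε, hu, hε, hfy0, hy0ε⟩ :=
        exists_local_section Ov hS hπS0 hπJ hπvS satS (Nat.succ_pos m') hf hdivS
      obtain ⟨u1, s1, hs1, eu⟩ := hsurj u
      obtain ⟨e1, s2, hs2, eε⟩ := hsurj ε
      have he1 : e1 ∉ n := by
        intro hmem
        have h1 : ι e1 ∈ IsLocalRing.maximalIdeal (Localization.AtPrime n) :=
          (IsLocalization.AtPrime.to_map_mem_maximal_iff _ n e1).mpr hmem
        rw [← eε] at h1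
        exact (IsLocalRing.mem_maximalIdeal _).mp h1 (hε.mul (hιunit s2 hs2))
      refine ⟨φ s1 * φ s2 * y0, s1 * e1,
        fun hmem => (hn.isPrime.mem_or_mem hmem).elim hs1 he1, ⟨s1 ^ m' * s2 ^ (m' + 1) * u1, ?_⟩, ?_⟩
      · have h1 : ψ u * φ s1 = φ u1 := by rw [← hψι, ← hψι, ← map_mul, eu]
        calc φ (s1 ^ m' * s2 ^ (m' + 1) * u1)
            = φ s1 ^ m' * φ s2 ^ (m' + 1) * (ψ u * φ s1) := by
              rw [h1]; simp only [map_mul, map_pow]
          _ = (f * y0 ^ (m' + 1)) * (φ s1 ^ (m' + 1) * φ s2 ^ (m' + 1)) := by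
              rw [hfy0, pow_succ (φ s1) m']; ring
          _ = f * (φ s1 * φ s2 * y0) ^ (m' + 1) := by ring
      · have h2 : ψ ε * φ s2 = φ e1 := by rw [← hψι, ← hψι, ← map_mul, eε]
        have h3 : φ s1 * φ s2 * y0 - φ (s1 * e1) = φ s1 * φ s2 * (y0 - ψ ε) := by
          rw [map_mul, ← h2]; ring
        rw [h3, map_mul, map_mul, hvn s1 hs1, hvn s2 hs2, one_mul, one_mul]
        exact hy0ε
  -- the partition of unity ideal
  let 𝔞 : Ideal B :=
    { carrier := {b | ∃ y : F, f * y ^ (m' + 1) ∈ φ.range ∧ v (y - φ b) < 1}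
      add_mem' := by
        rintro b₁ b₂ ⟨y₁, h₁, hv₁⟩ ⟨y₂, h₂, hv₂⟩
        refine ⟨y₁ + y₂, StartSectionUFD.mul_add_pow_mem root h₁ h₂, ?_⟩
        have : y₁ + y₂ - φ (b₁ + b₂) = (y₁ - φ b₁) + (y₂ - φ b₂) := by rw [map_add]; ring
        rw [this]
        exact v.map_add_lt hv₁ hv₂
      zero_mem' := ⟨0, by rw [zero_pow (Nat.succ_ne_zero m'), mul_zero]; exact Subring.zero_mem _,
        by rw [map_zero, sub_self, map_zero]; exact zero_lt_one⟩
      smul_mem' := by
        rintro c b ⟨y, h, hvy⟩
        refine ⟨φ c * y, ?_, ?_⟩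
        · have : f * (φ c * y) ^ (m' + 1) = φ c ^ (m' + 1) * (f * y ^ (m' + 1)) := by ring
          rw [this]
          exact Subring.mul_mem _ (Subring.pow_mem _ (RingHom.mem_range_self φ c) _) h
        · have : φ c * y - φ (c • b) = φ c * (y - φ b) := by rw [smul_eq_mul, map_mul]; ring
          rw [this, map_mul]
          calc v (φ c) * v (y - φ b) ≤ 1 * v (y - φ b) := by gcongr; exact hle c
            _ = v (y - φ b) := one_mul _
            _ < 1 := hvy }
  have hπ𝔞 : π ∈ 𝔞 := ⟨0, by rw [zero_pow (Nat.succ_ne_zero m'), mul_zero]; exact Subring.zero_mem _,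
    by rw [zero_sub, Valuation.map_neg]; exact hπv⟩
  have htop : 𝔞 = ⊤ := by
    by_contra hne
    obtain ⟨n, hn, hle𝔞⟩ := Ideal.exists_le_maximal 𝔞 hne
    obtain ⟨y, b, hb, hy, hvy⟩ := hlocal n hn (hle𝔞 hπ𝔞)
    exact hb (hle𝔞 ⟨y, hy, hvy⟩)
  have h1 : (1 : B) ∈ 𝔞 := htop ▸ Submodule.mem_top
  obtain ⟨y, hy, hvy⟩ := h1
  exact ⟨y, hy, by rwa [map_one] at hvy⟩

end Global

end Fermat.Agent.S18.Core.StartSectionPlace
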