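import Mathlib
import Fermat.Agent.S18.Core.CechVal
import Fermat.Agent.S18.Core.SecTorsion
import Fermat.Agent.S18.Core.StartSectionPlace

/-!
# S18 leaf C3 (abstract half): assembly of the Čech core

`F` a field, `R ≤ B0, B1 ≤ B01` subrings (the two `t`-charts `B0 ∋ t⁻¹`, `B1 ∋ t` and their
overlap), `O` a valuation subring of `F` (the Gauss valuation) with uniformiser `π ∈ R`.

* `exists_start_subring` : `StartSectionPlace.exists_start_section_place` for a subring `B` of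
  `F`, all hypotheses in subring language.
* `exists_const` : the assembly `SecTorsion.htor_of_finite` + two start sections +
  `CechVal.exists_const_of_starts` : if `v(f - 1) < 1`, the value of `f` is an `m`-th power at
  every discrete valuation subring of `F` containing `R` and `π⁻¹`, and at every closed point
  `n ∋ π` of the two charts either `f` is a unit or `n` is locally generated by `π` and one more
  element, then `f * y ^ m = c` for some `y ≠ 0` and a nonzero constant `c ∈ R`.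
* `exists_eq_mul_pow` : the same in the shape `f = c * w ^ m`.
-/

set_option autoImplicit false

namespace Fermat.Agent.S18.Core.StarAbstract

open Fermat.Agent.S18.Core.CechM

variable {F : Type*} [Field F]

/-- The local condition on a chart `B` at the closed points containing `π`: either `f` is a unit
of `B_n`, or `n B_n = (π, T)`. -/
def LocalOK (B : Subring F) (π : B) (f : F) : Prop :=
  ∀ n : Ideal B, n.IsMaximal → π ∈ n →
    (∃ a h : B, a ∉ n ∧ h ∉ n ∧ f * (h : F) = (a : F)) ∨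
    (∃ T : B, T ∈ n ∧ ∀ x ∈ n, ∃ s : B, s ∉ n ∧ s * x ∈ Ideal.span {π, T})

theorem range_algebraMap_subring (B : Subring F) : (algebraMap B F).range = B := by
  ext x
  constructor
  · rintro ⟨b, rfl⟩
    exact b.2
  · intro hx
    exact ⟨⟨x, hx⟩, rfl⟩

/-- `StartSectionPlace.exists_start_section_place` for a subring of `F`. -/
theorem exists_start_subring (B : Subring F) [IsNoetherianRing B] [IsFractionRing B F]
    (O : ValuationSubring F) (hBO : ∀ x ∈ B, x ∈ O)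
    {π : F} (hπB : π ∈ B) (hπ0 : π ≠ 0) (hπv : O.valuation π < 1)
    (hgen : ∀ x : F, O.valuation x < 1 → ∃ y ∈ O, x = π * y)
    (hsat : ∀ x ∈ O, π * x ∈ B → x ∈ B)
    {m : ℕ} (hm : 0 < m) (hroot : RootClosed B m)
    {f : F} (hf : O.valuation (f - 1) < 1)
    (hdiv : ∀ W : ValuationSubring F, (∀ b ∈ B, b ∈ W) → π⁻¹ ∈ W → W ≠ ⊤ →
      IsPrincipalIdealRing W → ∃ u : F, W.valuation (f * u ^ m) = 1)
    (hloc : LocalOK B ⟨π, hπB⟩ f) :
    ∃ y : F, f * y ^ m ∈ B ∧ O.valuation (y - 1) < 1 := by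
  have hrange := range_algebraMap_subring B
  have key := StartSectionPlace.exists_start_section_place (B := B) (F := F) O
    (fun b => hBO _ b.2) (π := ⟨π, hπB⟩)
    (fun h => hπ0 (congrArg Subtype.val h)) hπv
    (fun b hb => by
      obtain ⟨y, hyO, hy⟩ := hgen (b : F) hb
      have hyB : y ∈ B := hsat y hyO (hy ▸ b.2)
      exact ⟨⟨y, hyB⟩, Subtype.ext hy⟩)
    hm
    (fun z hz => by
      rw [hrange] at hz ⊢
      exact hroot z hz)
    hf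
    (fun W hW hπW hne hpid => hdiv W (fun b hb => hW ⟨b, hb⟩) hπW hne hpid)
    hloc
  obtain ⟨y, hy, hyv⟩ := key
  rw [hrange] at hy
  exact ⟨y, hy, hyv⟩

/-- every element of `F` has a nonzero denominator in `B`, when `F = Frac B`. -/
theorem exists_denominator (B : Subring F) [IsFractionRing B F] (x : F) :
    ∃ h ∈ B, h ≠ 0 ∧ x * h ∈ B := by
  obtain ⟨a, s, hs⟩ := IsLocalization.exists_mk'_eq (nonZeroDivisors B) x
  refine ⟨(s : B), (s : B).2, ?_, ?_⟩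
  · intro h0
    exact nonZeroDivisors.ne_zero s.2 (Subtype.ext h0)
  · have h1 : x * algebraMap B F (s : B) = algebraMap B F a := by
      rw [← hs]
      exact IsLocalization.mk'_spec F a s
    have h2 : x * ((s : B) : F) = (a : F) := h1
    rw [h2]
    exact a.2

/-- **C3, abstract form.** -/
theorem exists_const (R B0 B1 B01 : Subring F) (O : ValuationSubring F)
    [IsNoetherianRing R] [IsNoetherianRing B0] [IsNoetherianRing B1]
    [IsFractionRing B0 F] [IsFractionRing B1 F]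
    {π t f : F} {m : ℕ}
    (hR0 : R ≤ B0) (hR1 : R ≤ B1) (h0 : B0 ≤ B01) (h1 : B1 ≤ B01) (h01O : ∀ x ∈ B01, x ∈ O)
    (hπR : π ∈ R) (hπ0 : π ≠ 0) (hπv : O.valuation π < 1)
    (hgen : ∀ x : F, O.valuation x < 1 → ∃ y ∈ O, x = π * y)
    (hunit : ∀ α ∈ R, O.valuation α = 1 → α⁻¹ ∈ R)
    (hmR : (m : F)⁻¹ ∈ R) (hm0 : (m : F) ≠ 0)
    (hsat0 : ∀ x ∈ O, π * x ∈ B0 → x ∈ B0) (hsat1 : ∀ x ∈ O, π * x ∈ B1 → x ∈ B1)
    (hsat01 : ∀ x ∈ O, π * x ∈ B01 → x ∈ B01)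
    (hroot0 : RootClosed B0 m) (hroot1 : RootClosed B1 m) (hroot01 : RootClosed B01 m)
    (hconn : ∀ x0 ∈ B0, ∀ x1 ∈ B1, O.valuation (x0 - x1) < 1 →
      ∃ r ∈ R, O.valuation (x0 - r) < 1)
    (hcap : ∀ x ∈ B0, x ∈ B1 → x ∈ R)
    (ht0 : t ≠ 0) (htB1 : t ∈ B1) (htB0 : t⁻¹ ∈ B0)
    (T0 : Finset F)
    (hfin0 : ∀ x ∈ B0, x ∈ Submodule.span (Algebra.adjoin R {t⁻¹}) (T0 : Set F))
    (hpow0 : ∀ x ∈ B01, ∃ n : ℕ, t⁻¹ ^ n * x ∈ B0)
    (hpow1 : ∀ x ∈ B01, ∃ n : ℕ, t ^ n * x ∈ B1)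
    (hf : O.valuation (f - 1) < 1)
    (hdiv : ∀ W : ValuationSubring F, (∀ r ∈ R, r ∈ W) → π⁻¹ ∈ W → W ≠ ⊤ →
      IsPrincipalIdealRing W → ∃ u : F, W.valuation (f * u ^ m) = 1)
    (hloc0 : LocalOK B0 ⟨π, hR0 hπR⟩ f) (hloc1 : LocalOK B1 ⟨π, hR1 hπR⟩ f) :
    ∃ y : F, y ≠ 0 ∧ ∃ c ∈ R, c ≠ 0 ∧ f * y ^ m = c := by
  have hm : m ≠ 0 := by
    rintro rfl
    exact hm0 (by simp)
  have hf0 : f ≠ 0 := by
    rintro rfl
    rw [zero_sub, Valuation.map_neg, Valuation.map_one] at hf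
    exact lt_irrefl _ hf
  have htor := SecTorsion.htor_of_finite R B0 B1 B01 hR0 hR1 h0 h1 t ht0 htB1 htB0 π hπR f hf0
    m hm hroot0 hroot1 hroot01 T0 hfin0 (exists_denominator B0) hpow0 hpow1
  obtain ⟨y0, hy0, hy0v⟩ := exists_start_subring B0 O (fun x hx => h01O x (h0 hx)) (hR0 hπR)
    hπ0 hπv hgen hsat0 (Nat.pos_of_ne_zero hm) hroot0 hf
    (fun W hW hπW hne hpid => hdiv W (fun r hr => hW r (hR0 hr)) hπW hne hpid) hloc0
  obtain ⟨y1, hy1, hy1v⟩ := exists_start_subring B1 O (fun x hx => h01O x (h1 hx)) (hR1 hπR)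
    hπ0 hπv hgen hsat1 (Nat.pos_of_ne_zero hm) hroot1 hf
    (fun W hW hπW hne hpid => hdiv W (fun r hr => hW r (hR1 hr)) hπW hne hpid) hloc1
  exact CechVal.exists_const_of_starts R B0 B1 B01 O π m f hR0 hR1 h0 h1 h01O hπR hπ0 hπv hgen
    hunit hmR hm0 hsat0 hsat1 hsat01 hroot0 hroot1 hroot01 hconn hcap htor hf y0 y1 hy0 hy1
    hy0v hy1v

/-- **C3, abstract form**, in the shape `f = c * w ^ m`. -/
theorem exists_eq_mul_pow (R B0 B1 B01 : Subring F) (O : ValuationSubring F)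
    [IsNoetherianRing R] [IsNoetherianRing B0] [IsNoetherianRing B1]
    [IsFractionRing B0 F] [IsFractionRing B1 F]
    {π t f : F} {m : ℕ}
    (hR0 : R ≤ B0) (hR1 : R ≤ B1) (h0 : B0 ≤ B01) (h1 : B1 ≤ B01) (h01O : ∀ x ∈ B01, x ∈ O)
    (hπR : π ∈ R) (hπ0 : π ≠ 0) (hπv : O.valuation π < 1)
    (hgen : ∀ x : F, O.valuation x < 1 → ∃ y ∈ O, x = π * y)
    (hunit : ∀ α ∈ R, O.valuation α = 1 → α⁻¹ ∈ R)
    (hmR : (m : F)⁻¹ ∈ R) (hm0 : (m : F) ≠ 0)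
    (hsat0 : ∀ x ∈ O, π * x ∈ B0 → x ∈ B0) (hsat1 : ∀ x ∈ O, π * x ∈ B1 → x ∈ B1)
    (hsat01 : ∀ x ∈ O, π * x ∈ B01 → x ∈ B01)
    (hroot0 : RootClosed B0 m) (hroot1 : RootClosed B1 m) (hroot01 : RootClosed B01 m)
    (hconn : ∀ x0 ∈ B0, ∀ x1 ∈ B1, O.valuation (x0 - x1) < 1 →
      ∃ r ∈ R, O.valuation (x0 - r) < 1)
    (hcap : ∀ x ∈ B0, x ∈ B1 → x ∈ R)
    (ht0 : t ≠ 0) (htB1 : t ∈ B1) (htB0 : t⁻¹ ∈ B0)
    (T0 : Finset F)
    (hfin0 : ∀ x ∈ B0, x ∈ Submodule.span (Algebra.adjoin R {t⁻¹}) (T0 : Set F))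
    (hpow0 : ∀ x ∈ B01, ∃ n : ℕ, t⁻¹ ^ n * x ∈ B0)
    (hpow1 : ∀ x ∈ B01, ∃ n : ℕ, t ^ n * x ∈ B1)
    (hf : O.valuation (f - 1) < 1)
    (hdiv : ∀ W : ValuationSubring F, (∀ r ∈ R, r ∈ W) → π⁻¹ ∈ W → W ≠ ⊤ →
      IsPrincipalIdealRing W → ∃ u : F, W.valuation (f * u ^ m) = 1)
    (hloc0 : LocalOK B0 ⟨π, hR0 hπR⟩ f) (hloc1 : LocalOK B1 ⟨π, hR1 hπR⟩ f) :
    ∃ c ∈ R, c ≠ 0 ∧ ∃ w : F, w ≠ 0 ∧ f = c * w ^ m := by
  obtain ⟨y, hy0, c, hcR, hc0, hc⟩ := exists_const R B0 B1 B01 O hR0 hR1 h0 h1 h01O hπR hπ0 hπv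
    hgen hunit hmR hm0 hsat0 hsat1 hsat01 hroot0 hroot1 hroot01 hconn hcap ht0 htB1 htB0 T0
    hfin0 hpow0 hpow1 hf hdiv hloc0 hloc1
  refine ⟨c, hcR, hc0, y⁻¹, inv_ne_zero hy0, ?_⟩
  rw [← hc, inv_pow, mul_assoc, mul_inv_cancel₀ (pow_ne_zero m hy0), mul_one]

end Fermat.Agent.S18.Core.StarAbstract
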