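import Fermat.Agent.S18.Core.Charts

/-!
# S18, block C1 / CU6 (chart half): change of coordinate `τ ↦ τ + a`, `τ ↦ u τ`

On top of `Core/Charts.lean`: the standing hypotheses `GoodCoord π O τ`, the polynomial rings
`R[τ]`, `L[τ]`, the field `L(τ)` and hence the charts are unchanged when the coordinate `τ` is
replaced by `τ + a` (`a ∈ R`) or by `u τ` (`u` a unit of `R`).  So the coordinate vanishing at a
cusp value (`t`, `t⁻¹`, `t + 16`, `t - ρ`, …) is again a good coordinate with the same charts.
-/

open Polynomial IntermediateField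

namespace Fermat.Agent.S18.Core.ChartsShift

open Fermat.Agent.S18.Core.Charts

set_option linter.unusedSectionVars false

section Adjoin

variable {S F : Type*} [CommRing S] [Field F] [Algebra S F]

/-- `S[τ + a] = S[τ]`. -/
theorem adjoin_add (τ : F) (a : S) :
    Algebra.adjoin S {τ + algebraMap S F a} = Algebra.adjoin S {τ} := by
  apply le_antisymm
  · refine Algebra.adjoin_le ?_
    intro y hy
    rw [Set.mem_singleton_iff.mp hy]
    exact add_mem (Algebra.self_mem_adjoin_singleton S τ) (Subalgebra.algebraMap_mem _ a)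
  · refine Algebra.adjoin_le ?_
    intro y hy
    rw [Set.mem_singleton_iff.mp hy]
    have h1 : τ + algebraMap S F a ∈ Algebra.adjoin S {τ + algebraMap S F a} :=
      Algebra.self_mem_adjoin_singleton S _
    have h2 := sub_mem h1 (Subalgebra.algebraMap_mem (Algebra.adjoin S {τ + algebraMap S F a}) a)
    rwa [add_sub_cancel_right] at h2

/-- `S[u τ] = S[τ]` for a unit `u` of `S`. -/
theorem adjoin_mul (τ : F) (u : Sˣ) :
    Algebra.adjoin S {algebraMap S F u * τ} = Algebra.adjoin S {τ} := by
  apply le_antisymm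
  · refine Algebra.adjoin_le ?_
    intro y hy
    rw [Set.mem_singleton_iff.mp hy]
    exact mul_mem (Subalgebra.algebraMap_mem _ _) (Algebra.self_mem_adjoin_singleton S τ)
  · refine Algebra.adjoin_le ?_
    intro y hy
    rw [Set.mem_singleton_iff.mp hy]
    have h1 : algebraMap S F u * τ ∈ Algebra.adjoin S {algebraMap S F u * τ} :=
      Algebra.self_mem_adjoin_singleton S _
    have h2 := mul_mem (Subalgebra.algebraMap_mem
      (Algebra.adjoin S {algebraMap S F u * τ}) (↑u⁻¹ : S)) h1
    rwa [← mul_assoc, ← map_mul, Units.inv_mul, map_one, one_mul] at h2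

theorem B0_add (τ : F) (a : S) : B0 S (τ + algebraMap S F a) = B0 S τ := by
  ext x
  rw [mem_B0, mem_B0]
  constructor
  · exact isIntegral_of_le fun y hy => by rwa [adjoin_add] at hy
  · exact isIntegral_of_le fun y hy => by rwa [adjoin_add]

theorem B0_mul (τ : F) (u : Sˣ) : B0 S (algebraMap S F u * τ) = B0 S τ := by
  ext x
  rw [mem_B0, mem_B0]
  constructor
  · exact isIntegral_of_le fun y hy => by rwa [adjoin_mul] at hy
  · exact isIntegral_of_le fun y hy => by rwa [adjoin_mul]

end Adjoin

section Field

variable {L F : Type*} [Field L] [Field F] [Algebra L F]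

/-- `L(τ + a) = L(τ)`. -/
theorem adjoin_simple_add (τ : F) (a : L) : L⟮τ + algebraMap L F a⟯ = L⟮τ⟯ := by
  apply le_antisymm
  · rw [adjoin_simple_le_iff]
    exact add_mem (mem_adjoin_simple_self L τ) (IntermediateField.algebraMap_mem _ a)
  · rw [adjoin_simple_le_iff]
    have h1 := mem_adjoin_simple_self L (τ + algebraMap L F a)
    have h2 := sub_mem h1 (IntermediateField.algebraMap_mem L⟮τ + algebraMap L F a⟯ a)
    rwa [add_sub_cancel_right] at h2

/-- `L(u τ) = L(τ)` for `u ≠ 0`. -/
theorem adjoin_simple_mul (τ : F) {u : L} (hu : u ≠ 0) : L⟮algebraMap L F u * τ⟯ = L⟮τ⟯ := by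
  apply le_antisymm
  · rw [adjoin_simple_le_iff]
    exact mul_mem (IntermediateField.algebraMap_mem _ u) (mem_adjoin_simple_self L τ)
  · rw [adjoin_simple_le_iff]
    have h1 := mem_adjoin_simple_self L (algebraMap L F u * τ)
    have h2 := mul_mem (IntermediateField.algebraMap_mem L⟮algebraMap L F u * τ⟯ u⁻¹) h1
    rwa [← mul_assoc, ← map_mul, inv_mul_cancel₀ hu, map_one, one_mul] at h2

end Field

section Good

variable {R L F : Type*} [CommRing R] [IsDomain R] [IsDiscreteValuationRing R]
  [Field L] [Field F] [Algebra R L] [IsFractionRing R L] [Algebra L F] [Algebra R F]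
  [IsScalarTower R L F] {π : R} {O : ValuationSubring F} {τ : F}

/-- a polynomial in `τ` over `R` with a coefficient prime to `π` is a unit of `O` -/
theorem valuation_aeval_eq_one (h : GoodCoord π O τ) (p : R[X]) (hp : ∃ i, ¬ π ∣ p.coeff i) :
    O.valuation (aeval τ p) = 1 := by
  have hmem : aeval τ p ∈ O := by
    have : aeval τ p ∈ Algebra.adjoin R {τ} := by
      rw [Algebra.adjoin_singleton_eq_range_aeval]
      exact ⟨p, rfl⟩
    exact adjoin_le h (by rintro y rfl; exact h.tau_mem) _ this
  refine le_antisymm ((ValuationSubring.valuation_le_one_iff _ _).mpr hmem) ?_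
  by_contra hlt
  obtain ⟨i, hi⟩ := hp
  exact hi (h.transc p (not_le.mp hlt) i)

/-- `τ + a` is again a good coordinate (`a ∈ R`). -/
theorem goodCoord_add (h : GoodCoord π O τ) (a : R) : GoodCoord π O (τ + algebraMap R F a) where
  irreducible := h.irreducible
  algebraMap_mem := h.algebraMap_mem
  pi_lt := h.pi_lt
  exists_eq_mul := h.exists_eq_mul
  tau_unit := by
    have e : τ + algebraMap R F a = aeval τ (X + C a : R[X]) := by simp
    rw [e]
    refine valuation_aeval_eq_one h _ ⟨1, ?_⟩
    have : (X + C a : R[X]).coeff 1 = 1 := by simp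
    rw [this]
    exact fun hdvd => h.irreducible.not_isUnit (isUnit_of_dvd_one hdvd)
  transc := by
    intro p hp i
    have e : aeval (τ + algebraMap R F a) p = aeval τ (p.comp (X + C a)) := by
      rw [aeval_comp]; simp
    rw [e] at hp
    have hall := h.transc _ hp
    have hdvd : C π ∣ p.comp (X + C a) := (C_dvd_iff_dvd_coeff _ _).mpr hall
    obtain ⟨q, hq⟩ := hdvd
    have hp' : p = C π * q.comp (X - C a) := by
      have := congrArg (fun r => r.comp (X - C a)) hq
      simp only [comp_assoc, add_comp, X_comp, C_comp, sub_add_cancel, comp_X, mul_comp] at this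
      exact this
    rw [hp', coeff_C_mul]
    exact dvd_mul_right _ _

/-- `u τ` is again a good coordinate (`u` a unit of `R`). -/
theorem goodCoord_mul (h : GoodCoord π O τ) (u : Rˣ) : GoodCoord π O (algebraMap R F u * τ) where
  irreducible := h.irreducible
  algebraMap_mem := h.algebraMap_mem
  pi_lt := h.pi_lt
  exists_eq_mul := h.exists_eq_mul
  tau_unit := by
    have e : algebraMap R F u * τ = aeval τ (C (u : R) * X : R[X]) := by simp
    rw [e]
    refine valuation_aeval_eq_one h _ ⟨1, ?_⟩
    have : (C (u : R) * X : R[X]).coeff 1 = u := by simp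
    rw [this]
    exact fun hdvd => h.irreducible.not_isUnit (isUnit_of_dvd_unit hdvd u.isUnit)
  transc := by
    intro p hp i
    have e : aeval (algebraMap R F u * τ) p = aeval τ (p.comp (C (u : R) * X)) := by
      rw [aeval_comp]; simp
    rw [e] at hp
    have hall := h.transc _ hp i
    rw [comp_C_mul_X_coeff] at hall
    have hu : IsUnit ((u : R) ^ i) := (u.isUnit).pow i
    exact (hu.dvd_mul_right).mp hall

/-- `L(τ + a) = L(τ)` for `a ∈ R` (the form needed next to `goodCoord_add`). -/
theorem adjoin_simple_add' (τ : F) (a : R) : L⟮τ + algebraMap R F a⟯ = L⟮τ⟯ := by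
  rw [IsScalarTower.algebraMap_apply R L F]
  exact adjoin_simple_add τ _

/-- `L(u τ) = L(τ)` for a unit `u` of `R` (the form needed next to `goodCoord_mul`). -/
theorem adjoin_simple_mul' (τ : F) (u : Rˣ) : L⟮algebraMap R F u * τ⟯ = L⟮τ⟯ := by
  rw [IsScalarTower.algebraMap_apply R L F]
  refine adjoin_simple_mul τ ?_
  rw [Ne, map_eq_zero_iff _ (IsFractionRing.injective R L)]
  exact u.ne_zero

/-- the coordinate `(τ + a)⁻¹` (vanishing where `τ = -a`) is a good coordinate -/
theorem goodCoord_add_inv (h : GoodCoord π O τ) (a : R) :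
    GoodCoord π O (τ + algebraMap R F a)⁻¹ := (goodCoord_add h a).inv

/-- `L((τ + a)⁻¹) = L(τ)` -/
theorem adjoin_simple_add_inv (τ : F) (a : R) : L⟮(τ + algebraMap R F a)⁻¹⟯ = L⟮τ⟯ :=
  (adjoin_simple_inv _).trans (adjoin_simple_add' τ a)

end Good

end Fermat.Agent.S18.Core.ChartsShift
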