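/-
S18 block C, leaf C2-M (helper7): the start section of the Cech core from local data.
Mathlib + Core/SemilocalPrincipal + Purity/GlueGauss (both Mathlib only).
-/
import Mathlib
import Fermat.Agent.S18.Core.SemilocalPrincipal
import Fermat.Agent.S18.Purity.GlueGauss

namespace Fermat.Agent.S18.Core.StartSection

open Ideal

section Basic

variable {S F : Type*} [CommRing S] [Field F] [Algebra S F]

/-- `M_X = {y | f * y ^ m ∈ X}` is closed under addition when `X` is `m`-root-closed. -/
theorem mul_add_pow_mem {m : ℕ}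
    (hroot : ∀ z : F, z ^ m ∈ (algebraMap S F).range → z ∈ (algebraMap S F).range)
    {f y1 y2 : F} (h1 : f * y1 ^ m ∈ (algebraMap S F).range)
    (h2 : f * y2 ^ m ∈ (algebraMap S F).range) :
    f * (y1 + y2) ^ m ∈ (algebraMap S F).range := by
  rw [add_pow, Finset.mul_sum]
  refine Subring.sum_mem _ fun k hk => ?_
  have hk' : k ≤ m := Nat.lt_succ_iff.mp (Finset.mem_range.mp hk)
  have hz : f * (y1 ^ k * y2 ^ (m - k)) ∈ (algebraMap S F).range := by
    apply hroot
    have e : (f * (y1 ^ k * y2 ^ (m - k))) ^ m = (f * y1 ^ m) ^ k * (f * y2 ^ m) ^ (m - k) := by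
      have hf : f ^ m = f ^ k * f ^ (m - k) := by rw [← pow_add, Nat.add_sub_cancel' hk']
      rw [mul_pow, mul_pow, mul_pow, mul_pow, ← pow_mul, ← pow_mul, ← pow_mul, ← pow_mul, hf,
        mul_comm k m, mul_comm (m - k) m]
      ring
    rw [e]
    exact mul_mem (pow_mem h1 _) (pow_mem h2 _)
  rw [← mul_assoc]
  exact mul_mem hz (natCast_mem _ _)

/-- The chart data: `S ⊆ O ⊆ F`, `π ∈ S` with `S ∩ m_O = π S`, fractions, `m`-root-closedness. -/
structure Chart (S F : Type*) [CommRing S] [Field F] [Algebra S F] (O : ValuationSubring F)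
    (π : S) (m : ℕ) : Prop where
  mem : ∀ b : S, algebraMap S F b ∈ O
  pi_lt : O.valuation (algebraMap S F π) < 1
  sat : ∀ b : S, O.valuation (algebraMap S F b) < 1 → π ∣ b
  frac : ∀ x ∈ O, ∃ b h : S, O.valuation (algebraMap S F h) = 1 ∧
    x * algebraMap S F h = algebraMap S F b
  root : ∀ z : F, z ^ m ∈ (algebraMap S F).range → z ∈ (algebraMap S F).range

variable {O : ValuationSubring F} {π : S} {m : ℕ}

lemma Chart.val_le (hC : Chart S F O π m) (b : S) : O.valuation (algebraMap S F b) ≤ 1 :=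
  (O.valuation_le_one_iff _).mpr (hC.mem b)

/-- `π ∤ b` iff `v(b) = 1`. -/
lemma Chart.val_eq_one (hC : Chart S F O π m) {b : S} (hb : ¬ π ∣ b) :
    O.valuation (algebraMap S F b) = 1 :=
  le_antisymm (hC.val_le b) (not_lt.mp fun h => hb (hC.sat b h))

lemma Chart.val_lt_of_dvd (hC : Chart S F O π m) {b : S} (hb : π ∣ b) :
    O.valuation (algebraMap S F b) < 1 := by
  obtain ⟨c, rfl⟩ := hb
  rw [map_mul, map_mul]
  exact mul_lt_one_of_lt_of_le hC.pi_lt (hC.val_le c)

/-- saturation: `z ∈ O`, `π^k z ∈ S` imply `z ∈ S`. -/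
lemma Chart.sat_pow [IsDomain S] [FaithfulSMul S F] (hC : Chart S F O π m) (hπ0 : π ≠ 0) (k : ℕ)
    {z : F} (hz : z ∈ O) (h : algebraMap S F π ^ k * z ∈ (algebraMap S F).range) :
    z ∈ (algebraMap S F).range := by
  induction k with
  | zero => simpa using h
  | succ k ih =>
    apply ih
    obtain ⟨c, hc⟩ := h
    have hπF : algebraMap S F π ≠ 0 := by
      simpa using (FaithfulSMul.algebraMap_injective S F).ne hπ0
    have hv : O.valuation (algebraMap S F c) < 1 := by
      rw [hc, pow_succ, mul_assoc, map_mul, map_mul, map_pow, mul_comm, mul_assoc]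
      refine mul_lt_one_of_lt_of_le hC.pi_lt ?_
      refine mul_le_one' ((O.valuation_le_one_iff _).mpr hz) (pow_le_one' (hC.val_le π) k)
    obtain ⟨c', rfl⟩ := hC.sat c hv
    refine ⟨c', ?_⟩
    have : algebraMap S F π * algebraMap S F c' = algebraMap S F π * (algebraMap S F π ^ k * z) := by
      rw [← map_mul, hc, pow_succ]
      ring
    exact mul_left_cancel₀ hπF this

end Basic

section Local

variable {S F : Type*} [CommRing S] [IsDomain S] [IsNoetherianRing S]
  [Field F] [Algebra S F] [IsFractionRing S F]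
  {O : ValuationSubring F} {π : S} {m : ℕ}

/-- **Step 1.** `J = {y | f y^m ∈ S}` is a free `S`-module of rank one:
`J = y₀ S` with `v(y₀) = 0`. -/
theorem exists_generator_J (hm : 0 < m) (hC : Chart S F O π m) (hπ0 : π ≠ 0)
    (hπj : π ∈ Ideal.jacobson (⊥ : Ideal S)) [IsPrincipalIdealRing (S ⧸ Ideal.span {π})]
    {f : F} (hf : O.valuation f = 1) :
    ∃ (g0 a : S), ¬ π ∣ g0 ∧ ¬ π ∣ a ∧
      f * (algebraMap S F g0 / algebraMap S F a) ^ m ∈ (algebraMap S F).range ∧
      ∀ y : F, f * y ^ m ∈ (algebraMap S F).range →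
        ∃ c : S, y = algebraMap S F g0 / algebraMap S F a * algebraMap S F c := by
  have hinj : Function.Injective (algebraMap S F) := IsFractionRing.injective S F
  have hfO : f ∈ O := (O.valuation_le_one_iff f).mp hf.le
  obtain ⟨a, h, hh, hfa⟩ := hC.frac f hfO
  have hva : O.valuation (algebraMap S F a) = 1 := by
    rw [← hfa, map_mul, hf, hh, one_mul]
  have ha0 : a ≠ 0 := fun h0 => by simp [h0] at hva
  have haF : algebraMap S F a ≠ 0 := by simpa using hinj.ne ha0
  have hh0 : h ≠ 0 := fun h0 => by simp [h0] at hh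
  have hπa : ¬ π ∣ a := fun hd => (hC.val_lt_of_dvd hd).ne hva
  -- the ideal `I = a J`
  let I : Ideal S :=
    { carrier := {x | f * (algebraMap S F x / algebraMap S F a) ^ m ∈ (algebraMap S F).range}
      add_mem' := by
        intro x y hx hy
        simp only [Set.mem_ofPred_eq, map_add, add_div] at hx hy ⊢
        exact mul_add_pow_mem hC.root hx hy
      zero_mem' := by
        simp only [Set.mem_ofPred_eq, map_zero, zero_div, zero_pow hm.ne', mul_zero]
        exact zero_mem _
      smul_mem' := by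
        intro c x hx
        simp only [Set.mem_ofPred_eq, smul_eq_mul, map_mul] at hx ⊢
        have : f * (algebraMap S F c * algebraMap S F x / algebraMap S F a) ^ m
            = algebraMap S F (c ^ m) * (f * (algebraMap S F x / algebraMap S F a) ^ m) := by
          rw [map_pow, mul_div_assoc, mul_pow]
          ring
        rw [this]
        exact mul_mem ⟨_, rfl⟩ hx }
  have hImem : ∀ x : S, x ∈ I ↔
      f * (algebraMap S F x / algebraMap S F a) ^ m ∈ (algebraMap S F).range := fun x => Iff.rfl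
  have hreg : ∀ y : S, π * y ∈ I → y ∈ I := by
    intro y hy
    rw [hImem] at hy ⊢
    have hzO : f * (algebraMap S F y / algebraMap S F a) ^ m ∈ O := by
      rw [← O.valuation_le_one_iff, map_mul, map_pow, map_div₀, hf, hva, div_one, one_mul]
      exact pow_le_one' (hC.val_le y) m
    apply hC.sat_pow hπ0 m hzO
    have : algebraMap S F π ^ m * (f * (algebraMap S F y / algebraMap S F a) ^ m)
        = f * (algebraMap S F (π * y) / algebraMap S F a) ^ m := by
      rw [map_mul, mul_div_assoc, mul_pow]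
      ring
    rw [this]
    exact hy
  obtain ⟨g0, hg0I, hIg0, hg0π⟩ :=
    SemilocalPrincipal.exists_generator_of_regular hπj (IsNoetherian.noetherian I) hreg
  have hahI : a * h ∈ I := by
    rw [hImem, map_mul, mul_div_cancel_left₀ _ haF]
    refine ⟨a * h ^ (m - 1), ?_⟩
    obtain ⟨m', rfl⟩ := Nat.exists_eq_succ_of_ne_zero hm.ne'
    rw [map_mul, map_pow, ← hfa, Nat.succ_sub_one, pow_succ]
    ring
  have hIbot : I ≠ ⊥ := fun hb => by
    have : a * h = 0 := by simpa [hb] using hahI
    exact mul_ne_zero ha0 hh0 this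
  have hπg0 : ¬ π ∣ g0 := fun hd => hg0π hIbot (Ideal.mem_span_singleton.mpr hd)
  refine ⟨g0, a, hπg0, hπa, (hImem g0).mp hg0I, ?_⟩
  intro y hy
  -- `a y ∈ S`
  have hay : algebraMap S F a * y ∈ (algebraMap S F).range := by
    apply hC.root
    obtain ⟨m', rfl⟩ := Nat.exists_eq_succ_of_ne_zero hm.ne'
    have : (algebraMap S F a * y) ^ (m' + 1)
        = algebraMap S F (a ^ m' * h) * (f * y ^ (m' + 1)) := by
      rw [map_mul, map_pow, mul_pow, pow_succ (algebraMap S F a), ← hfa]
      ring
    rw [this]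
    exact mul_mem ⟨_, rfl⟩ hy
  obtain ⟨x, hx⟩ := hay
  have hxI : x ∈ I := by
    rw [hImem, hx, mul_div_cancel_left₀ _ haF]
    exact hy
  rw [hIg0, Ideal.mem_span_singleton] at hxI
  obtain ⟨c, rfl⟩ := hxI
  refine ⟨c, ?_⟩
  rw [map_mul] at hx
  field_simp
  rw [hx]
  ring

/-- The discrete valuation subring `S_(g)` of `F = Frac S` attached to a prime element `g` of the
noetherian domain `S`. -/
theorem exists_valuationSubring_of_prime {g : S} (hg : Prime g) :
    ∃ W : ValuationSubring F, (∀ b : S, algebraMap S F b ∈ W) ∧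
      (∀ s : S, ¬ g ∣ s → (algebraMap S F s)⁻¹ ∈ W) ∧ (algebraMap S F g)⁻¹ ∉ W ∧
      IsPrincipalIdealRing W ∧
      (∀ x ∈ W, ∃ a s : S, ¬ g ∣ s ∧ x * algebraMap S F s = algebraMap S F a) := by
  have hinj : Function.Injective (algebraMap S F) := IsFractionRing.injective S F
  have hprime : (Ideal.span {g}).IsPrime := (Ideal.span_singleton_prime hg.ne_zero).mpr hg
  let M : Submonoid S := (Ideal.span {g}).primeCompl
  have hM : ∀ s : S, s ∈ M ↔ ¬ g ∣ s := fun s => by
    simp only [M, Ideal.mem_primeCompl_iff, Ideal.mem_span_singleton]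
  let Sg := Localization.AtPrime (Ideal.span {g})
  have hunits : ∀ y : M, IsUnit (algebraMap S F y) := fun y =>
    (by simpa using hinj.ne (fun h : (y : S) = 0 => (hM y).mp y.2 (by rw [h]; exact dvd_zero g)) :
      algebraMap S F y ≠ 0).isUnit
  let algSgF : Algebra Sg F := (IsLocalization.lift (M := M) hunits).toAlgebra
  have htower : IsScalarTower S Sg F :=
    IsScalarTower.of_algebraMap_eq fun a => (IsLocalization.lift_eq hunits a).symm
  have hfrac : IsFractionRing Sg F :=
    IsFractionRing.isFractionRing_of_isDomain_of_isLocalization M Sg F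
  have hinjg : Function.Injective (algebraMap Sg F) := IsFractionRing.injective Sg F
  -- `Sg` is a DVR-or-field: its maximal ideal is principal
  have hmax : (IsLocalRing.maximalIdeal Sg).IsPrincipal := by
    rw [← IsLocalization.AtPrime.map_eq_maximalIdeal (Ideal.span {g}) Sg, Ideal.map_span,
      Set.image_singleton]
    exact ⟨⟨_, rfl⟩⟩
  have hPID : IsPrincipalIdealRing Sg :=
    ((tfae_of_isNoetherianRing_of_isLocalRing_of_isDomain (R := Sg)).out 4 0).mp hmax
  have hVR : ValuationRing Sg := inferInstance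
  let W : ValuationSubring F :=
    { toSubring := (algebraMap Sg F).range
      mem_or_inv_mem' := fun x => by
        rcases ValuationRing.isInteger_or_isInteger Sg x with ⟨r, hr⟩ | ⟨r, hr⟩
        · exact Or.inl ⟨r, hr⟩
        · exact Or.inr ⟨r, hr⟩ }
  have hWmem : ∀ x : F, x ∈ W ↔ ∃ r : Sg, algebraMap Sg F r = x := fun x => Iff.rfl
  refine ⟨W, ?_, ?_, ?_, ?_, ?_⟩
  · intro b
    exact (hWmem _).mpr ⟨algebraMap S Sg b, (IsScalarTower.algebraMap_apply S Sg F b).symm⟩
  · intro s hs
    have hsM : s ∈ M := (hM s).mpr hs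
    have hu : IsUnit (algebraMap S Sg s) := IsLocalization.map_units Sg ⟨s, hsM⟩
    obtain ⟨r, hr⟩ := hu.exists_right_inv
    refine (hWmem _).mpr ⟨r, ?_⟩
    apply eq_inv_of_mul_eq_one_right
    rw [IsScalarTower.algebraMap_apply S Sg F, ← map_mul, hr, map_one]
  · intro hmem
    obtain ⟨r, hr⟩ := (hWmem _).mp hmem
    have h1 : algebraMap S Sg g * r = 1 := by
      apply hinjg
      rw [map_mul, hr, ← IsScalarTower.algebraMap_apply S Sg F, map_one]
      exact mul_inv_cancel₀ (by simpa using hinj.ne hg.ne_zero)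
    have hu : IsUnit (algebraMap S Sg g) := IsUnit.of_mul_eq_one _ h1
    have := (IsLocalization.AtPrime.isUnit_to_map_iff Sg (Ideal.span {g}) g).mp hu
    exact this (Ideal.mem_span_singleton_self g)
  · let φ : Sg →+* W := (algebraMap Sg F).codRestrict W (fun r => (hWmem _).mpr ⟨r, rfl⟩)
    have hφ : Function.Surjective φ := by
      rintro ⟨x, hx⟩
      obtain ⟨r, hr⟩ := (hWmem x).mp hx
      exact ⟨r, Subtype.ext hr⟩
    exact IsPrincipalIdealRing.of_surjective φ hφ
  · intro x hx
    obtain ⟨r, rfl⟩ := (hWmem x).mp hx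
    obtain ⟨a, s, rfl⟩ := IsLocalization.exists_mk'_eq M r
    refine ⟨a, s, (hM s).mp s.2, ?_⟩
    rw [IsScalarTower.algebraMap_apply S Sg F (s : S), ← map_mul, IsLocalization.mk'_spec,
      ← IsScalarTower.algebraMap_apply S Sg F]

/-- `W.valuation x = 1` iff `x` and `x⁻¹` lie in `W`. -/
lemma valuation_eq_one_iff' (W : ValuationSubring F) {x : F} (hx : x ≠ 0) :
    W.valuation x = 1 ↔ x ∈ W ∧ x⁻¹ ∈ W := by
  rw [← W.valuation_le_one_iff, ← W.valuation_le_one_iff, map_inv₀]
  constructor
  · intro h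
    rw [h]
    simp
  · rintro ⟨h1, h2⟩
    refine le_antisymm h1 ?_
    have h0 : W.valuation x ≠ 0 := (Valuation.ne_zero_iff _).mpr hx
    exact (inv_le_one₀ (zero_lt_iff.mpr h0)).mp h2

/-- **Step 2.** If `J = y₀ S` and `u₀ = f y₀^m`, then `u₀` is a unit of the local ring `S`. -/
theorem isUnit_of_hdiv [IsLocalRing S] (hm : 0 < m) (hC : Chart S F O π m) (hπ0 : π ≠ 0)
    (hπm : π ∈ IsLocalRing.maximalIdeal S) [IsPrincipalIdealRing (S ⧸ Ideal.span {π})]
    {f : F} (hf : O.valuation f = 1)
    (hdiv : ∀ W : ValuationSubring F, (∀ b : S, algebraMap S F b ∈ W) →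
      (algebraMap S F π)⁻¹ ∈ W → W ≠ ⊤ → IsPrincipalIdealRing W →
      ∃ u : F, W.valuation (f * u ^ m) = 1)
    {y0 : F} {u0 : S} (hy0 : O.valuation y0 = 1) (hu0 : f * y0 ^ m = algebraMap S F u0)
    (hgen : ∀ y : F, f * y ^ m ∈ (algebraMap S F).range → ∃ c : S, y = y0 * algebraMap S F c) :
    IsUnit u0 := by
  have hinj : Function.Injective (algebraMap S F) := IsFractionRing.injective S F
  by_contra hnu
  have hy00 : y0 ≠ 0 := fun h => by simp [h] at hy0
  have hvu0 : O.valuation (algebraMap S F u0) = 1 := by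
    rw [← hu0, map_mul, map_pow, hf, hy0, one_pow, one_mul]
  have hu00 : u0 ≠ 0 := fun h => by simp [h] at hvu0
  have hπu0 : ¬ π ∣ u0 := fun hd => (hC.val_lt_of_dvd hd).ne hvu0
  -- `π` is a prime element
  have hπprime : Prime π := by
    refine ⟨hπ0, fun hu => ?_, fun a b hab => ?_⟩
    · exact (IsLocalRing.mem_maximalIdeal π).mp hπm hu
    · have h1 := hC.val_lt_of_dvd hab
      rw [map_mul, map_mul] at h1
      by_contra hcon
      rw [not_or] at hcon
      rw [hC.val_eq_one hcon.1, hC.val_eq_one hcon.2, one_mul] at h1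
      exact lt_irrefl _ h1
  -- a minimal prime over `(u0)`
  have hle : Ideal.span {u0} ≤ IsLocalRing.maximalIdeal S := by
    rw [Ideal.span_singleton_le_iff_mem]
    exact (IsLocalRing.mem_maximalIdeal u0).mpr hnu
  obtain ⟨p, hpmin, -⟩ := Ideal.exists_minimalPrimes_le hle
  have hpprime : p.IsPrime := hpmin.1.1
  have hu0p : u0 ∈ p := hpmin.1.2 (Ideal.mem_span_singleton_self u0)
  have hp0 : p ≠ ⊥ := fun h => hu00 (by simpa [h] using hu0p)
  have hht : p.height ≤ 1 :=
    Ideal.height_le_one_of_isPrincipal_of_mem_minimalPrimes (Ideal.span {u0}) p hpmin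
  have hht1 : p.height = 1 := by
    refine le_antisymm hht ?_
    rw [Order.one_le_iff_pos, pos_iff_ne_zero, Ne, Ideal.height_eq_zero_iff_eq_bot]
    exact hp0
  have hπp : π ∉ p := fun hπp => by
    have := Ideal.eq_span_singleton_of_height_eq_one hht1 hπp hπprime
    rw [this, Ideal.mem_span_singleton] at hu0p
    exact hπu0 hu0p
  have hπj : π ∈ Ideal.jacobson (⊥ : Ideal S) := by
    rw [IsLocalRing.jacobson_eq_maximalIdeal ⊥ bot_ne_top]
    exact hπm
  obtain ⟨g, hgprime, hpg, hπg⟩ := SemilocalPrincipal.exists_prime_generator hπj p hp0 hπp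
  obtain ⟨W, hW1, hW2, hW3, hW4, hW5⟩ := exists_valuationSubring_of_prime (F := F) hgprime
  have hWtop : W ≠ ⊤ := fun h => hW3 (by rw [h]; trivial)
  have hgπ : ¬ g ∣ π := fun hd => hπp (by rw [hpg]; exact Ideal.mem_span_singleton.mpr hd)
  obtain ⟨u, hu⟩ := hdiv W hW1 (hW2 π hgπ) hWtop hW4
  have hu0' : u ≠ 0 := fun h => by simp [h, hm.ne'] at hu
  -- `g ∣ u0`
  rw [hpg, Ideal.mem_span_singleton] at hu0p
  have hgF : algebraMap S F g ≠ 0 := by simpa using hinj.ne hgprime.ne_zero
  have hvg : W.valuation (algebraMap S F g) < 1 := by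
    refine lt_of_le_of_ne ((W.valuation_le_one_iff _).mpr (hW1 g)) fun h => ?_
    exact hW3 ((valuation_eq_one_iff' W hgF).mp h).2
  have hvu0W : W.valuation (algebraMap S F u0) < 1 := by
    obtain ⟨c0, rfl⟩ := hu0p
    rw [map_mul, map_mul]
    exact mul_lt_one_of_lt_of_le hvg ((W.valuation_le_one_iff _).mpr (hW1 c0))
  -- `z = y0 / u` has positive valuation
  set z := y0 / u with hz
  have hzm : algebraMap S F u0 = (f * u ^ m) * z ^ m := by
    rw [← hu0, hz, div_pow]
    field_simp
  have hvz : W.valuation z < 1 := by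
    by_contra hcon
    rw [not_lt] at hcon
    have : (1 : W.ValueGroup) ≤ W.valuation (algebraMap S F u0) := by
      rw [hzm, map_mul, hu, one_mul, map_pow]
      exact one_le_pow_of_one_le' hcon m
    exact absurd hvu0W (not_lt.mpr this)
  -- so `z = g w` with `w ∈ W`
  have hzW : z ∈ W := (W.valuation_le_one_iff z).mp hvz.le
  obtain ⟨a, s, hs, has⟩ := hW5 z hzW
  have hs0 : s ≠ 0 := fun h => hs (h ▸ dvd_zero g)
  have hsF : algebraMap S F s ≠ 0 := by simpa using hinj.ne hs0
  have hga : g ∣ a := by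
    by_contra hga
    have hz0 : z ≠ 0 := div_ne_zero hy00 hu0'
    have ha0 : a ≠ 0 := fun h => hga (h ▸ dvd_zero g)
    have haF : algebraMap S F a ≠ 0 := by simpa using hinj.ne ha0
    have : z⁻¹ = algebraMap S F s * (algebraMap S F a)⁻¹ := by
      rw [← has]
      field_simp
    have hzinv : z⁻¹ ∈ W := by
      rw [this]
      exact W.mul_mem _ _ (hW1 s) (hW2 a hga)
    have : W.valuation z = 1 := (valuation_eq_one_iff' W hz0).mpr ⟨hzW, hzinv⟩
    exact hvz.ne this
  obtain ⟨a', rfl⟩ := hga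
  set w := algebraMap S F a' / algebraMap S F s with hw
  have hwW : w ∈ W := by
    rw [hw, div_eq_mul_inv]
    exact W.mul_mem _ _ (hW1 a') (hW2 s hs)
  have hzw : z = algebraMap S F g * w := by
    rw [hw, eq_comm, mul_div_assoc', div_eq_iff hsF, has, map_mul]
  -- `u0 = g^m * r`, `r ∈ W`
  have hrW : (f * u ^ m) * w ^ m ∈ W :=
    W.mul_mem _ _ ((W.valuation_le_one_iff _).mp hu.le) (pow_mem hwW m)
  obtain ⟨a2, s2, hs2, has2⟩ := hW5 _ hrW
  have hdvd : g ^ m ∣ u0 * s2 := by
    refine ⟨a2, hinj ?_⟩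
    rw [map_mul, map_mul, map_pow, ← has2, hzm, hzw]
    ring
  have hdvd' : g ^ m ∣ u0 :=
    hgprime.pow_dvd_of_dvd_mul_right m hs2 hdvd
  obtain ⟨u1, hu1⟩ := hdvd'
  -- `y0 / g ∈ J`
  have hy1 : f * (y0 / algebraMap S F g) ^ m ∈ (algebraMap S F).range := by
    refine ⟨u1, ?_⟩
    rw [div_pow, mul_div_assoc', hu0, hu1, map_mul, map_pow]
    field_simp
  obtain ⟨c, hc⟩ := hgen _ hy1
  have : g * c = 1 := by
    apply hinj
    rw [map_mul, map_one]
    have h2 : y0 = y0 * (algebraMap S F g * algebraMap S F c) := by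
      rw [← mul_assoc, mul_comm y0, mul_assoc, ← hc]
      field_simp
    have h3 := mul_left_cancel₀ hy00 (h2.symm.trans (mul_one y0).symm)
    exact h3
  exact hgprime.not_isUnit (IsUnit.of_mul_eq_one _ this)

/-- **LOCAL LEMMA.** `S` a noetherian local domain, `π ∈ m_S`, `S/π` a PID, `S ⊆ O` with
`S ∩ m_O = π S`, fractions, `S` `m`-root-closed, `v(f - 1) > 0`, and `m ∣ ord_W f` for every
discrete valuation subring `W ⊇ S[1/π]`. Then there is `y₀` with `f y₀^m ∈ Sˣ`, and `y₀` is
congruent mod `m_O` to a unit `c` of `S`. -/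
theorem local_start [IsLocalRing S] (hm : 0 < m) (hC : Chart S F O π m) (hπ0 : π ≠ 0)
    (hπm : π ∈ IsLocalRing.maximalIdeal S) [IsPrincipalIdealRing (S ⧸ Ideal.span {π})]
    {f : F} (hf : O.valuation (f - 1) < 1)
    (hdiv : ∀ W : ValuationSubring F, (∀ b : S, algebraMap S F b ∈ W) →
      (algebraMap S F π)⁻¹ ∈ W → W ≠ ⊤ → IsPrincipalIdealRing W →
      ∃ u : F, W.valuation (f * u ^ m) = 1) :
    ∃ (y0 : F) (c u0 : S), IsUnit c ∧ IsUnit u0 ∧ f * y0 ^ m = algebraMap S F u0 ∧
      O.valuation (y0 - algebraMap S F c) < 1 := by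
  have hinj : Function.Injective (algebraMap S F) := IsFractionRing.injective S F
  have hf1 : O.valuation f = 1 := by
    have := Valuation.map_one_add_of_lt (v := O.valuation) hf
    rwa [add_sub_cancel] at this
  have hπj : π ∈ Ideal.jacobson (⊥ : Ideal S) := by
    rw [IsLocalRing.jacobson_eq_maximalIdeal ⊥ bot_ne_top]
    exact hπm
  obtain ⟨g0, a, hg0, ha, ⟨u0, hu0⟩, hgen⟩ := exists_generator_J hm hC hπ0 hπj hf1
  set y0 := algebraMap S F g0 / algebraMap S F a with hy0def
  have ha0 : a ≠ 0 := fun h => ha (h ▸ dvd_zero π)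
  have haF : algebraMap S F a ≠ 0 := by simpa using hinj.ne ha0
  have hy0 : O.valuation y0 = 1 := by
    rw [hy0def, map_div₀, hC.val_eq_one hg0, hC.val_eq_one ha, div_one]
  have hu0unit : IsUnit u0 := isUnit_of_hdiv hm hC hπ0 hπm hf1 hdiv hy0 hu0.symm hgen
  -- `π ∣ g0^m - u0 a^m`
  have hπdvd : π ∣ g0 ^ m - u0 * a ^ m := by
    apply hC.sat
    have : algebraMap S F (g0 ^ m - u0 * a ^ m)
        = algebraMap S F a ^ m * y0 ^ m * (1 - f) := by
      rw [map_sub, map_mul, map_pow, map_pow, hu0, hy0def, div_pow]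
      field_simp
    rw [this, map_mul, map_mul, map_pow, map_pow, hy0, hC.val_eq_one ha, one_pow,
      one_mul, one_mul, Valuation.map_sub_swap]
    exact hf
  -- `π` is prime, `T = S/π` is an integrally closed domain
  have hπprime : Prime π := by
    refine ⟨hπ0, fun hu => ?_, fun a b hab => ?_⟩
    · exact (IsLocalRing.mem_maximalIdeal π).mp hπm hu
    · have h1 := hC.val_lt_of_dvd hab
      rw [map_mul, map_mul] at h1
      by_contra hcon
      rw [not_or] at hcon
      rw [hC.val_eq_one hcon.1, hC.val_eq_one hcon.2, one_mul] at h1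
      exact lt_irrefl _ h1
  have hIprime : (Ideal.span {π}).IsPrime := (Ideal.span_singleton_prime hπ0).mpr hπprime
  have hdom : IsDomain (S ⧸ Ideal.span {π}) := Ideal.Quotient.isDomain _
  let mk := Ideal.Quotient.mk (Ideal.span {π})
  have hmk : mk g0 ^ m = mk u0 * mk a ^ m := by
    rw [← map_pow, ← map_pow, ← map_mul, ← sub_eq_zero, ← map_sub, Ideal.Quotient.eq_zero_iff_mem,
      Ideal.mem_span_singleton]
    exact hπdvd
  have hdvd : mk a ∣ mk g0 := by
    rw [← IsIntegrallyClosed.pow_dvd_pow_iff hm.ne', hmk]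
    exact Dvd.intro_left _ rfl
  obtain ⟨cbar, hcbar⟩ := hdvd
  obtain ⟨c, rfl⟩ := Ideal.Quotient.mk_surjective cbar
  have hπdvd2 : π ∣ g0 - a * c := by
    rw [← Ideal.mem_span_singleton, ← Ideal.Quotient.eq_zero_iff_mem, map_sub, map_mul, sub_eq_zero]
    exact hcbar
  obtain ⟨d, hd⟩ := hπdvd2
  refine ⟨y0, c, u0, ?_, hu0unit, hu0.symm, ?_⟩
  · -- `c` is a unit
    by_contra hcu
    have hcm : c ∈ IsLocalRing.maximalIdeal S := (IsLocalRing.mem_maximalIdeal c).mpr hcu
    have hmka : mk a ≠ 0 := by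
      rw [Ne, Ideal.Quotient.eq_zero_iff_mem, Ideal.mem_span_singleton]
      exact ha
    have h1 : mk c ^ m = mk u0 := by
      have : mk a ^ m * mk c ^ m = mk a ^ m * mk u0 := by
        rw [← mul_pow, ← hcbar, hmk, mul_comm]
      exact mul_left_cancel₀ (pow_ne_zero m hmka) this
    have h2 : c ^ m - u0 ∈ Ideal.span {π} := by
      rw [← Ideal.Quotient.eq_zero_iff_mem, map_sub, map_pow, sub_eq_zero]
      exact h1
    have h3 : c ^ m - u0 ∈ IsLocalRing.maximalIdeal S := by
      rw [Ideal.mem_span_singleton] at h2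
      obtain ⟨e, he⟩ := h2
      rw [he]
      exact Ideal.mul_mem_right _ _ hπm
    have h4 : u0 ∈ IsLocalRing.maximalIdeal S := by
      have := Ideal.sub_mem _ (Ideal.pow_mem_of_mem _ hcm m hm) h3
      simpa using this
    exact (IsLocalRing.mem_maximalIdeal u0).mp h4 hu0unit
  · have : y0 - algebraMap S F c = algebraMap S F π * (algebraMap S F d / algebraMap S F a) := by
      rw [hy0def, mul_div_assoc', ← map_mul, ← hd, map_sub, map_mul]
      field_simp
    rw [this, map_mul, map_div₀, hC.val_eq_one ha, div_one]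
    exact mul_lt_one_of_lt_of_le hC.pi_lt (hC.val_le d)

end Local

section Global

variable {B F : Type*} [CommRing B] [IsDomain B] [Field F] [Algebra B F] [IsFractionRing B F]
  {O : ValuationSubring F} {π : B} {m : ℕ}

omit [IsDomain B] [IsFractionRing B F] in
/-- image in `F` of a fraction of the localisation -/
lemma algebraMap_mk'_mul (n : Ideal B) [n.IsPrime] (S : Type*) [CommRing S] [Algebra B S]
    [IsLocalization.AtPrime S n] [Algebra S F] [IsScalarTower B S F] (a : B) (s : n.primeCompl) :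
    algebraMap S F (IsLocalization.mk' S a s) * algebraMap B F s = algebraMap B F a := by
  rw [IsScalarTower.algebraMap_apply B S F (s : B), ← map_mul, IsLocalization.mk'_spec,
    ← IsScalarTower.algebraMap_apply B S F]

omit [IsDomain B] in
/-- The chart data pass to the localisation at a prime containing `π`. -/
theorem Chart.localization (hm : 0 < m) (hC : Chart B F O π m) (n : Ideal B) [n.IsPrime]
    (hπn : π ∈ n) (S : Type*) [CommRing S] [Algebra B S] [IsLocalization.AtPrime S n]
    [Algebra S F] [IsScalarTower B S F] : Chart S F O (algebraMap B S π) m := by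
  have hinj : Function.Injective (algebraMap B F) := IsFractionRing.injective B F
  have hsv : ∀ s : n.primeCompl, O.valuation (algebraMap B F s) = 1 := fun s =>
    hC.val_eq_one fun ⟨c, hc⟩ => s.2 (by rw [hc]; exact Ideal.mul_mem_right _ _ hπn)
  have hs0 : ∀ s : n.primeCompl, algebraMap B F s ≠ 0 := fun s h => by
    have := hsv s
    rw [h, map_zero] at this
    exact zero_ne_one this
  have hval : ∀ (a : B) (s : n.primeCompl),
      O.valuation (algebraMap S F (IsLocalization.mk' S a s)) = O.valuation (algebraMap B F a) := by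
    intro a s
    rw [← algebraMap_mk'_mul n S a s, map_mul, hsv s, mul_one]
  refine ⟨?_, ?_, ?_, ?_, ?_⟩
  · intro r
    obtain ⟨a, s, rfl⟩ := IsLocalization.exists_mk'_eq n.primeCompl r
    rw [← O.valuation_le_one_iff, hval]
    exact hC.val_le a
  · rw [← IsScalarTower.algebraMap_apply B S F]
    exact hC.pi_lt
  · intro r hr
    obtain ⟨a, s, rfl⟩ := IsLocalization.exists_mk'_eq n.primeCompl r
    rw [hval] at hr
    obtain ⟨a', rfl⟩ := hC.sat a hr
    refine ⟨IsLocalization.mk' S a' s, ?_⟩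
    rw [IsLocalization.mul_mk'_eq_mk'_of_mul]
  · intro x hx
    obtain ⟨b, h, hh, hxb⟩ := hC.frac x hx
    refine ⟨algebraMap B S b, algebraMap B S h, ?_, ?_⟩
    · rw [← IsScalarTower.algebraMap_apply B S F]
      exact hh
    · rw [← IsScalarTower.algebraMap_apply B S F, ← IsScalarTower.algebraMap_apply B S F]
      exact hxb
  · rintro z ⟨r, hr⟩
    obtain ⟨a, s, rfl⟩ := IsLocalization.exists_mk'_eq n.primeCompl r
    have h1 : (algebraMap B F s * z) ^ m ∈ (algebraMap B F).range := by
      obtain ⟨m', rfl⟩ := Nat.exists_eq_succ_of_ne_zero hm.ne'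
      refine ⟨(s : B) ^ m' * a, ?_⟩
      rw [mul_pow, ← hr, map_mul, map_pow, ← algebraMap_mk'_mul n S a s, pow_succ]
      ring
    obtain ⟨b', hb'⟩ := hC.root _ h1
    refine ⟨IsLocalization.mk' S b' s, ?_⟩
    have := algebraMap_mk'_mul (F := F) n S b' s
    rw [hb'] at this
    have h2 := hs0 s
    rw [mul_comm (algebraMap B F s) z] at this
    exact mul_right_cancel₀ h2 this

/-- **C2-M (start section).** `B` a noetherian domain with chart data `B ⊆ O ⊆ F = Frac B`,
`v(f - 1) > 0`; at every maximal ideal `n ∋ π` with `f ∉ B_n` the ring `B_n / π` is a PID; and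
`m ∣ ord_W f` for every discrete valuation subring `W ⊇ B[1/π]` of `F`.
Then there is `y` with `f y^m ∈ B` and `v(y - 1) > 0`. -/
theorem exists_start_of_chart [IsNoetherianRing B] (hm : 0 < m) (hC : Chart B F O π m)
    (hπ0 : π ≠ 0) {f : F} (hf : O.valuation (f - 1) < 1)
    (hN : ∀ (n : Ideal B) [n.IsMaximal], π ∈ n →
      (¬ ∃ s : B, s ∉ n ∧ f * algebraMap B F s ∈ (algebraMap B F).range) →
      IsPrincipalIdealRing
        (Localization.AtPrime n ⧸ Ideal.span {algebraMap B (Localization.AtPrime n) π}))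
    (hdiv : ∀ W : ValuationSubring F, (∀ b : B, algebraMap B F b ∈ W) →
      (algebraMap B F π)⁻¹ ∈ W → W ≠ ⊤ → IsPrincipalIdealRing W →
      ∃ u : F, W.valuation (f * u ^ m) = 1) :
    ∃ y : F, f * y ^ m ∈ (algebraMap B F).range ∧ O.valuation (y - 1) < 1 := by
  have hinj : Function.Injective (algebraMap B F) := IsFractionRing.injective B F
  -- the ideal of `b ∈ B` approximated by sections
  let a : Ideal B :=
    { carrier := {b | ∃ y : F, f * y ^ m ∈ (algebraMap B F).range ∧
        O.valuation (y - algebraMap B F b) < 1}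
      add_mem' := by
        rintro b1 b2 ⟨y1, h1, h1'⟩ ⟨y2, h2, h2'⟩
        refine ⟨y1 + y2, mul_add_pow_mem hC.root h1 h2, ?_⟩
        have : y1 + y2 - algebraMap B F (b1 + b2)
            = (y1 - algebraMap B F b1) + (y2 - algebraMap B F b2) := by
          rw [map_add]
          ring
        rw [this]
        exact Valuation.map_add_lt _ h1' h2'
      zero_mem' := by
        refine ⟨0, ?_, ?_⟩
        · rw [zero_pow hm.ne', mul_zero]
          exact zero_mem _
        · simp
      smul_mem' := by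
        rintro c b ⟨y, h1, h1'⟩
        refine ⟨algebraMap B F c * y, ?_, ?_⟩
        · have : f * (algebraMap B F c * y) ^ m = algebraMap B F (c ^ m) * (f * y ^ m) := by
            rw [map_pow, mul_pow]
            ring
          rw [this]
          exact mul_mem ⟨_, rfl⟩ h1
        · have : algebraMap B F c * y - algebraMap B F (c • b)
              = algebraMap B F c * (y - algebraMap B F b) := by
            rw [smul_eq_mul, map_mul]
            ring
          rw [this, map_mul, mul_comm]
          exact mul_lt_one_of_lt_of_le h1' (hC.val_le c) }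
  have hamem : ∀ b : B, b ∈ a ↔ ∃ y : F, f * y ^ m ∈ (algebraMap B F).range ∧
      O.valuation (y - algebraMap B F b) < 1 := fun b => Iff.rfl
  suffices h : a = ⊤ by
    have h1 : (1 : B) ∈ a := by rw [h]; trivial
    obtain ⟨y, hy1, hy2⟩ := (hamem 1).mp h1
    rw [map_one] at hy2
    exact ⟨y, hy1, hy2⟩
  by_contra hatop
  obtain ⟨n, hnmax, han⟩ := Ideal.exists_le_maximal a hatop
  have hπa : π ∈ a := by
    refine (hamem π).mpr ⟨0, ?_, ?_⟩
    · rw [zero_pow hm.ne', mul_zero]
      exact zero_mem _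
    · rw [zero_sub, Valuation.map_neg]
      exact hC.pi_lt
  have hπn : π ∈ n := han hπa
  by_cases hcase : ∃ s : B, s ∉ n ∧ f * algebraMap B F s ∈ (algebraMap B F).range
  · -- `f ∈ B_n`
    obtain ⟨s, hsn, hfs⟩ := hcase
    apply hsn
    apply han
    refine (hamem s).mpr ⟨algebraMap B F s, ?_, by simp⟩
    obtain ⟨m', rfl⟩ := Nat.exists_eq_succ_of_ne_zero hm.ne'
    have : f * algebraMap B F s ^ (m' + 1)
        = (f * algebraMap B F s) * algebraMap B F (s ^ m') := by
      rw [map_pow, pow_succ]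
      ring
    rw [this]
    exact mul_mem hfs ⟨_, rfl⟩
  · -- the local lemma at `n`
    have hPID := hN n hπn hcase
    let S := Localization.AtPrime n
    have hunits : ∀ y : n.primeCompl, IsUnit (algebraMap B F y) := fun y =>
      (by simpa using hinj.ne (fun h : (y : B) = 0 => y.2 (by rw [h]; exact n.zero_mem)) :
        algebraMap B F y ≠ 0).isUnit
    let algSF : Algebra S F := (IsLocalization.lift (M := n.primeCompl) hunits).toAlgebra
    have htower : IsScalarTower B S F :=
      IsScalarTower.of_algebraMap_eq fun b => (IsLocalization.lift_eq hunits b).symm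
    have hfracS : IsFractionRing S F :=
      IsFractionRing.isFractionRing_of_isDomain_of_isLocalization n.primeCompl S F
    have hCS : Chart S F O (algebraMap B S π) m := hC.localization hm n hπn S
    have hπS0 : algebraMap B S π ≠ 0 := fun h => by
      have h1 : algebraMap B F π = 0 := by
        rw [IsScalarTower.algebraMap_apply B S F, h, map_zero]
      exact hπ0 (hinj (by rw [h1, map_zero]))
    have hπSm : algebraMap B S π ∈ IsLocalRing.maximalIdeal S :=
      (IsLocalization.AtPrime.to_map_mem_maximal_iff S n π).mpr hπn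
    have hdivS : ∀ W : ValuationSubring F, (∀ b : S, algebraMap S F b ∈ W) →
        (algebraMap S F (algebraMap B S π))⁻¹ ∈ W → W ≠ ⊤ → IsPrincipalIdealRing W →
        ∃ u : F, W.valuation (f * u ^ m) = 1 := by
      intro W hW1 hW2 hW3 hW4
      refine hdiv W (fun b => ?_) ?_ hW3 hW4
      · rw [IsScalarTower.algebraMap_apply B S F]
        exact hW1 _
      · rw [IsScalarTower.algebraMap_apply B S F]
        exact hW2
    obtain ⟨y0, c, u0, hc, hu0, hfy0, hvy0⟩ :=
      local_start hm hCS hπS0 hπSm hf hdivS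
    obtain ⟨b1, s1, rfl⟩ := IsLocalization.exists_mk'_eq n.primeCompl u0
    obtain ⟨b0, s0, rfl⟩ := IsLocalization.exists_mk'_eq n.primeCompl c
    have hb0 : b0 ∉ n := (IsLocalization.AtPrime.isUnit_mk'_iff S n b0 s0).mp hc
    have hs1v : O.valuation (algebraMap B F s1) = 1 :=
      hC.val_eq_one fun ⟨c, hc⟩ => s1.2 (by rw [hc]; exact Ideal.mul_mem_right _ _ hπn)
    have hs0v : O.valuation (algebraMap B F s0) = 1 :=
      hC.val_eq_one fun ⟨c, hc⟩ => s0.2 (by rw [hc]; exact Ideal.mul_mem_right _ _ hπn)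
    have hs0F : algebraMap B F s0 ≠ 0 := (hunits s0).ne_zero
    have hs1F : algebraMap B F s1 ≠ 0 := (hunits s1).ne_zero
    have e1 := algebraMap_mk'_mul (F := F) n S b1 s1
    have e0 := algebraMap_mk'_mul (F := F) n S b0 s0
    have hbn : (s1 : B) * b0 ∉ n := fun h =>
      (Ideal.IsPrime.mem_or_mem inferInstance h).elim s1.2 hb0
    apply hbn
    apply han
    refine (hamem _).mpr ⟨algebraMap B F s1 * algebraMap B F s0 * y0, ?_, ?_⟩
    · obtain ⟨m', rfl⟩ := Nat.exists_eq_succ_of_ne_zero hm.ne'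
      refine ⟨(s1 : B) ^ m' * (s0 : B) ^ (m' + 1) * b1, ?_⟩
      have hx : f * (algebraMap B F s1 * algebraMap B F s0 * y0) ^ (m' + 1)
          = (algebraMap B F s1 * algebraMap B F s0) ^ (m' + 1) * (f * y0 ^ (m' + 1)) := by ring
      rw [hx, hfy0, map_mul, map_mul, map_pow, map_pow, ← e1, mul_pow,
        pow_succ (algebraMap B F s1)]
      ring
    · have : algebraMap B F s1 * algebraMap B F s0 * y0 - algebraMap B F ((s1 : B) * b0)
          = algebraMap B F s1 * algebraMap B F s0
            * (y0 - algebraMap S F (IsLocalization.mk' S b0 s0)) := by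
        rw [map_mul, ← e0]
        ring
      rw [this, map_mul, map_mul, hs1v, hs0v, one_mul, one_mul]
      exact hvy0

/-- **C2-M**, unbundled hypotheses (the shape announced on the board). -/
theorem exists_start [IsNoetherianRing B] (O : ValuationSubring F) (π : B) (m : ℕ) (hm : 0 < m)
    (hπ0 : π ≠ 0)
    (hBO : ∀ b : B, algebraMap B F b ∈ O)
    (hπ : O.valuation (algebraMap B F π) < 1)
    (hsat : ∀ b : B, O.valuation (algebraMap B F b) < 1 → π ∣ b)
    (hfrac : ∀ x ∈ O, ∃ b h : B, O.valuation (algebraMap B F h) = 1 ∧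
      x * algebraMap B F h = algebraMap B F b)
    (hroot : ∀ z : F, z ^ m ∈ (algebraMap B F).range → z ∈ (algebraMap B F).range)
    (f : F) (hf : O.valuation (f - 1) < 1)
    (hN : ∀ (n : Ideal B) [n.IsMaximal], π ∈ n →
      (¬ ∃ s : B, s ∉ n ∧ f * algebraMap B F s ∈ (algebraMap B F).range) →
      IsPrincipalIdealRing
        (Localization.AtPrime n ⧸ Ideal.span {algebraMap B (Localization.AtPrime n) π}))
    (hdiv : ∀ W : ValuationSubring F, (∀ b : B, algebraMap B F b ∈ W) →
      (algebraMap B F π)⁻¹ ∈ W → W ≠ ⊤ → IsPrincipalIdealRing W →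
      ∃ u : F, W.valuation (f * u ^ m) = 1) :
    ∃ y : F, f * y ^ m ∈ (algebraMap B F).range ∧ O.valuation (y - 1) < 1 :=
  exists_start_of_chart hm ⟨hBO, hπ, hsat, hfrac, hroot⟩ hπ0 hf hN hdiv

end Global

end Fermat.Agent.S18.Core.StartSection
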