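/-
S18 block C (helper7): the start section C2-M (`Core/StartSection.exists_start`) instantiated at
the charts `B0 R τ` of `Core/Charts` (use `τ := t` and `τ := t⁻¹`).
-/
import Mathlib
import Fermat.Agent.S18.Core.Charts
import Fermat.Agent.S18.Core.StartSection

namespace Fermat.Agent.S18.Core.StartB0

open Polynomial IntermediateField
open Fermat.Agent.S18.Core.Charts Fermat.Agent.S18.Core.StartSection

variable {R L F : Type*} [CommRing R] [IsDomain R] [IsDiscreteValuationRing R]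
  [Field L] [Field F] [Algebra R L] [IsFractionRing R L] [Algebra L F] [Algebra R F]
  [IsScalarTower R L F] {π : R} {O : ValuationSubring F} {τ : F}

/-- The chart `B0 R τ` is a noetherian ring (finite over `R[τ]`). -/
theorem isNoetherianRing_B0 (h : GoodCoord π O τ) (K : IntermediateField L F) (hK : K = L⟮τ⟯)
    (hfin : FiniteDimensional K F) (hsep : Algebra.IsSeparable K F) :
    IsNoetherianRing ↥(B0 R τ) := by
  obtain ⟨n, mm, hm, hgen⟩ := exists_generators_B0 h K hK hfin hsep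
  let φ : R[X] →+* ↥(B0 R τ) :=
    ((aeval τ : R[X] →ₐ[R] F) : R[X] →+* F).codRestrict (B0 R τ) (fun p => aeval_mem_B0 p)
  let algφ : Algebra R[X] ↥(B0 R τ) := φ.toAlgebra
  have hsmul : ∀ (p : R[X]) (b : ↥(B0 R τ)), ((p • b : ↥(B0 R τ)) : F) = aeval τ p * (b : F) := by
    intro p b
    rfl
  let g : (Fin n → R[X]) →ₗ[R[X]] ↥(B0 R τ) :=
    Fintype.linearCombination R[X] (fun j => (⟨mm j, hm j⟩ : ↥(B0 R τ)))
  have hg : Function.Surjective g := by
    rintro ⟨x, hx⟩
    obtain ⟨c, hc⟩ := hgen x hx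
    refine ⟨c, Subtype.ext ?_⟩
    rw [Fintype.linearCombination_apply]
    change ((∑ j, c j • (⟨mm j, hm j⟩ : ↥(B0 R τ)) : ↥(B0 R τ)) : F) = x
    rw [hc, AddSubmonoidClass.coe_finsetSum]
    exact Finset.sum_congr rfl fun j _ => hsmul (c j) _
  have : Module.Finite R[X] ↥(B0 R τ) := Module.Finite.of_surjective g hg
  exact Algebra.FiniteType.isNoetherianRing R[X] ↥(B0 R τ)

omit [IsDomain R] [IsDiscreteValuationRing R] in
/-- a primitive polynomial in `τ` is a Gauss unit -/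
theorem valuation_aeval_eq_one (h : GoodCoord π O τ) {p : R[X]} (hp : ¬ C π ∣ p) :
    O.valuation (aeval τ p) = 1 := by
  refine le_antisymm ((O.valuation_le_one_iff _).mpr (B0_le h (aeval_mem_B0 p))) ?_
  rw [← not_lt]
  intro hlt
  exact hp ((Polynomial.C_dvd_iff_dvd_coeff _ _).mpr (h.transc p hlt))

open scoped IntermediateField.algebraAdjoinAdjoin in
/-- **(frac)** every element of `O` is `b / h` with `b ∈ B0 R τ` and `h ∈ R[τ]` a Gauss unit. -/
theorem exists_frac_B0 (h : GoodCoord π O τ) (K : IntermediateField L F) (hK : K = L⟮τ⟯)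
    (halg : Algebra.IsAlgebraic K F)
    (huniq : ∀ O'' : ValuationSubring F,
      O''.comap (algebraMap K F) = O.comap (algebraMap K F) → O'' = O)
    {x : F} (hx : x ∈ O) :
    ∃ p : R[X], O.valuation (aeval τ p) = 1 ∧ x * aeval τ p ∈ B0 R τ := by
  have hπprime : Prime π := h.irreducible.prime
  have hπL : algebraMap R L π ≠ 0 := by
    rw [Ne, map_eq_zero_iff _ (IsFractionRing.injective R L)]
    exact h.irreducible.ne_zero
  -- `x` is algebraic over `L[τ]`
  have hxalg : IsAlgebraic (Algebra.adjoin L {τ}) x := by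
    subst hK
    exact (IsFractionRing.isAlgebraic_iff (Algebra.adjoin L {τ}) L⟮τ⟯ F).mpr
      (halg.isAlgebraic x)
  obtain ⟨d, hd0, hdx⟩ := hxalg.exists_integral_multiple
  obtain ⟨q, hq⟩ : ∃ q : L[X], aeval τ q = (d : F) := by
    have h1 : (d : F) ∈ (aeval τ : L[X] →ₐ[L] F).range := by
      rw [← Algebra.adjoin_singleton_eq_range_aeval]
      exact d.2
    exact h1
  have hq0 : q ≠ 0 := fun h0 => hd0 (Subtype.ext (by rw [← hq, h0, map_zero]; rfl))
  obtain ⟨n, q', hq'⟩ := exists_pow_mul_map_eq (L := L) h.irreducible q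
  have hq'0 : q' ≠ 0 := fun h0 => by
    rw [h0, Polynomial.map_zero] at hq'
    have := mul_eq_zero.mp hq'.symm
    rcases this with h1 | h1
    · exact pow_ne_zero n hπL (C_eq_zero.mp h1)
    · exact hq0 h1
  have hCπ : Prime (C π : R[X]) := (Polynomial.prime_C_iff).mpr hπprime
  obtain ⟨k, q'', hq''prim, hq''⟩ := WfDvdMonoid.max_power_factor hq'0 hCπ.irreducible
  refine ⟨q'', valuation_aeval_eq_one h hq''prim, ?_⟩
  -- `aeval τ q'' = c * d` with `c ∈ L`
  have e1 : aeval τ q' = algebraMap L F (algebraMap R L π ^ n) * aeval τ q := by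
    have := congrArg (aeval τ) hq'
    rwa [aeval_map_algebraMap, map_mul, aeval_C] at this
  have e2 : aeval τ q' = algebraMap L F (algebraMap R L π ^ k) * aeval τ q'' := by
    rw [hq'', map_mul, map_pow, aeval_C, IsScalarTower.algebraMap_apply R L F, map_pow]
  have hk0 : algebraMap L F (algebraMap R L π ^ k) ≠ 0 := by
    rw [Ne, map_eq_zero]
    exact pow_ne_zero k hπL
  set c : L := (algebraMap R L π ^ k)⁻¹ * algebraMap R L π ^ n with hc
  have e3 : aeval τ q'' = algebraMap L F c * (d : F) := by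
    rw [hc, map_mul, map_inv₀, ← hq, mul_assoc, ← e1, e2, ← mul_assoc, inv_mul_cancel₀ hk0, one_mul]
  rw [mem_B0_iff h K hK halg huniq]
  refine ⟨O.mul_mem _ _ hx (B0_le h (aeval_mem_B0 q'')), ?_⟩
  have h1 : IsIntegral (Algebra.adjoin L {τ})
      (algebraMap (Algebra.adjoin L {τ}) F (algebraMap L _ c)) := isIntegral_algebraMap
  have h2 := h1.mul hdx
  have e4 : algebraMap (Algebra.adjoin L {τ}) F (algebraMap L _ c) * (d • x) = x * aeval τ q'' := by
    rw [← IsScalarTower.algebraMap_apply, e3, Algebra.smul_def]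
    change algebraMap L F c * ((d : F) * x) = _
    ring
  rwa [e4] at h2

/-- `F = Frac (B0 R τ)`. -/
theorem isFractionRing_B0 (h : GoodCoord π O τ) (K : IntermediateField L F) (hK : K = L⟮τ⟯)
    (halg : Algebra.IsAlgebraic K F)
    (huniq : ∀ O'' : ValuationSubring F,
      O''.comap (algebraMap K F) = O.comap (algebraMap K F) → O'' = O) :
    IsFractionRing ↥(B0 R τ) F := by
  have hfaith : FaithfulSMul ↥(B0 R τ) F :=
    (faithfulSMul_iff_algebraMap_injective ↥(B0 R τ) F).mpr Subtype.val_injective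
  refine IsFractionRing.of_field ↥(B0 R τ) F fun z => ?_
  rcases O.mem_or_inv_mem z with hz | hz
  · obtain ⟨p, hp1, hp2⟩ := exists_frac_B0 h K hK halg huniq hz
    have hp0 : aeval τ p ≠ 0 := fun h0 => by simp [h0] at hp1
    refine ⟨⟨z * aeval τ p, hp2⟩, ⟨aeval τ p, aeval_mem_B0 p⟩, ?_⟩
    change z = z * aeval τ p / aeval τ p
    rw [mul_div_cancel_right₀ _ hp0]
  · obtain ⟨p, hp1, hp2⟩ := exists_frac_B0 h K hK halg huniq hz
    have hp0 : aeval τ p ≠ 0 := fun h0 => by simp [h0] at hp1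
    refine ⟨⟨aeval τ p, aeval_mem_B0 p⟩, ⟨z⁻¹ * aeval τ p, hp2⟩, ?_⟩
    change z = aeval τ p / (z⁻¹ * aeval τ p)
    rcases eq_or_ne z 0 with rfl | hz0
    · simp
    · field_simp

/-- the uniformiser as an element of the chart -/
def piB0 (R : Type*) {F : Type*} [CommRing R] [Field F] [Algebra R F] (π : R) (τ : F) :
    ↥(B0 R τ) := ⟨algebraMap R F π, algebraMap_mem_B0 π⟩

/-- **C2-M at the chart `B0 R τ`.** -/
theorem exists_start_B0 (h : GoodCoord π O τ) (K : IntermediateField L F) (hK : K = L⟮τ⟯)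
    (hfin : FiniteDimensional K F) (hsep : Algebra.IsSeparable K F)
    (huniq : ∀ O'' : ValuationSubring F,
      O''.comap (algebraMap K F) = O.comap (algebraMap K F) → O'' = O)
    {m : ℕ} (hm : 0 < m) {f : F} (hf : O.valuation (f - 1) < 1)
    (hN : ∀ (n : Ideal ↥(B0 R τ)) [n.IsMaximal], piB0 R π τ ∈ n →
      (¬ ∃ s : ↥(B0 R τ), s ∉ n ∧ f * (s : F) ∈ B0 R τ) →
      IsPrincipalIdealRing (Localization.AtPrime n ⧸
        Ideal.span {algebraMap ↥(B0 R τ) (Localization.AtPrime n) (piB0 R π τ)}))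
    (hdiv : ∀ W : ValuationSubring F, (∀ b ∈ B0 R τ, b ∈ W) → (algebraMap R F π)⁻¹ ∈ W → W ≠ ⊤ →
      IsPrincipalIdealRing W → ∃ u : F, W.valuation (f * u ^ m) = 1) :
    ∃ y : F, f * y ^ m ∈ B0 R τ ∧ O.valuation (y - 1) < 1 := by
  have halg : Algebra.IsAlgebraic K F := Algebra.IsAlgebraic.of_finite K F
  have hnoeth : IsNoetherianRing ↥(B0 R τ) := isNoetherianRing_B0 h K hK hfin hsep
  have hfrac : IsFractionRing ↥(B0 R τ) F := isFractionRing_B0 h K hK halg huniq
  have hrange : ∀ z : F, z ∈ (algebraMap ↥(B0 R τ) F).range ↔ z ∈ B0 R τ := by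
    intro z
    constructor
    · rintro ⟨b, rfl⟩
      exact b.2
    · intro hz
      exact ⟨⟨z, hz⟩, rfl⟩
  obtain ⟨y, hy1, hy2⟩ := exists_start O (piB0 R π τ) m hm
    (fun h0 => GoodCoord.pi_ne_zero L h (congrArg Subtype.val h0))
    (fun b => B0_le h b.2) h.pi_lt
    (fun b hb => by
      obtain ⟨y, hy, hby⟩ := h.exists_eq_mul _ hb
      have hyB : y ∈ B0 R τ := sat_B0 h K hK halg huniq hy (hby ▸ b.2)
      exact ⟨⟨y, hyB⟩, Subtype.ext hby⟩)
    (fun x hx => by
      obtain ⟨p, hp1, hp2⟩ := exists_frac_B0 h K hK halg huniq hx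
      exact ⟨⟨x * aeval τ p, hp2⟩, ⟨aeval τ p, aeval_mem_B0 p⟩, hp1, rfl⟩)
    (fun z hz => (hrange z).mpr (rootClosed_B0 hm z ((hrange _).mp hz)))
    f hf
    (fun n _ hπn hcase => hN n hπn fun ⟨s, hs, hfs⟩ => hcase ⟨s, hs, (hrange _).mpr hfs⟩)
    (fun W hW1 hW2 hW3 hW4 => hdiv W (fun b hb => hW1 ⟨b, hb⟩) hW2 hW3 hW4)
  exact ⟨y, (hrange _).mp hy1, hy2⟩

/-- **C2-M at the chart `B1 R τ = B0 R τ⁻¹`.** -/
theorem exists_start_B1 (h : GoodCoord π O τ) (K : IntermediateField L F) (hK : K = L⟮τ⟯)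
    (hfin : FiniteDimensional K F) (hsep : Algebra.IsSeparable K F)
    (huniq : ∀ O'' : ValuationSubring F,
      O''.comap (algebraMap K F) = O.comap (algebraMap K F) → O'' = O)
    {m : ℕ} (hm : 0 < m) {f : F} (hf : O.valuation (f - 1) < 1)
    (hN : ∀ (n : Ideal ↥(B0 R τ⁻¹)) [n.IsMaximal], piB0 R π τ⁻¹ ∈ n →
      (¬ ∃ s : ↥(B0 R τ⁻¹), s ∉ n ∧ f * (s : F) ∈ B1 R τ) →
      IsPrincipalIdealRing (Localization.AtPrime n ⧸
        Ideal.span {algebraMap ↥(B0 R τ⁻¹) (Localization.AtPrime n) (piB0 R π τ⁻¹)}))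
    (hdiv : ∀ W : ValuationSubring F, (∀ b ∈ B1 R τ, b ∈ W) → (algebraMap R F π)⁻¹ ∈ W → W ≠ ⊤ →
      IsPrincipalIdealRing W → ∃ u : F, W.valuation (f * u ^ m) = 1) :
    ∃ y : F, f * y ^ m ∈ B1 R τ ∧ O.valuation (y - 1) < 1 :=
  exists_start_B0 h.inv K (hK.trans (adjoin_simple_inv τ).symm) hfin hsep huniq hm hf hN hdiv

end Fermat.Agent.S18.Core.StartB0
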