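/-
S18 block C (helper7): instance facts for the charts of `Core/Charts` (requested by helper2 for
`Core/StarCharts`): the charts are noetherian rings with fraction field `F`.
-/
import Mathlib
import Fermat.Agent.S18.Core.Charts
import Fermat.Agent.S18.Core.StartB0

namespace Fermat.Agent.S18.Core.ChartsInst

open Polynomial IntermediateField
open Fermat.Agent.S18.Core.Charts

variable {R L F : Type*} [CommRing R] [IsDomain R] [IsDiscreteValuationRing R]
  [Field L] [Field F] [Algebra R L] [IsFractionRing R L] [Algebra L F] [Algebra R F]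
  [IsScalarTower R L F] {π : R} {O : ValuationSubring F} {τ : F}

/-- (I-a) the chart `B0 R τ` is noetherian. -/
theorem isNoetherianRing_B0 (h : GoodCoord π O τ) (K : IntermediateField L F) (hK : K = L⟮τ⟯)
    (hfin : FiniteDimensional K F) (hsep : Algebra.IsSeparable K F) :
    IsNoetherianRing ↥(B0 R τ) :=
  StartB0.isNoetherianRing_B0 h K hK hfin hsep

/-- (I-a) the chart `B1 R τ` is noetherian. -/
theorem isNoetherianRing_B1 (h : GoodCoord π O τ) (K : IntermediateField L F) (hK : K = L⟮τ⟯)
    (hfin : FiniteDimensional K F) (hsep : Algebra.IsSeparable K F) :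
    IsNoetherianRing ↥(B1 R τ) :=
  StartB0.isNoetherianRing_B0 h.inv K (hK.trans (adjoin_simple_inv τ).symm) hfin hsep

/-- (I-b) `F = Frac (B0 R τ)`. -/
theorem isFractionRing_B0 (h : GoodCoord π O τ) (K : IntermediateField L F) (hK : K = L⟮τ⟯)
    (halg : Algebra.IsAlgebraic K F)
    (huniq : ∀ O'' : ValuationSubring F,
      O''.comap (algebraMap K F) = O.comap (algebraMap K F) → O'' = O) :
    IsFractionRing ↥(B0 R τ) F :=
  StartB0.isFractionRing_B0 h K hK halg huniq

/-- (I-b) `F = Frac (B1 R τ)`. -/
theorem isFractionRing_B1 (h : GoodCoord π O τ) (K : IntermediateField L F) (hK : K = L⟮τ⟯)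
    (halg : Algebra.IsAlgebraic K F)
    (huniq : ∀ O'' : ValuationSubring F,
      O''.comap (algebraMap K F) = O.comap (algebraMap K F) → O'' = O) :
    IsFractionRing ↥(B1 R τ) F :=
  StartB0.isFractionRing_B0 h.inv K (hK.trans (adjoin_simple_inv τ).symm) halg huniq

omit [IsDomain R] [IsDiscreteValuationRing R] [Field L] [Algebra R L] [IsFractionRing R L]
  [Algebra L F] [IsScalarTower R L F] in
/-- (I-c) the image of `R` in `F` is noetherian. -/
theorem isNoetherianRing_range [IsNoetherianRing R] : IsNoetherianRing ↥(algebraMap R F).range :=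
  isNoetherianRing_of_surjective R _ (algebraMap R F).rangeRestrict
    (algebraMap R F).rangeRestrict_surjective

/-- (I-c) for a discrete valuation ring `R`. -/
theorem isNoetherianRing_range' : IsNoetherianRing ↥(algebraMap R F).range :=
  isNoetherianRing_range

/-- (frac) every element of `O` is `b / h`, `b ∈ B0 R τ`, `h ∈ R[τ]` a Gauss unit. -/
theorem exists_frac_B0 (h : GoodCoord π O τ) (K : IntermediateField L F) (hK : K = L⟮τ⟯)
    (halg : Algebra.IsAlgebraic K F)
    (huniq : ∀ O'' : ValuationSubring F,
      O''.comap (algebraMap K F) = O.comap (algebraMap K F) → O'' = O)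
    {x : F} (hx : x ∈ O) :
    ∃ p : R[X], O.valuation (aeval τ p) = 1 ∧ x * aeval τ p ∈ B0 R τ :=
  StartB0.exists_frac_B0 h K hK halg huniq hx

end Fermat.Agent.S18.Core.ChartsInst
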