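import Mathlib
import Fermat.Agent.S18.Descent.StarOfDVR
import Fermat.Agent.S18.ConstExt.Place
import Fermat.Agent.S18.Gauss.Residue
import Fermat.Agent.S18.Trans.Translate

/-!
# S18 leaf C3 (series shell): from the core over `F_{L₁}` to the conclusion of `star_of_dvr`

`L₁ ⊆ ℚ̄` a subfield, `R₁ = A ∩ L₁`, `F = laurentBaseChange L₁ (modularFunctionFieldFull N)` with a
Gauss-type valuation subring `(O', ρ)` (`Gauss/Residue.IsGaussRed`) whose residue map is onto
`modularFunctionFieldFullC κ₁ N`.  If the core statement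

  `v(f - 1) < 1`, `m ∣ ord_P f` at all places `P` of `F / L₁`  ⟹  `f = c * w ^ m`

holds for `F`, then every `DVRData A L₁ N m y₁ y₂ c g` whose numerator and denominator satisfy
the `ℚ̄`-placewise divisibility yields the conclusion of `Descent.star_of_dvr`.
-/

set_option autoImplicit false

open HahnSeries ModularCurve AlgebraicCurve

namespace Fermat.Agent.S18.Core.StarDVR

open Fermat.Agent.S18.Descent Fermat.Agent.S18.Gauss.Residue Fermat.Agent.S18.Trans
  Fermat.Agent.S18.ConstExt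

set_option synthInstance.maxHeartbeats 400000

local notation "Kb" => AlgebraicClosure ℚ

section Abstract

variable {K : Type*} [Field K] {A : ValuationSubring K} {k : Type*} [Field k] {π : A →+* k}
  {F : IntermediateField K (LaurentSeries K)} {O' : ValuationSubring F}
  {ρ : O' →+* LaurentSeries k}

/-- elements of the kernel of the reduction map have valuation `< 1`. -/
theorem valuation_lt_one_of_map_eq_zero {x : O'} (hx : ρ x = 0) :
    O'.valuation (x : F) < 1 := by
  have hle : O'.valuation (x : F) ≤ 1 := (ValuationSubring.valuation_le_one_iff _ _).mpr x.2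
  refine lt_of_le_of_ne hle fun h1 => ?_
  have hu : IsUnit x := (O'.valuation_eq_one_iff x).mpr h1
  have := hu.map ρ
  rw [hx] at this
  exact not_isUnit_zero this

end Abstract

variable (A : ValuationSubring Kb) (L₁ : IntermediateField ℚ Kb) (N m : ℕ)

local notation "FL" => laurentBaseChange L₁ (modularFunctionFieldFull N)
local notation "R1" => restrict A L₁

/-- **C3, series shell.** -/
theorem exists_of_dvrData
    (O' : ValuationSubring FL)
    (ρ : O' →+* LaurentSeries (IsLocalRing.ResidueField R1))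
    (hG : IsGaussRed R1 (IsLocalRing.residue R1) FL O' ρ)
    (hrange : ∀ g ∈ modularFunctionFieldFullC (IsLocalRing.ResidueField R1) N,
      ∃ x : O', ρ x = g)
    (hcore : ∀ f : FL, O'.valuation (f - 1) < 1 →
      (∀ P : Place L₁ FL, (m : ℤ) ∣ P.ord f) →
      ∃ (c : L₁) (w : FL), f = algebraMap L₁ FL c * w ^ m)
    (y₁ y₂ : LaurentSeries A)
    (h₁ : coeffMap A.subtype y₁ ∈ modularFunctionFieldBar N)
    (h₂ : coeffMap A.subtype y₂ ∈ modularFunctionFieldBar N)
    (hne₁ : coeffMap (IsLocalRing.residue A) y₁ ≠ 0)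
    (hne₂ : coeffMap (IsLocalRing.residue A) y₂ ≠ 0)
    (hdiv : ∀ P : Place Kb (modularFunctionFieldBar N),
      (m : ℤ) ∣ P.ord (⟨coeffMap A.subtype y₁, h₁⟩ : modularFunctionFieldBar N)
        - P.ord (⟨coeffMap A.subtype y₂, h₂⟩ : modularFunctionFieldBar N))
    (c : IsLocalRing.ResidueField A) (g : LaurentSeries (IsLocalRing.ResidueField A))
    (D : DVRData A L₁ N m y₁ y₂ c g) :
    ∃ (c' : Kb) (w : LaurentSeries Kb), w ∈ modularFunctionFieldBar N ∧
      coeffMap A.subtype y₁ = HahnSeries.C c' * w ^ m * coeffMap A.subtype y₂ := by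
  classical
  -- the two functions
  obtain ⟨Z1, hZ1⟩ : ∃ Z1 : FL, Z1 = ⟨coeffMap (R1).subtype D.z₁, D.mem₁⟩ := ⟨_, rfl⟩
  obtain ⟨Z2, hZ2⟩ : ∃ Z2 : FL, Z2 = ⟨coeffMap (R1).subtype D.z₂, D.mem₂⟩ := ⟨_, rfl⟩
  have hZ1O : Z1 ∈ O' := by rw [hZ1]; exact hG.mem_of_integral D.z₁ D.mem₁
  have hZ2O : Z2 ∈ O' := by rw [hZ2]; exact hG.mem_of_integral D.z₂ D.mem₂
  have hρ1 : ρ ⟨Z1, hZ1O⟩ = coeffMap (IsLocalRing.residue R1) D.z₁ := by
    subst hZ1; exact hG.map_integral D.z₁ D.mem₁ hZ1O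
  have hρ2 : ρ ⟨Z2, hZ2O⟩ = coeffMap (IsLocalRing.residue R1) D.z₂ := by
    subst hZ2; exact hG.map_integral D.z₂ D.mem₂ hZ2O
  -- nonvanishing of the reductions
  have hr1 : coeffMap (IsLocalRing.residue R1) D.z₁ ≠ 0 := by
    intro h0
    apply hne₁
    rw [← D.incl₁, ← red_eq, h0, map_zero]
  have hr2 : coeffMap (IsLocalRing.residue R1) D.z₂ ≠ 0 := by
    intro h0
    apply hne₂
    rw [← D.incl₂, ← red_eq, h0, map_zero]
  have hres := D.hres
  -- lifts of the residual constant and of the residual `m`-th root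
  obtain ⟨ct, hct⟩ := IsLocalRing.residue_surjective (R := R1) D.c₁
  obtain ⟨G, hG1⟩ := hrange D.g₁ D.g₁_mem
  have hρct := hG.map_algebraMap ct
  -- the normalising unit `u = Z2 * c̃ * G ^ m`
  obtain ⟨u, hu⟩ : ∃ u : O', u = ⟨Z2, hZ2O⟩ *
      ⟨algebraMap L₁ FL (ct : L₁), hG.algebraMap_mem ct⟩ * G ^ m := ⟨_, rfl⟩
  have hρu : ρ u = ρ ⟨Z1, hZ1O⟩ := by
    rw [hu, map_mul, map_mul, map_pow, hρ1, hρ2, hρct, hct, hG1, hres]
    ring
  have hu1 : O'.valuation (u : FL) = 1 :=
    hG.valuation_eq_one_of_map_ne_zero (by rw [hρu, hρ1]; exact hr1)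
  have hu0 : (u : FL) ≠ 0 := by
    intro h0
    rw [h0, map_zero] at hu1
    exact zero_ne_one hu1
  have hfv : O'.valuation (Z1 / (u : FL) - 1) < 1 := by
    have e : Z1 / (u : FL) - 1 = (Z1 - (u : FL)) / (u : FL) := by
      field_simp
    rw [e, map_div₀, hu1, div_one]
    have := valuation_lt_one_of_map_eq_zero (ρ := ρ) (x := ⟨Z1, hZ1O⟩ - u)
      (by rw [map_sub, hρu, sub_self])
    exact this
  -- nonvanishing
  have hZ1ne : Z1 ≠ 0 := by
    intro h0
    apply hr1
    rw [← hρ1]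
    have : (⟨Z1, hZ1O⟩ : O') = 0 := Subtype.ext h0
    rw [this, map_zero]
  have hZ2ne : Z2 ≠ 0 := by
    intro h0
    apply hr2
    rw [← hρ2]
    have : (⟨Z2, hZ2O⟩ : O') = 0 := Subtype.ext h0
    rw [this, map_zero]
  have hucoe : (u : FL) = Z2 * algebraMap L₁ FL (ct : L₁) * (G : FL) ^ m := by
    rw [hu]; rfl
  have hct0 : algebraMap L₁ FL (ct : L₁) ≠ 0 := by
    intro h0
    rw [hucoe, h0, mul_zero, zero_mul] at hu0
    exact hu0 rfl
  have hG0 : ((G : FL)) ^ m ≠ 0 := by
    intro h0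
    rw [hucoe, h0, mul_zero] at hu0
    exact hu0 rfl
  -- the base change to `ℚ̄` of the two functions
  haveI halgQ : Algebra.IsAlgebraic ℚ Kb := AlgebraicClosure.isAlgebraic ℚ
  haveI : Algebra.IsAlgebraic L₁ Kb :=
    Algebra.IsAlgebraic.tower_top (K := ℚ) L₁
  have hup1 : up (K := Kb) (modularFunctionFieldFull N) Z1 =
      (⟨coeffMap A.subtype y₁, h₁⟩ : modularFunctionFieldBar N) := by
    apply Subtype.ext
    rw [coe_up, hZ1]
    show coeffMap (algebraMap L₁ Kb) (coeffMap (R1).subtype D.z₁) = coeffMap A.subtype y₁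
    rw [coeffMap_coeffMap, ← subtype_comp_restrictIncl, ← coeffMap_coeffMap, D.incl₁]
  have hup2 : up (K := Kb) (modularFunctionFieldFull N) Z2 =
      (⟨coeffMap A.subtype y₂, h₂⟩ : modularFunctionFieldBar N) := by
    apply Subtype.ext
    rw [coe_up, hZ2]
    show coeffMap (algebraMap L₁ Kb) (coeffMap (R1).subtype D.z₂) = coeffMap A.subtype y₂
    rw [coeffMap_coeffMap, ← subtype_comp_restrictIncl, ← coeffMap_coeffMap, D.incl₂]
  -- divisibility at the places of `F / L₁`
  have hdivL : ∀ P : Place L₁ FL, (m : ℤ) ∣ P.ord (Z1 / (u : FL)) := by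
    intro P
    have h12 : (m : ℤ) ∣ P.ord Z1 - P.ord Z2 := by
      refine dvd_ord_sub_of_forall_place (K := Kb) (modularFunctionFieldFull N) (m : ℤ) Z1 Z2
        (fun Q => ?_) P
      rw [hup1, hup2]
      exact hdiv Q
    have e : P.ord (Z1 / (u : FL)) = P.ord Z1 - P.ord Z2 - (m : ℤ) * P.ord (G : FL) := by
      rw [div_eq_mul_inv, P.ord_mul hZ1ne (inv_ne_zero hu0), P.ord_inv, hucoe,
        P.ord_mul (mul_ne_zero hZ2ne hct0) hG0, P.ord_mul hZ2ne hct0,
        ord_algebraMap_eq_zero, ord_pow']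
      ring
    rw [e]
    exact dvd_sub h12 (dvd_mul_right _ _)
  -- the core
  obtain ⟨c0, w, hcw⟩ := hcore (Z1 / (u : FL)) hfv hdivL
  have hZ : Z1 = algebraMap L₁ FL (c0 * (ct : L₁)) * (w * (G : FL)) ^ m * Z2 := by
    have h1 : Z1 = Z1 / (u : FL) * (u : FL) := by field_simp
    rw [h1, hcw, hucoe, map_mul, mul_pow]
    ring
  have hZup := congrArg (up (K := Kb) (modularFunctionFieldFull N)) hZ
  rw [map_mul, map_mul, map_pow, hup1, hup2, up_algebraMap] at hZup
  refine ⟨algebraMap L₁ Kb (c0 * (ct : L₁)),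
    ((up (K := Kb) (modularFunctionFieldFull N) (w * (G : FL)) : modularFunctionFieldBar N) :
      LaurentSeries Kb),
    (up (K := Kb) (modularFunctionFieldFull N) (w * (G : FL))).2, ?_⟩
  have h2 := congrArg (fun z : modularFunctionFieldBar N => (z : LaurentSeries Kb)) hZup
  simp only at h2
  rw [h2]
  show ((algebraMap Kb (modularFunctionFieldBar N) (algebraMap L₁ Kb (c0 * (ct : L₁))) :
    modularFunctionFieldBar N) : LaurentSeries Kb) * _ * _ = _
  rw [show ((algebraMap Kb (modularFunctionFieldBar N) (algebraMap L₁ Kb (c0 * (ct : L₁))) :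
    modularFunctionFieldBar N) : LaurentSeries Kb) =
      algebraMap Kb (LaurentSeries Kb) (algebraMap L₁ Kb (c0 * (ct : L₁))) from rfl,
    algebraMap_laurent_eq_C]
  rfl

end Fermat.Agent.S18.Core.StarDVR
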