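import Mathlib
import Fermat.Agent.S18.Core.StarDVR

/-!
# S18 (T1): `Trans.Star` from a bundle over every number field

`Bundle A L₁ N m` : on `F = laurentBaseChange L₁ (modularFunctionFieldFull N)` there is a
Gauss-type valuation subring with residue map onto `modularFunctionFieldFullC κ₁ N` for which the
core statement (`v(f - 1) < 1`, `m ∣ div f` ⟹ `f = c * w ^ m`) holds.
`star_of_bundle` : if this holds for every number field `L₁` containing a fixed finite set, then
`Trans.Star A N m` holds (`Descent.star_of_dvr` + `Core.StarDVR.exists_of_dvrData`).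
-/

set_option autoImplicit false

open HahnSeries ModularCurve AlgebraicCurve

namespace Fermat.Agent.S18.Core.StarBundle

open Fermat.Agent.S18.Descent Fermat.Agent.S18.Gauss.Residue

set_option synthInstance.maxHeartbeats 400000

local notation "Kb" => AlgebraicClosure ℚ

/-- The bundle of hypotheses over a subfield `L₁` of `ℚ̄`. -/
def Bundle (A : ValuationSubring Kb) (L₁ : IntermediateField ℚ Kb) (N m : ℕ) : Prop :=
  ∃ (O : ValuationSubring (laurentBaseChange L₁ (modularFunctionFieldFull N)))
    (ρ : O →+* LaurentSeries (IsLocalRing.ResidueField (restrict A L₁))),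
    (∀ (z : LaurentSeries (restrict A L₁))
        (h : coeffMap (restrict A L₁).subtype z ∈
          laurentBaseChange L₁ (modularFunctionFieldFull N)),
        ∃ hO : (⟨_, h⟩ : laurentBaseChange L₁ (modularFunctionFieldFull N)) ∈ O,
          ρ ⟨⟨_, h⟩, hO⟩ = coeffMap (IsLocalRing.residue (restrict A L₁)) z) ∧
    (∀ x : O, ρ x = 0 ↔
      O.valuation (x : laurentBaseChange L₁ (modularFunctionFieldFull N)) < 1) ∧
    (∀ g ∈ modularFunctionFieldFullC (IsLocalRing.ResidueField (restrict A L₁)) N,
      ∃ x : O, ρ x = g) ∧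
    (∀ f : laurentBaseChange L₁ (modularFunctionFieldFull N), O.valuation (f - 1) < 1 →
      (∀ P : Place L₁ (laurentBaseChange L₁ (modularFunctionFieldFull N)), (m : ℤ) ∣ P.ord f) →
      ∃ (c : L₁) (w : laurentBaseChange L₁ (modularFunctionFieldFull N)),
        f = algebraMap L₁ (laurentBaseChange L₁ (modularFunctionFieldFull N)) c * w ^ m)

/-- **(T1)** `Trans.Star` from bundles over all number fields containing a finite set. -/
theorem star_of_bundle (A : ValuationSubring Kb) (N m : ℕ) (T0 : Finset Kb)
    (H : ∀ (L₁ : IntermediateField ℚ Kb) [FiniteDimensional ℚ L₁],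
      (↑T0 : Set Kb) ⊆ (L₁ : Set Kb) → Bundle A L₁ N m) :
    Trans.Star A N m := by
  refine star_of_dvr A N m
    (fun y₁ y₂ h₁ h₂ _ _ hne₁ hne₂ hdiv c g _ _ => ⟨T0, fun L₁ _ hT D => ?_⟩)
  obtain ⟨O, ρ, hint, hker, hrange, hcore⟩ := H L₁ hT
  have hG : IsGaussRed (restrict A L₁) (IsLocalRing.residue (restrict A L₁))
      (laurentBaseChange L₁ (modularFunctionFieldFull N)) O ρ :=
    { mem_of_integral := fun z h => (hint z h).1
      map_integral := fun z h hO => by
        obtain ⟨_, h2⟩ := hint z h
        exact h2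
      map_eq_zero := fun x hx => (hker x).mpr hx
      surj := IsLocalRing.residue_surjective }
  exact StarDVR.exists_of_dvrData A L₁ N m O ρ hG hrange hcore y₁ y₂ h₁ h₂ hne₁ hne₂ hdiv c g D

end Fermat.Agent.S18.Core.StarBundle
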