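/-
S18, block C, leaf B-Div (abstract half): from `m ∣ P.ord f` at every Prelude place of `F / L`
to the valuation-subring form of the divisibility hypothesis consumed by `StartSection`:
for every discrete valuation subring `W ⊇ L` of `F`, `f * u ^ m` is a `W`-unit for some `u`.
-/
import Mathlib
import Fermat.Prelude.Def_AlgebraicCurve_DivisorClassGroup

set_option autoImplicit false

namespace Fermat.Agent.S18.Core.DivBridge

open AlgebraicCurve

variable {L F : Type*} [Field L] [Field F] [Algebra L F]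

/-- a discrete valuation subring containing the constants is a Prelude place. -/
def placeOfValuationSubring (W : ValuationSubring F) (hL : ∀ a : L, algebraMap L F a ∈ W)
    (hne : W ≠ ⊤) (hpid : IsPrincipalIdealRing W) : Place L F :=
  ⟨W, hL, hne, hpid⟩

theorem exists_unit_pow_of_dvd_ord {f : F} (hf : f ≠ 0) {m : ℕ}
    (P : Place L F) (h : (m : ℤ) ∣ P.ord f) :
    ∃ u : F, P.toValuationSubring.valuation (f * u ^ m) = 1 := by
  obtain ⟨k, hk⟩ := h
  obtain ⟨ϖ, hϖ⟩ := IsDiscreteValuationRing.exists_irreducible P.toValuationSubring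
  obtain ⟨u₀, hu₀⟩ := P.exists_unit_mul_zpow hf hϖ
  have hϖ0 : (ϖ : F) ≠ 0 := by
    simpa [ne_eq, ZeroMemClass.coe_eq_zero] using hϖ.ne_zero
  refine ⟨(ϖ : F) ^ (-k), ?_⟩
  have hval : f * ((ϖ : F) ^ (-k)) ^ m = ((u₀ : P.toValuationSubring) : F) := by
    have h1 : ((ϖ : F) ^ (-k)) ^ m = (ϖ : F) ^ (-((m : ℤ) * k)) := by
      rw [← zpow_natCast, ← zpow_mul]; congr 1; ring
    rw [h1]
    nth_rewrite 1 [hu₀]
    rw [hk, mul_assoc, ← zpow_add₀ hϖ0, add_neg_cancel, zpow_zero, mul_one]
  rw [hval]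
  exact (P.toValuationSubring.valuation_eq_one_iff _).mp u₀.isUnit

/-- **B-Div, abstract half.** -/
theorem hdiv_of_forall_place {f : F} (hf : f ≠ 0) {m : ℕ}
    (h : ∀ P : Place L F, (m : ℤ) ∣ P.ord f)
    (W : ValuationSubring F) (hL : ∀ a : L, algebraMap L F a ∈ W)
    (hne : W ≠ ⊤) (hpid : IsPrincipalIdealRing W) :
    ∃ u : F, W.valuation (f * u ^ m) = 1 :=
  exists_unit_pow_of_dvd_ord hf (placeOfValuationSubring W hL hne hpid)
    (h (placeOfValuationSubring W hL hne hpid))

/-- the constants `L = Frac R` lie in `W` as soon as `R ⊆ W` and `π⁻¹ ∈ W`, `R` a DVR with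
uniformiser `π`. -/
theorem algebraMap_mem_of_inv_mem {R : Type*} [CommRing R] [IsDomain R]
    [IsDiscreteValuationRing R] [Algebra R L] [IsFractionRing R L] [Algebra R F]
    [IsScalarTower R L F] {π : R} (hπ : Irreducible π) (W : ValuationSubring F)
    (hR : ∀ r : R, algebraMap R F r ∈ W) (hπW : (algebraMap R F π)⁻¹ ∈ W) (a : L) :
    algebraMap L F a ∈ W := by
  obtain ⟨r, s, hs, rfl⟩ := IsFractionRing.div_surjective (A := R) a
  have hs0 : s ≠ 0 := nonZeroDivisors.ne_zero hs
  obtain ⟨n, u, hu⟩ := IsDiscreteValuationRing.eq_unit_mul_pow_irreducible hs0 hπ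
  rw [map_div₀, ← IsScalarTower.algebraMap_apply, ← IsScalarTower.algebraMap_apply, hu, map_mul,
    map_pow, div_eq_mul_inv, mul_inv, ← inv_pow]
  refine W.mul_mem _ _ (hR r) (W.mul_mem _ _ ?_ (W.pow_mem hπW n))
  have : (algebraMap R F (u : R))⁻¹ = algebraMap R F ((u⁻¹ : Rˣ) : R) := by
    rw [eq_comm, ← mul_eq_one_iff_eq_inv₀ (by
      intro h0
      have := u.isUnit.map (algebraMap R F)
      rw [h0] at this
      exact not_isUnit_zero this), ← map_mul, Units.inv_mul, map_one]
  rw [this]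
  exact hR _

end Fermat.Agent.S18.Core.DivBridge
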