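import Mathlib
import Fermat.Agent.S18.Core.StarAbstract
import Fermat.Agent.S18.Core.Charts

/-!
# S18 leaf C3 (chart half): the assembled Čech core at the charts of a good coordinate

`Core/StarAbstract.exists_eq_mul_pow` instantiated at the charts `B0 R τ`, `B1 R τ`, `B01 R τ` of
`Core/Charts` for a good coordinate `τ` (in the application `τ` is the Hauptmodul of level 4 or
9).  What remains as hypotheses is exactly the geometric input:

* `hR`, `hκ` : the constants are algebraically closed in `F` and in its residue field;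
* `huniq`, `hfin`, `hsep` : the Gauss valuation is the only extension of its restriction to
  `L(τ)`, and `F / L(τ)` is finite separable;
* `hdiv` : the divisor of `f` is divisible by `m` (shape of `DivBridge.hdiv_of_forall_place`);
* `hloc0`, `hloc1` : `(N_n)` or `f ∈ B_n^×` at the closed points of the two charts;
* four instances (`Core/ChartsInst`).
-/

set_option autoImplicit false

namespace Fermat.Agent.S18.Core.StarCharts

open Fermat.Agent.S18.Core.CechM Fermat.Agent.S18.Core.Charts Fermat.Agent.S18.Core.StarAbstract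
open IntermediateField Polynomial

variable {R L F : Type*} [CommRing R] [IsDomain R] [IsDiscreteValuationRing R]
  [Field L] [Field F] [Algebra R L] [IsFractionRing R L] [Algebra L F] [Algebra R F]
  [IsScalarTower R L F]

/-- `R[s]` computed over `R` lies in `R[s]` computed over the image of `R` in `F`. -/
theorem adjoin_le_adjoin_range (s : F) {a : F} (ha : a ∈ Algebra.adjoin R {s}) :
    a ∈ Algebra.adjoin (algebraMap R F).range {s} := by
  induction ha using Algebra.adjoin_induction with
  | mem x hx => exact Algebra.subset_adjoin hx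
  | algebraMap r =>
    exact Subalgebra.algebraMap_mem _ (⟨algebraMap R F r, ⟨r, rfl⟩⟩ : (algebraMap R F).range)
  | add x y _ _ hx hy => exact add_mem hx hy
  | mul x y _ _ hx hy => exact mul_mem hx hy

theorem span_adjoin_le_span_adjoin_range (s : F) (S : Set F) {x : F}
    (hx : x ∈ Submodule.span (Algebra.adjoin R {s}) S) :
    x ∈ Submodule.span (Algebra.adjoin (algebraMap R F).range {s}) S := by
  induction hx using Submodule.span_induction with
  | mem y hy => exact Submodule.subset_span hy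
  | zero => exact Submodule.zero_mem _
  | add y z _ _ hy hz => exact Submodule.add_mem _ hy hz
  | smul a y _ hy =>
    have h1 := Submodule.smul_mem _
      (⟨(a : F), adjoin_le_adjoin_range s a.2⟩ : Algebra.adjoin (algebraMap R F).range {s}) hy
    exact h1

/-- an element of `R` which is a unit of `O` is a unit of `R`. -/
theorem inv_mem_range_of_valuation_eq_one {π : R} {O : ValuationSubring F} {τ : F}
    (h : GoodCoord π O τ) {α : F} (hα : α ∈ (algebraMap R F).range)
    (hv : O.valuation α = 1) : α⁻¹ ∈ (algebraMap R F).range := by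
  obtain ⟨r, rfl⟩ := hα
  have hunit : IsUnit r := by
    by_contra hnu
    have hmem : r ∈ IsLocalRing.maximalIdeal R := (IsLocalRing.mem_maximalIdeal r).mpr hnu
    rw [(IsDiscreteValuationRing.irreducible_iff_uniformizer π).mp h.irreducible,
      Ideal.mem_span_singleton] at hmem
    obtain ⟨a, rfl⟩ := hmem
    have h1 : O.valuation (algebraMap R F (π * a)) < 1 := by
      rw [map_mul]
      exact h.lt_one_iff.mpr ⟨_, h.algebraMap_mem a, rfl⟩
    rw [hv] at h1
    exact lt_irrefl _ h1
  obtain ⟨u, rfl⟩ := hunit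
  refine ⟨↑u⁻¹, ?_⟩
  have h1 : algebraMap R F ↑u * algebraMap R F ↑u⁻¹ = 1 := by
    rw [← map_mul, Units.mul_inv, map_one]
  exact (eq_inv_of_mul_eq_one_right h1)

/-- **C3 at the charts of a good coordinate.** -/
theorem exists_eq_mul_pow {π : R} {O : ValuationSubring F} {τ : F}
    (h : GoodCoord π O τ) (K : IntermediateField L F) (hK : K = L⟮τ⟯)
    (hfin : FiniteDimensional K F) (hsep : Algebra.IsSeparable K F)
    (huniq : ∀ O'' : ValuationSubring F,
      O''.comap (algebraMap K F) = O.comap (algebraMap K F) → O'' = O)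
    (hR : ∀ x : F, IsIntegral R x → ∃ r : R, algebraMap R F r = x)
    (hκ : ∀ y ∈ O, ∀ p : R[X], p.Monic → O.valuation (aeval y p) < 1 →
      ∃ r : R, O.valuation (y - algebraMap R F r) < 1)
    [IsNoetherianRing (B0 R τ)] [IsNoetherianRing (B1 R τ)]
    [IsFractionRing (B0 R τ) F] [IsFractionRing (B1 R τ) F]
    {m : ℕ} (hm : IsUnit (m : R))
    {f : F} (hf : O.valuation (f - 1) < 1)
    (hdiv : ∀ W : ValuationSubring F, (∀ r : R, algebraMap R F r ∈ W) →
      (algebraMap R F π)⁻¹ ∈ W → W ≠ ⊤ → IsPrincipalIdealRing W →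
      ∃ u : F, W.valuation (f * u ^ m) = 1)
    (hloc0 : LocalOK (B0 R τ) ⟨algebraMap R F π, algebraMap_mem_B0 π⟩ f)
    (hloc1 : LocalOK (B1 R τ) ⟨algebraMap R F π, algebraMap_mem_B0 π⟩ f) :
    ∃ c : R, c ≠ 0 ∧ ∃ w : F, w ≠ 0 ∧ f = algebraMap R F c * w ^ m := by
  classical
  have halg : Algebra.IsAlgebraic K F := Algebra.IsAlgebraic.of_finite K F
  have hinj := algebraMap_injective' R L F
  haveI : IsNoetherianRing (algebraMap R F).range :=
    isNoetherianRing_of_surjective R _ (algebraMap R F).rangeRestrict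
      (algebraMap R F).rangeRestrict_surjective
  have hm0R : (m : R) ≠ 0 := hm.ne_zero
  have hm0 : (m : F) ≠ 0 := by
    have : algebraMap R F (m : R) ≠ 0 := by
      rw [Ne, map_eq_zero_iff _ hinj]
      exact hm0R
    rwa [map_natCast] at this
  have hmpos : 0 < m := by
    rcases Nat.eq_zero_or_pos m with rfl | hpos
    · simp at hm0
    · exact hpos
  have hmR : ((m : F))⁻¹ ∈ (algebraMap R F).range := by
    obtain ⟨u, hu⟩ := hm
    refine ⟨↑u⁻¹, ?_⟩
    have h1 : algebraMap R F ↑u * algebraMap R F ↑u⁻¹ = 1 := by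
      rw [← map_mul, Units.mul_inv, map_one]
    rw [eq_inv_of_mul_eq_one_right h1, hu, map_natCast]
  obtain ⟨T0, -, hT0⟩ := exists_finset_span_B0 h K hK hfin hsep
  have hfin0 : ∀ x ∈ B0 R τ,
      x ∈ Submodule.span (Algebra.adjoin (algebraMap R F).range {τ⁻¹⁻¹}) (T0 : Set F) := by
    intro x hx
    rw [inv_inv]
    exact span_adjoin_le_span_adjoin_range τ _ (hT0 x hx)
  obtain ⟨c, hcR, hc0, w, hw0, hfw⟩ := StarAbstract.exists_eq_mul_pow
    (algebraMap R F).range (B0 R τ) (B1 R τ) (B01 R τ) O
    (π := algebraMap R F π) (t := τ⁻¹) (f := f) (m := m)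
    (by rintro _ ⟨r, rfl⟩; exact algebraMap_mem_B0 r)
    (by rintro _ ⟨r, rfl⟩; exact algebraMap_mem_B0 r)
    B0_le_B01 B1_le_B01 (fun x hx => B01_le h hx)
    ⟨π, rfl⟩ (h.pi_ne_zero L) h.pi_lt h.exists_eq_mul
    (fun α hα hv => inv_mem_range_of_valuation_eq_one h hα hv)
    hmR hm0
    (fun x hxO hx => sat_B0 h K hK halg huniq hxO hx)
    (fun x hxO hx => sat_B1 h K hK halg huniq hxO hx)
    (fun x hxO hx => sat_B01 h K hK halg huniq hxO hx)
    (rootClosed_B0 hmpos) (rootClosed_B1 hmpos) (rootClosed_B01 hmpos)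
    (fun x0 hx0 x1 hx1 hlt => by
      obtain ⟨r, y, hy, hry⟩ := conn h K hK halg huniq hκ hx0 hx1 hlt
      exact ⟨algebraMap R F r, ⟨r, rfl⟩, h.lt_one_iff.mpr ⟨y, B0_le h hy, hry⟩⟩)
    (fun x hx0 hx1 => by
      obtain ⟨r, hr⟩ := cap hR hx0 hx1
      exact ⟨r, hr⟩)
    (inv_ne_zero h.tau_ne_zero) tau_inv_mem_B1 (by rw [inv_inv]; exact tau_mem_B0)
    T0 hfin0
    (fun x hx => by
      rw [inv_inv]
      exact exists_pow_mul_mem_B0 h.tau_ne_zero hx)
    (fun x hx => exists_pow_mul_mem_B1 h.tau_ne_zero hx)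
    hf
    (fun W hW hπW hne hpid => hdiv W (fun r => hW _ ⟨r, rfl⟩) hπW hne hpid)
    hloc0 hloc1
  obtain ⟨c', rfl⟩ := hcR
  refine ⟨c', ?_, w, hw0, hfw⟩
  rintro rfl
  exact hc0 (map_zero _)

end Fermat.Agent.S18.Core.StarCharts
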