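import Mathlib
import Fermat.Agent.S18.Core.StarCharts
import Fermat.Agent.S18.Core.DivBridge

/-!
# S18 leaf C4 (abstract half): the top glue `x₁ = c · wᵐ · x₂` from `hstar`, and `hstar` at charts

* `exists_eq_mul_pow_mul_of_hstar` : abstract core of (T1) (`Final/StarDVR.star_of_bundle`):
  `O ⊆ F` a valuation subring, `ρ : O →+* E` with kernel `{v < 1}`, `x₁, x₂ ∈ O` with nonzero
  reductions, `ρ x₁ = ρ c̃ · (ρ g̃)ᵐ · ρ x₂` for a constant `c̃ ∈ L` and `g̃ ∈ O`,
  `m ∣ ord_P x₁ - ord_P x₂` at every place of `F / L`, and `hstar` (every `f` with `v (f - 1) < 1`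
  and divisor divisible by `m` is `c · wᵐ`)  ⟹  `x₁ = c · wᵐ · x₂`.
* `hstar_of_charts` : (T2) `hstar` from `Core/StarCharts.exists_eq_mul_pow` + `Core/DivBridge`.
* `ord_algebraMap`, `ord_pow` : Prelude `Place` helpers.
-/

set_option autoImplicit false

namespace Fermat.Agent.S18.Core.StarTop

open Fermat.Agent.S18.Core.CechM Fermat.Agent.S18.Core.Charts Fermat.Agent.S18.Core.StarAbstract
open IntermediateField Polynomial AlgebraicCurve

section Place

variable {L F : Type*} [Field L] [Field F] [Algebra L F]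

/-- nonzero constants have order `0` at every place. -/
theorem ord_algebraMap (P : Place L F) {a : L} (ha : a ≠ 0) : P.ord (algebraMap L F a) = 0 := by
  have h1 : algebraMap L F a ∈ P.toValuationSubring := P.algebraMap_mem' a
  have h2 : algebraMap L F a⁻¹ ∈ P.toValuationSubring := P.algebraMap_mem' a⁻¹
  have hmul : algebraMap L F a * algebraMap L F a⁻¹ = 1 := by
    rw [← map_mul, mul_inv_cancel₀ ha, map_one]
  let u : (P.toValuationSubring)ˣ :=
    ⟨⟨_, h1⟩, ⟨_, h2⟩, Subtype.ext hmul, Subtype.ext (by rw [mul_comm] at hmul; exact hmul)⟩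
  exact P.ord_coe_unit u

/-- `ord` of a natural power. -/
theorem ord_pow (P : Place L F) (f : F) (n : ℕ) : P.ord (f ^ n) = n * P.ord f := by
  have := P.ord_zpow f n
  rwa [zpow_natCast] at this

end Place

section Core

variable {L F : Type*} [Field L] [Field F] [Algebra L F]

/-- **Abstract core of (T1).** `O` a valuation subring of `F ⊇ L`, `ρ : O →+* E` with kernel
`{v < 1}`; `x₁, x₂ ∈ O` with nonzero reductions, `ct ∈ L` a nonzero constant in `O` and `gt ∈ O`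
with `ρ x₁ = ρ ct · (ρ gt)ᵐ · ρ x₂`; `m ∣ ord_P x₁ - ord_P x₂` at all places.  If every `f` with
`v (f - 1) < 1` and divisor divisible by `m` is `c · wᵐ` (`hstar`), then
`x₁ = (c · ct) · (w · gt)ᵐ · x₂`. -/
theorem exists_eq_mul_pow_mul_of_hstar (O : ValuationSubring F) {m : ℕ} (hm : 0 < m)
    {E : Type*} [CommRing E] (ρ : O →+* E)
    (hρ : ∀ x : O, ρ x = 0 ↔ O.valuation (x : F) < 1)
    {x₁ x₂ : F} (hx₁ : x₁ ∈ O) (hx₂ : x₂ ∈ O)
    (hx₁0 : ρ ⟨x₁, hx₁⟩ ≠ 0) (hx₂0 : ρ ⟨x₂, hx₂⟩ ≠ 0)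
    {ct : L} (hctO : algebraMap L F ct ∈ O) {gt : F} (hgt : gt ∈ O)
    (hres : ρ ⟨x₁, hx₁⟩ = ρ ⟨algebraMap L F ct, hctO⟩ * ρ ⟨gt, hgt⟩ ^ m * ρ ⟨x₂, hx₂⟩)
    (hdiv : ∀ P : Place L F, (m : ℤ) ∣ P.ord x₁ - P.ord x₂)
    (hstar : ∀ f : F, O.valuation (f - 1) < 1 → (∀ P : Place L F, (m : ℤ) ∣ P.ord f) →
      ∃ (c : L) (w : F), f = algebraMap L F c * w ^ m) :
    ∃ (c : L) (w : F), c ≠ 0 ∧ w ≠ 0 ∧ x₁ = algebraMap L F c * w ^ m * x₂ := by
  classical
  have hval1 : ∀ {x : F} (hx : x ∈ O), ρ ⟨x, hx⟩ ≠ 0 → O.valuation x = 1 := by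
    intro x hx hne
    have hle : O.valuation x ≤ 1 := (O.valuation_le_one_iff x).2 hx
    rcases lt_or_eq_of_le hle with hlt | heq
    · exact absurd ((hρ ⟨x, hx⟩).2 hlt) hne
    · exact heq
  have hx₁v : O.valuation x₁ = 1 := hval1 hx₁ hx₁0
  have hx₂v : O.valuation x₂ = 1 := hval1 hx₂ hx₂0
  have hgt0 : ρ ⟨gt, hgt⟩ ≠ 0 := by
    intro h0
    apply hx₁0
    rw [hres, h0, zero_pow hm.ne', mul_zero, zero_mul]
  have hct0' : ρ ⟨algebraMap L F ct, hctO⟩ ≠ 0 := by
    intro h0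
    apply hx₁0
    rw [hres, h0, zero_mul, zero_mul]
  have hgtv : O.valuation gt = 1 := hval1 hgt hgt0
  have hctv : O.valuation (algebraMap L F ct) = 1 := hval1 hctO hct0'
  have hx₂ne : x₂ ≠ 0 := by
    rintro rfl
    simp at hx₂v
  have hx₁ne : x₁ ≠ 0 := by
    rintro rfl
    simp at hx₁v
  have hgtne : gt ≠ 0 := by
    rintro rfl
    simp at hgtv
  have hctne : algebraMap L F ct ≠ 0 := by
    intro h0
    rw [h0] at hctv
    simp at hctv
  have hct0 : ct ≠ 0 := by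
    rintro rfl
    exact hctne (map_zero _)
  set d : F := algebraMap L F ct * gt ^ m * x₂ with hd
  have hdne : d ≠ 0 := mul_ne_zero (mul_ne_zero hctne (pow_ne_zero _ hgtne)) hx₂ne
  have hdv : O.valuation d = 1 := by
    rw [hd, map_mul, map_mul, map_pow, hctv, hgtv, hx₂v, one_pow, one_mul, one_mul]
  have hdO : d ∈ O := (O.valuation_le_one_iff _).1 hdv.le
  set f : F := x₁ / d with hf
  have hfv : O.valuation (f - 1) < 1 := by
    have h1 : f - 1 = (x₁ - d) / d := by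
      rw [hf]; field_simp
    have h2 : ρ ⟨x₁ - d, O.sub_mem hx₁ hdO⟩ = 0 := by
      have e1 : (⟨x₁ - d, O.sub_mem hx₁ hdO⟩ : O) = ⟨x₁, hx₁⟩ -
          ⟨algebraMap L F ct, hctO⟩ * ⟨gt, hgt⟩ ^ m * ⟨x₂, hx₂⟩ := by
        apply Subtype.ext
        simp [hd]
      rw [e1, map_sub, map_mul, map_mul, map_pow, hres, sub_self]
    have h3 : O.valuation (x₁ - d) < 1 := (hρ _).1 h2
    rw [h1, map_div₀, hdv, div_one]
    exact h3
  have hfne : f ≠ 0 := div_ne_zero hx₁ne hdne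
  have hdivf : ∀ P : Place L F, (m : ℤ) ∣ P.ord f := by
    intro P
    have e1 : P.ord f = P.ord x₁ - P.ord x₂ - m * P.ord gt := by
      rw [hf, div_eq_mul_inv, P.ord_mul hx₁ne (inv_ne_zero hdne), P.ord_inv, hd,
        P.ord_mul (mul_ne_zero hctne (pow_ne_zero _ hgtne)) hx₂ne,
        P.ord_mul hctne (pow_ne_zero _ hgtne), ord_pow, ord_algebraMap P hct0]
      ring
    rw [e1]
    exact dvd_sub (hdiv P) (dvd_mul_right _ _)
  obtain ⟨c, w, hfw⟩ := hstar f hfv hdivf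
  have hc0 : c ≠ 0 := by
    rintro rfl
    rw [map_zero, zero_mul] at hfw
    exact hfne hfw
  have hw0 : w ≠ 0 := by
    rintro rfl
    rw [zero_pow hm.ne', mul_zero] at hfw
    exact hfne hfw
  refine ⟨c * ct, w * gt, mul_ne_zero hc0 hct0, mul_ne_zero hw0 hgtne, ?_⟩
  have : x₁ = f * d := by rw [hf]; field_simp
  rw [this, hfw, hd, map_mul, mul_pow]
  ring

end Core

section Charts

variable {R L F : Type*} [CommRing R] [IsDomain R] [IsDiscreteValuationRing R]
  [Field L] [Field F] [Algebra R L] [IsFractionRing R L] [Algebra L F] [Algebra R F]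
  [IsScalarTower R L F]

/-- **(T2)** the `hstar` producer at the charts of a good coordinate: every `f` with
`v (f - 1) < 1` whose divisor is divisible by `m` is `c · wᵐ` with `c ∈ R`. -/
theorem hstar_of_charts {π : R} {O : ValuationSubring F} {τ : F}
    (h : GoodCoord π O τ) (K : IntermediateField L F) (hK : K = L⟮τ⟯)
    (hfin : FiniteDimensional K F) (hsep : Algebra.IsSeparable K F)
    (huniq : ∀ O'' : ValuationSubring F,
      O''.comap (algebraMap K F) = O.comap (algebraMap K F) → O'' = O)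
    (hR : ∀ x : F, IsIntegral R x → ∃ r : R, algebraMap R F r = x)
    (hκ : ∀ y ∈ O, ∀ p : R[X], p.Monic → O.valuation (aeval y p) < 1 →
      ∃ r : R, O.valuation (y - algebraMap R F r) < 1)
    [IsNoetherianRing (B0 R τ)] [IsNoetherianRing (B1 R τ)]
    [IsFractionRing (B0 R τ) F] [IsFractionRing (B1 R τ) F]
    {m : ℕ} (hm : IsUnit (m : R))
    (hloc0 : ∀ f : F, LocalOK (B0 R τ) ⟨algebraMap R F π, algebraMap_mem_B0 π⟩ f)
    (hloc1 : ∀ f : F, LocalOK (B1 R τ) ⟨algebraMap R F π, algebraMap_mem_B0 π⟩ f)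
    (f : F) (hf : O.valuation (f - 1) < 1) (hdiv : ∀ P : Place L F, (m : ℤ) ∣ P.ord f) :
    ∃ (c : L) (w : F), f = algebraMap L F c * w ^ m := by
  have hf0 : f ≠ 0 := by
    rintro rfl
    rw [zero_sub, Valuation.map_neg, Valuation.map_one] at hf
    exact lt_irrefl _ hf
  obtain ⟨c, -, w, -, hfw⟩ := StarCharts.exists_eq_mul_pow h K hK hfin hsep huniq hR hκ hm hf
    (fun W hW hπW hne hpid => DivBridge.hdiv_of_forall_place hf0 hdiv W
      (fun a => DivBridge.algebraMap_mem_of_inv_mem h.irreducible W hW hπW a) hne hpid)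
    (hloc0 f) (hloc1 f)
  exact ⟨algebraMap R L c, w, by rw [← IsScalarTower.algebraMap_apply]; exact hfw⟩

end Charts

end Fermat.Agent.S18.Core.StarTop
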