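import Mathlib

/-!
# S18, block C0: the abstract two-chart Čech core (pure algebra)

`F` a field, subrings `R ≤ B0, B1 ≤ B01` of `F`, `ϖ ∈ R` with `ϖ⁻¹ ∉ B01`.
Under the hypotheses (cap), (sat), (conn), (m), (s), (s1), (pow), (tor) listed in the
main theorem `exists_section`, there is `y ∈ B0`, `y ≠ 0`, with `s * y ∈ B1`.
-/

namespace Fermat.Agent.S18.Core.Abstract

variable {F : Type*} [Field F]

/-- `x ≡ y` modulo `ϖ ^ n • X`. -/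
def CongMod (X : Subring F) (ϖ : F) (n : ℕ) (x y : F) : Prop :=
  ∃ z ∈ X, x - y = ϖ ^ n * z

/-- `a ∈ X` is a unit of `X` modulo `ϖ`. -/
def UnitMod (X : Subring F) (ϖ : F) (a : F) : Prop :=
  a ∈ X ∧ ∃ a' ∈ X, CongMod X ϖ 1 (a * a') 1

section basics

variable {X Y : Subring F} {ϖ : F} {n k : ℕ} {x y z w : F}

theorem CongMod.refl (X : Subring F) (ϖ : F) (n : ℕ) (x : F) : CongMod X ϖ n x x :=
  ⟨0, X.zero_mem, by simp⟩

theorem CongMod.symm (h : CongMod X ϖ n x y) : CongMod X ϖ n y x := by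
  obtain ⟨z, hz, e⟩ := h
  exact ⟨-z, X.neg_mem hz, by rw [mul_neg, ← e]; ring⟩

theorem CongMod.trans (h₁ : CongMod X ϖ n x y) (h₂ : CongMod X ϖ n y z) : CongMod X ϖ n x z := by
  obtain ⟨a, ha, ea⟩ := h₁
  obtain ⟨b, hb, eb⟩ := h₂
  exact ⟨a + b, X.add_mem ha hb, by rw [mul_add, ← ea, ← eb]; ring⟩

theorem CongMod.mono (hXY : X ≤ Y) (h : CongMod X ϖ n x y) : CongMod Y ϖ n x y := by
  obtain ⟨a, ha, ea⟩ := h
  exact ⟨a, hXY ha, ea⟩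

theorem CongMod.of_le (hϖ : ϖ ∈ X) (hk : k ≤ n) (h : CongMod X ϖ n x y) : CongMod X ϖ k x y := by
  obtain ⟨a, ha, ea⟩ := h
  refine ⟨ϖ ^ (n - k) * a, X.mul_mem (X.pow_mem hϖ _) ha, ?_⟩
  rw [ea, ← mul_assoc, ← pow_add, Nat.add_sub_cancel' hk]

theorem CongMod.add (h₁ : CongMod X ϖ n x y) (h₂ : CongMod X ϖ n z w) :
    CongMod X ϖ n (x + z) (y + w) := by
  obtain ⟨a, ha, ea⟩ := h₁
  obtain ⟨b, hb, eb⟩ := h₂
  exact ⟨a + b, X.add_mem ha hb, by rw [mul_add, ← ea, ← eb]; ring⟩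

theorem CongMod.sub (h₁ : CongMod X ϖ n x y) (h₂ : CongMod X ϖ n z w) :
    CongMod X ϖ n (x - z) (y - w) := by
  obtain ⟨a, ha, ea⟩ := h₁
  obtain ⟨b, hb, eb⟩ := h₂
  exact ⟨a - b, X.sub_mem ha hb, by rw [mul_sub, ← ea, ← eb]; ring⟩

theorem CongMod.mul_left (hw : w ∈ X) (h : CongMod X ϖ n x y) : CongMod X ϖ n (w * x) (w * y) := by
  obtain ⟨a, ha, ea⟩ := h
  exact ⟨w * a, X.mul_mem hw ha, by rw [← mul_sub, ea]; ring⟩

theorem CongMod.mul_right (hw : w ∈ X) (h : CongMod X ϖ n x y) : CongMod X ϖ n (x * w) (y * w) := by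
  rw [mul_comm x, mul_comm y]; exact h.mul_left hw

theorem CongMod.mul (hy : y ∈ X) (hz : z ∈ X) (h₁ : CongMod X ϖ n x y) (h₂ : CongMod X ϖ n z w) :
    CongMod X ϖ n (x * z) (y * w) :=
  (h₁.mul_right hz).trans (h₂.mul_left hy)

theorem CongMod.pow (hx : x ∈ X) (hy : y ∈ X) (h : CongMod X ϖ n x y) (j : ℕ) :
    CongMod X ϖ n (x ^ j) (y ^ j) := by
  induction j with
  | zero => simpa using CongMod.refl X ϖ n 1
  | succ j ih =>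
    rw [pow_succ, pow_succ]
    exact CongMod.mul (X.pow_mem hy j) hx ih h

/-- multiplying a congruence mod `ϖ^n` by `ϖ^k`. -/
theorem CongMod.pow_mul (h : CongMod X ϖ n x y) (k : ℕ) :
    CongMod X ϖ (k + n) (ϖ ^ k * x) (ϖ ^ k * y) := by
  obtain ⟨a, ha, ea⟩ := h
  exact ⟨a, ha, by rw [← mul_sub, ea, pow_add]; ring⟩

theorem UnitMod.mem (h : UnitMod X ϖ x) : x ∈ X := h.1

theorem unitMod_one (X : Subring F) (ϖ : F) : UnitMod X ϖ 1 :=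
  ⟨X.one_mem, 1, X.one_mem, by simpa using CongMod.refl X ϖ 1 1⟩

theorem UnitMod.mono (hXY : X ≤ Y) (h : UnitMod X ϖ x) : UnitMod Y ϖ x := by
  obtain ⟨hx, a, ha, e⟩ := h
  exact ⟨hXY hx, a, hXY ha, e.mono hXY⟩

theorem UnitMod.mul (hx : UnitMod X ϖ x) (hy : UnitMod X ϖ y) : UnitMod X ϖ (x * y) := by
  obtain ⟨hx, a, ha, ea⟩ := hx
  obtain ⟨hy, b, hb, eb⟩ := hy
  refine ⟨X.mul_mem hx hy, a * b, X.mul_mem ha hb, ?_⟩
  have h1 : CongMod X ϖ 1 ((x * a) * (y * b)) (1 * 1) :=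
    CongMod.mul X.one_mem (X.mul_mem hy hb) ea eb
  have e : x * y * (a * b) = (x * a) * (y * b) := by ring
  rw [e]; simpa using h1

theorem UnitMod.pow (hx : UnitMod X ϖ x) (j : ℕ) : UnitMod X ϖ (x ^ j) := by
  induction j with
  | zero => simpa using unitMod_one X ϖ
  | succ j ih => rw [pow_succ]; exact ih.mul hx

/-- a unit mod `ϖ` congruent to ... stays a unit mod `ϖ`. -/
theorem UnitMod.of_congMod (hϖ : ϖ ∈ X) (hx : UnitMod X ϖ x) (hy : y ∈ X) (hn : 1 ≤ n)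
    (h : CongMod X ϖ n y x) : UnitMod X ϖ y := by
  obtain ⟨hx', a, ha, ea⟩ := hx
  refine ⟨hy, a, ha, ?_⟩
  exact ((h.of_le hϖ hn).mul_right ha).trans ea

/-- Units mod `ϖ` are units mod `ϖ ^ n`. -/
theorem UnitMod.exists_inv (hϖ : ϖ ∈ X) (hx : UnitMod X ϖ x) (n : ℕ) :
    ∃ a ∈ X, CongMod X ϖ n (x * a) 1 := by
  obtain ⟨hx', a, ha, y, hy, e⟩ := hx
  -- x * a = 1 + ϖ y ; put t = -(ϖ y); (1 - t) * ∑_{i<n} t^i = 1 - t^n
  set t : F := -(ϖ * y) with ht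
  have htX : t ∈ X := X.neg_mem (X.mul_mem hϖ hy)
  refine ⟨a * ∑ i ∈ Finset.range n, t ^ i,
    X.mul_mem ha (X.sum_mem fun i _ => X.pow_mem htX i), ?_⟩
  have hxa : x * a = 1 - t := by
    rw [ht, pow_one] at *
    linear_combination e
  have hg : (1 - t) * ∑ i ∈ Finset.range n, t ^ i = 1 - t ^ n := by
    have := mul_neg_geom_sum t n
    rw [← this]
  refine ⟨-((-y) ^ n), X.neg_mem (X.pow_mem (X.neg_mem hy) n), ?_⟩
  rw [← mul_assoc, hxa, hg, ht]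
  have : (-(ϖ * y)) ^ n = ϖ ^ n * (-y) ^ n := by
    rw [← mul_pow]; congr 1; ring
  rw [this]; ring

end basics


section core

variable (R B0 B1 B01 : Subring F) (ϖ : F)

/-- The standing hypotheses on the charts. -/
structure ChartHyp : Prop where
  R_le0 : R ≤ B0
  R_le1 : R ≤ B1
  le0 : B0 ≤ B01
  le1 : B1 ≤ B01
  ϖ_mem : ϖ ∈ R
  ϖ_inv : ϖ⁻¹ ∉ B01
  cap : ∀ x, x ∈ B0 → x ∈ B1 → x ∈ R
  sat0 : ∀ x ∈ B01, ϖ * x ∈ B0 → x ∈ B0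
  sat1 : ∀ x ∈ B01, ϖ * x ∈ B1 → x ∈ B1
  conn : ∀ x0 ∈ B0, ∀ x1 ∈ B1, CongMod B01 ϖ 1 x0 x1 → ∃ r ∈ R, CongMod B0 ϖ 1 x0 r

variable {R B0 B1 B01 ϖ}

namespace ChartHyp

variable (H : ChartHyp R B0 B1 B01 ϖ)
include H

theorem ϖ_ne_zero : ϖ ≠ 0 := by
  rintro rfl
  exact H.ϖ_inv (by simp)

theorem ϖ_mem0 : ϖ ∈ B0 := H.R_le0 H.ϖ_mem
theorem ϖ_mem1 : ϖ ∈ B1 := H.R_le1 H.ϖ_mem
theorem ϖ_mem01 : ϖ ∈ B01 := H.le0 H.ϖ_mem0

theorem sat0_pow (n : ℕ) : ∀ x ∈ B01, ϖ ^ n * x ∈ B0 → x ∈ B0 := by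
  induction n with
  | zero => intro x _ h; simpa using h
  | succ n ih =>
    intro x hx h
    apply H.sat0 x hx
    apply ih (ϖ * x) (B01.mul_mem H.ϖ_mem01 hx)
    rw [← mul_assoc, ← pow_succ]; exact h

theorem sat1_pow (n : ℕ) : ∀ x ∈ B01, ϖ ^ n * x ∈ B1 → x ∈ B1 := by
  induction n with
  | zero => intro x _ h; simpa using h
  | succ n ih =>
    intro x hx h
    apply H.sat1 x hx
    apply ih (ϖ * x) (B01.mul_mem H.ϖ_mem01 hx)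
    rw [← mul_assoc, ← pow_succ]; exact h

/-- `R ∩ ϖ^n B01 = ϖ^n R`. -/
theorem satR_pow (n : ℕ) (x : F) (hx : x ∈ B01) (h : ϖ ^ n * x ∈ R) : x ∈ R :=
  H.cap x (H.sat0_pow n x hx (H.R_le0 h)) (H.sat1_pow n x hx (H.R_le1 h))

/-- `H⁰` of the `n`-th thickening is `R/ϖ^n`. -/
theorem h0 (n : ℕ) : ∀ x0 ∈ B0, ∀ x1 ∈ B1, CongMod B01 ϖ n x0 x1 →
    ∃ r ∈ R, CongMod B0 ϖ n x0 r ∧ CongMod B1 ϖ n x1 r := by
  induction n with
  | zero =>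
    intro x0 h0 x1 h1 _
    exact ⟨0, R.zero_mem, ⟨x0, h0, by simp⟩, ⟨x1, h1, by simp⟩⟩
  | succ n ih =>
    intro x0 h0 x1 h1 h
    obtain ⟨r, hr, ⟨y0, hy0, e0⟩, ⟨y1, hy1, e1⟩⟩ :=
      ih x0 h0 x1 h1 (h.of_le H.ϖ_mem01 (Nat.le_succ n))
    obtain ⟨y, hy, e⟩ := h
    have hpow : ϖ ^ n ≠ 0 := pow_ne_zero n H.ϖ_ne_zero
    -- y0 - y1 = ϖ y
    have e01 : y0 - y1 = ϖ ^ 1 * y := by
      apply mul_left_cancel₀ hpow
      rw [pow_one, ← mul_assoc, ← pow_succ, ← e, mul_sub, ← e0, ← e1]; ring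
    obtain ⟨r', hr', y0', hy0', e0'⟩ := H.conn y0 hy0 y1 hy1 ⟨y, hy, e01⟩
    rw [pow_one] at e0' e01
    refine ⟨r + ϖ ^ n * r', R.add_mem hr (R.mul_mem (R.pow_mem H.ϖ_mem n) hr'),
      ⟨y0', hy0', ?_⟩, ⟨y0' - y, ?_, ?_⟩⟩
    · rw [pow_succ, mul_assoc, ← e0', mul_sub, ← e0]; ring
    · apply H.sat1 (y0' - y) (B01.sub_mem (H.le0 hy0') hy)
      have : ϖ * (y0' - y) = y1 - r' := by
        rw [mul_sub, ← e0', ← e01]; ring
      rw [this]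
      exact B1.sub_mem hy1 (H.R_le1 hr')
    · have : ϖ * (y0' - y) = y1 - r' := by
        rw [mul_sub, ← e0', ← e01]; ring
      rw [pow_succ, mul_assoc, this, mul_sub, ← e1]; ring


/-- `(1 + ϖ^n X)^m ≡ 1 + ϖ^n (m X)` mod `ϖ^(n+1)`, for `n ≥ 1`. -/
theorem one_add_pow {X : F} (hX : X ∈ B01) {n : ℕ} (hn : 1 ≤ n) (m : ℕ) :
    CongMod B01 ϖ (n + 1) ((1 + ϖ ^ n * X) ^ m) (1 + ϖ ^ n * ((m : F) * X)) := by
  induction m with
  | zero => simpa using CongMod.refl B01 ϖ (n + 1) 1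
  | succ m ih =>
    have hϖ := H.ϖ_mem01
    have h1 : (1 + ϖ ^ n * X) ∈ B01 :=
      B01.add_mem B01.one_mem (B01.mul_mem (B01.pow_mem hϖ n) hX)
    have h2 := ih.mul_right h1
    rw [← pow_succ] at h2
    refine h2.trans ?_
    refine ⟨ϖ ^ (n - 1) * ((m : F) * X * X), ?_, ?_⟩
    · exact B01.mul_mem (B01.pow_mem hϖ _)
        (B01.mul_mem (B01.mul_mem (natCast_mem B01 m) hX) hX)
    · have hnn : ϖ ^ (n + 1) * (ϖ ^ (n - 1) * ((m : F) * X * X))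
          = ϖ ^ n * ϖ ^ n * ((m : F) * X * X) := by
        rw [← mul_assoc, ← pow_add, ← pow_add]
        congr 2; omega
      rw [hnn]; push_cast; ring

/-- Key lemma: first-order splitting. -/
theorem key {n : ℕ} (hn : 1 ≤ n) {c0 c1 Y : F} (hc0 : UnitMod B0 ϖ c0) (hc1 : UnitMod B1 ϖ c1)
    (hY : Y ∈ B01) (h : CongMod B01 ϖ (n + 1) (c0 * c1) (1 + ϖ ^ n * Y)) :
    ∃ g0 ∈ B0, ∃ g1 ∈ B1, CongMod B01 ϖ 1 Y (g0 + g1) := by
  have hϖ := H.ϖ_mem01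
  have hc0m := H.le0 hc0.1
  have hc1m := H.le1 hc1.1
  -- inverse of c0 mod ϖ^(n+1)
  obtain ⟨d0, hd0, hd0c⟩ := hc0.exists_inv H.ϖ_mem0 (n + 1)
  have hd0m := H.le0 hd0
  have hd0c' : CongMod B01 ϖ (n + 1) (c0 * d0) 1 := hd0c.mono H.le0
  -- c1 ≡ d0 + ϖ^n d0 Y mod ϖ^(n+1)
  have e1 : CongMod B01 ϖ (n + 1) c1 (d0 * (1 + ϖ ^ n * Y)) := by
    have a : CongMod B01 ϖ (n + 1) (c0 * d0 * c1) (1 * c1) := hd0c'.mul_right hc1m
    have b : CongMod B01 ϖ (n + 1) (d0 * (c0 * c1)) (d0 * (1 + ϖ ^ n * Y)) := h.mul_left hd0m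
    have e : c0 * d0 * c1 = d0 * (c0 * c1) := by ring
    rw [e, one_mul] at a
    exact a.symm.trans b
  -- d0 ≡ c1 mod ϖ^n
  have e2 : CongMod B01 ϖ n d0 c1 := by
    have a : CongMod B01 ϖ n c1 (d0 * (1 + ϖ ^ n * Y)) := e1.of_le hϖ (Nat.le_succ n)
    have b : CongMod B01 ϖ n (d0 * (1 + ϖ ^ n * Y)) d0 :=
      ⟨d0 * Y, B01.mul_mem hd0m hY, by ring⟩
    exact (a.trans b).symm
  obtain ⟨r, hr, ⟨y0, hy0, ey0⟩, ⟨y1, hy1, ey1⟩⟩ := H.h0 n d0 hd0 c1 hc1.1 e2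
  -- y1 - y0 - d0 Y ∈ ϖ B01
  obtain ⟨z, hz, ez⟩ := e1
  have hpow : ϖ ^ n ≠ 0 := pow_ne_zero n H.ϖ_ne_zero
  have e3 : y1 - y0 - d0 * Y = ϖ * z := by
    apply mul_left_cancel₀ hpow
    have : ϖ ^ n * (ϖ * z) = ϖ ^ (n + 1) * z := by rw [pow_succ]; ring
    rw [this, ← ez, mul_sub, mul_sub, ← ey0, ← ey1]; ring
  -- an inverse of c1 in B1 mod ϖ
  obtain ⟨_, d1, hd1, hd1c⟩ := hc1
  -- c0 ≡ d1 mod ϖ B01
  have hrc0 : CongMod B01 ϖ 1 (c0 * r) 1 := by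
    have a : CongMod B01 ϖ 1 d0 r := (CongMod.of_le H.ϖ_mem0 hn ⟨y0, hy0, ey0⟩).mono H.le0
    exact (a.symm.mul_left hc0m).trans (hd0c'.of_le hϖ (by omega))
  have hrd1 : CongMod B01 ϖ 1 (r * d1) 1 := by
    have a : CongMod B01 ϖ 1 c1 r := (CongMod.of_le H.ϖ_mem1 hn ⟨y1, hy1, ey1⟩).mono H.le1
    exact (a.symm.mul_right (H.le1 hd1)).trans (hd1c.mono H.le1)
  have e4 : CongMod B01 ϖ 1 c0 d1 := by
    have a : CongMod B01 ϖ 1 (c0 * (r * d1)) (c0 * 1) := hrd1.mul_left hc0m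
    have b : CongMod B01 ϖ 1 (c0 * r * d1) (1 * d1) := hrc0.mul_right (H.le1 hd1)
    rw [mul_one] at a; rw [one_mul] at b
    have e : c0 * (r * d1) = c0 * r * d1 := by ring
    rw [e] at a
    exact a.symm.trans b
  obtain ⟨r', hr', hr'0, _⟩ := H.h0 1 c0 hc0.1 d1 hd1 e4
  have hr'01 : CongMod B01 ϖ 1 c0 r' := hr'0.mono H.le0
  refine ⟨-(r' * y0), B0.neg_mem (B0.mul_mem (H.R_le0 hr') hy0),
    r' * y1, B1.mul_mem (H.R_le1 hr') hy1, ?_⟩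
  -- Y ≡ c0 d0 Y ≡ c0 (y1 - y0) ≡ r' (y1 - y0)
  have s1 : CongMod B01 ϖ 1 Y (c0 * d0 * Y) := by
    have := (hd0c'.of_le hϖ (by omega : 1 ≤ n + 1)).mul_right hY
    rw [one_mul] at this; exact this.symm
  have s2 : CongMod B01 ϖ 1 (c0 * d0 * Y) (c0 * (y1 - y0)) := by
    have : CongMod B01 ϖ 1 (d0 * Y) (y1 - y0) := by
      refine ⟨-z, B01.neg_mem hz, ?_⟩
      rw [pow_one, mul_neg, ← e3]; ring
    have := this.mul_left hc0m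
    rw [← mul_assoc] at this; exact this
  have s3 : CongMod B01 ϖ 1 (c0 * (y1 - y0)) (r' * (y1 - y0)) :=
    hr'01.mul_right (B01.sub_mem (H.le1 hy1) (H.le0 hy0))
  have e5 : r' * (y1 - y0) = -(r' * y0) + r' * y1 := by ring
  rw [← e5]
  exact (s1.trans s2).trans s3


/-- Induction: `s ≡ a0 * a1` modulo `ϖ^n B01` with `a_i` units of `B_i` modulo `ϖ`. -/
theorem approx {m : ℕ} {s μ e0 e0' e1 e1' : F} (hμ : μ ∈ R) (hμm : μ * (m : F) = 1)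
    (hs : s ∈ B01)
    (he0 : e0 ∈ B0) (he0' : e0' ∈ B0) (he1 : e1 ∈ B1) (he1' : e1' ∈ B1)
    (hee0 : e0 * e0' = 1) (hee1 : e1 * e1' = 1) (hpow : s ^ m = e0 * e1)
    {a1 : F} (ha1 : UnitMod B1 ϖ a1) (hsa : CongMod B01 ϖ 1 s a1) :
    ∀ n : ℕ, 1 ≤ n → ∃ a0 b1 : F, UnitMod B0 ϖ a0 ∧ UnitMod B1 ϖ b1 ∧
      CongMod B01 ϖ n s (a0 * b1) := by
  have hϖ := H.ϖ_mem01
  intro n hn
  induction n, hn using Nat.le_induction with
  | base => exact ⟨1, a1, unitMod_one B0 ϖ, ha1, by simpa using hsa⟩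
  | succ n hn ih =>
    obtain ⟨a0, b1, ha0, hb1, x, hx, ex⟩ := ih
    have ha0m := H.le0 ha0.1
    have hb1m := H.le1 hb1.1
    have hab : UnitMod B01 ϖ (a0 * b1) := (ha0.mono H.le0).mul (hb1.mono H.le1)
    obtain ⟨_, i01, hi01, hi01c⟩ := hab
    -- s ≡ a0 b1 (1 + ϖ^n X),  X := i01 * x
    set X : F := i01 * x with hXdef
    have hX : X ∈ B01 := B01.mul_mem hi01 hx
    have hs' : CongMod B01 ϖ (n + 1) s (a0 * b1 * (1 + ϖ ^ n * X)) := by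
      obtain ⟨z, hz, ez⟩ := hi01c
      refine ⟨-(z * x), B01.neg_mem (B01.mul_mem hz hx), ?_⟩
      rw [pow_one] at ez
      have : s = a0 * b1 + ϖ ^ n * x := by linear_combination ex
      rw [this, hXdef, pow_succ]
      linear_combination (-(ϖ ^ n) * x) * ez
    -- s^m ≡ (a0 b1)^m (1 + ϖ^n (m X))
    have hsm : CongMod B01 ϖ (n + 1) (e0 * e1) ((a0 * b1) ^ m * (1 + ϖ ^ n * ((m : F) * X))) := by
      rw [← hpow]
      have h1 : (1 + ϖ ^ n * X) ∈ B01 :=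
        B01.add_mem B01.one_mem (B01.mul_mem (B01.pow_mem hϖ n) hX)
      have habm : a0 * b1 ∈ B01 := B01.mul_mem ha0m hb1m
      have a := hs'.pow hs (B01.mul_mem habm h1) m
      rw [mul_pow] at a
      exact a.trans ((H.one_add_pow hX hn m).mul_left (B01.pow_mem habm m))
    -- inverses of a0^m, b1^m mod ϖ^(n+1)
    obtain ⟨A0, hA0, hA0c⟩ := (ha0.pow m).exists_inv H.ϖ_mem0 (n + 1)
    obtain ⟨A1, hA1, hA1c⟩ := (hb1.pow m).exists_inv H.ϖ_mem1 (n + 1)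
    have hA0m := H.le0 hA0
    have hA1m := H.le1 hA1
    have hc0 : UnitMod B0 ϖ (e0 * A0) := by
      refine ⟨B0.mul_mem he0 hA0, e0' * a0 ^ m, B0.mul_mem he0' (B0.pow_mem ha0.1 m), ?_⟩
      have := hA0c.of_le H.ϖ_mem0 (by omega : 1 ≤ n + 1)
      have e : e0 * A0 * (e0' * a0 ^ m) = (e0 * e0') * (a0 ^ m * A0) := by ring
      rw [e, hee0, one_mul]; exact this
    have hc1 : UnitMod B1 ϖ (e1 * A1) := by
      refine ⟨B1.mul_mem he1 hA1, e1' * b1 ^ m, B1.mul_mem he1' (B1.pow_mem hb1.1 m), ?_⟩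
      have := hA1c.of_le H.ϖ_mem1 (by omega : 1 ≤ n + 1)
      have e : e1 * A1 * (e1' * b1 ^ m) = (e1 * e1') * (b1 ^ m * A1) := by ring
      rw [e, hee1, one_mul]; exact this
    have hY : (m : F) * X ∈ B01 := B01.mul_mem (natCast_mem B01 m) hX
    have hcc : CongMod B01 ϖ (n + 1) (e0 * A0 * (e1 * A1)) (1 + ϖ ^ n * ((m : F) * X)) := by
      have h1 : (1 + ϖ ^ n * ((m : F) * X)) ∈ B01 :=
        B01.add_mem B01.one_mem (B01.mul_mem (B01.pow_mem hϖ n) hY)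
      have a := hsm.mul_right (B01.mul_mem hA0m hA1m)
      have b : CongMod B01 ϖ (n + 1) (a0 ^ m * A0 * (b1 ^ m * A1)) (1 * 1) :=
        CongMod.mul B01.one_mem (B01.mul_mem (B01.pow_mem hb1m m) hA1m)
          (hA0c.mono H.le0) (hA1c.mono H.le1)
      have c := b.mul_right h1
      have e1' : e0 * e1 * (A0 * A1) = e0 * A0 * (e1 * A1) := by ring
      have e2' : (a0 * b1) ^ m * (1 + ϖ ^ n * ((m : F) * X)) * (A0 * A1)
          = a0 ^ m * A0 * (b1 ^ m * A1) * (1 + ϖ ^ n * ((m : F) * X)) := by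
        rw [mul_pow]; ring
      rw [e1', e2'] at a
      rw [one_mul, one_mul] at c
      exact a.trans c
    obtain ⟨g0, hg0, g1, hg1, hg⟩ := H.key hn hc0 hc1 hY hcc
    -- X ≡ μ g0 + μ g1
    have hXg : CongMod B01 ϖ 1 X (μ * g0 + μ * g1) := by
      have := hg.mul_left (H.le0 (H.R_le0 hμ))
      have e : μ * ((m : F) * X) = X := by rw [← mul_assoc, hμm, one_mul]
      rw [e, mul_add] at this; exact this
    have hμ0 := H.R_le0 hμ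
    have hμ1 := H.R_le1 hμ
    set u0 : F := 1 + ϖ ^ n * (μ * g0) with hu0
    set u1 : F := 1 + ϖ ^ n * (μ * g1) with hu1
    have hu0m : u0 ∈ B0 :=
      B0.add_mem B0.one_mem (B0.mul_mem (B0.pow_mem H.ϖ_mem0 n) (B0.mul_mem hμ0 hg0))
    have hu1m : u1 ∈ B1 :=
      B1.add_mem B1.one_mem (B1.mul_mem (B1.pow_mem H.ϖ_mem1 n) (B1.mul_mem hμ1 hg1))
    refine ⟨a0 * u0, b1 * u1, ?_, ?_, ?_⟩
    · refine UnitMod.of_congMod H.ϖ_mem0 ha0 (B0.mul_mem ha0.1 hu0m) hn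
        ⟨a0 * (μ * g0), B0.mul_mem ha0.1 (B0.mul_mem hμ0 hg0), ?_⟩
      rw [hu0]; ring
    · refine UnitMod.of_congMod H.ϖ_mem1 hb1 (B1.mul_mem hb1.1 hu1m) hn
        ⟨b1 * (μ * g1), B1.mul_mem hb1.1 (B1.mul_mem hμ1 hg1), ?_⟩
      rw [hu1]; ring
    · refine hs'.trans ?_
      obtain ⟨z, hz, ez⟩ := hXg
      rw [pow_one] at ez
      refine ⟨a0 * b1 * (z - ϖ ^ (n - 1) * (μ * g0 * (μ * g1))), ?_, ?_⟩
      · exact B01.mul_mem (B01.mul_mem ha0m hb1m) (B01.sub_mem hz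
          (B01.mul_mem (B01.pow_mem hϖ _) (B01.mul_mem
            (B01.mul_mem (H.le0 hμ0) (H.le0 hg0)) (B01.mul_mem (H.le1 hμ1) (H.le1 hg1)))))
      · have hnn : ϖ ^ (n + 1) * ϖ ^ (n - 1) = ϖ ^ n * ϖ ^ n := by
          rw [← pow_add, ← pow_add]; congr 1; omega
        have hX' : X = μ * g0 + μ * g1 + ϖ * z := by linear_combination ez
        rw [hu0, hu1, hX', pow_succ]
        linear_combination (a0 * b1 * (μ * g0 * (μ * g1))) * hnn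

end ChartHyp

/-- **Abstract Čech core.** -/
theorem exists_section (H : ChartHyp R B0 B1 B01 ϖ) {m : ℕ} {s : F}
    (hm : ∃ μ ∈ R, μ * (m : F) = 1)
    (hs : s ∈ B01)
    (hs1 : ∃ a1, UnitMod B1 ϖ a1 ∧ CongMod B01 ϖ 1 s a1)
    (hpow : ∃ e0 ∈ B0, ∃ e0' ∈ B0, ∃ e1 ∈ B1, ∃ e1' ∈ B1,
      e0 * e0' = 1 ∧ e1 * e1' = 1 ∧ s ^ m = e0 * e1)
    (htor : ∃ c : ℕ, ∀ x ∈ B01, ∀ n : ℕ,
      (∃ b0 ∈ B0, ∃ b1 ∈ B1, ϖ ^ n * x = s * b0 + b1) →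
        ∃ b0 ∈ B0, ∃ b1 ∈ B1, ϖ ^ c * x = s * b0 + b1) :
    ∃ y ∈ B0, y ≠ 0 ∧ s * y ∈ B1 := by
  obtain ⟨μ, hμ, hμm⟩ := hm
  obtain ⟨a1, ha1, hsa⟩ := hs1
  obtain ⟨e0, he0, e0', he0', e1, he1, e1', he1', hee0, hee1, hp⟩ := hpow
  obtain ⟨c, hc⟩ := htor
  obtain ⟨a0, b1, ha0, hb1, x, hx, ex⟩ :=
    H.approx hμ hμm hs he0 he0' he1 he1' hee0 hee1 hp ha1 hsa (c + 1) (by omega)
  obtain ⟨a0'', ha0'', z, hz, ez⟩ := ha0.exists_inv H.ϖ_mem0 (c + 1)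
  -- s a0'' - b1 = ϖ^(c+1) x'
  set x' : F := b1 * z + x * a0'' with hx'
  have hx'm : x' ∈ B01 :=
    B01.add_mem (B01.mul_mem (H.le1 hb1.1) (H.le0 hz)) (B01.mul_mem hx (H.le0 ha0''))
  have e : ϖ ^ (c + 1) * x' = s * a0'' + (-b1) := by
    have hs' : s = a0 * b1 + ϖ ^ (c + 1) * x := by linear_combination ex
    have hz' : a0 * a0'' = 1 + ϖ ^ (c + 1) * z := by linear_combination ez
    rw [hx', hs']
    linear_combination (-b1) * hz'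
  obtain ⟨b0', hb0', b1', hb1', e'⟩ := hc x' hx'm (c + 1) ⟨a0'', ha0'', -b1, B1.neg_mem hb1.1, e⟩
  refine ⟨a0'' - ϖ * b0', B0.sub_mem ha0'' (B0.mul_mem H.ϖ_mem0 hb0'), ?_, ?_⟩
  · intro h0
    apply H.ϖ_inv
    have hne := H.ϖ_ne_zero
    -- a0'' = ϖ b0' ⇒ 1 = ϖ (a0 b0' - ϖ^c z)
    have h1 : a0'' = ϖ * b0' := by linear_combination h0
    have h2 : ϖ * (a0 * b0' - ϖ ^ c * z) = 1 := by
      rw [h1] at ez
      have : ϖ ^ (c + 1) = ϖ * ϖ ^ c := by rw [pow_succ]; ring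
      rw [this] at ez
      linear_combination ez
    have h3 : ϖ⁻¹ = a0 * b0' - ϖ ^ c * z := (eq_inv_of_mul_eq_one_right h2).symm
    rw [h3]
    exact B01.sub_mem (B01.mul_mem (H.le0 ha0.1) (H.le0 hb0'))
      (B01.mul_mem (B01.pow_mem H.ϖ_mem01 c) (H.le0 hz))
  · have : s * (a0'' - ϖ * b0') = b1 + ϖ * b1' := by
      have h4 : ϖ ^ (c + 1) * x' = ϖ * (ϖ ^ c * x') := by rw [pow_succ]; ring
      rw [h4, e'] at e
      linear_combination -e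
    rw [this]
    exact B1.add_mem hb1.1 (B1.mul_mem H.ϖ_mem1 hb1')

end core

end Fermat.Agent.S18.Core.Abstract
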