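/-
S18 block C, adapter (helper7): the chart data `StartSection.Chart` for `B = integralClosure P F`
from the `Purity/GlueGauss` hypotheses (`O` the unique valuation subring over `P_(l)`, `l`
generating the maximal ideal of `O`).
-/
import Mathlib
import Fermat.Agent.S18.Purity.GlueGauss
import Fermat.Agent.S18.Core.StartSection

namespace Fermat.Agent.S18.Core.StartChart

open Fermat.Agent.S18.Purity.GlueGauss Fermat.Agent.S18.Core.StartSection

variable {P K F : Type*} [CommRing P] [IsDomain P]
  [Field K] [Algebra P K] [IsFractionRing P K]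
  [Field F] [Algebra P F] [Algebra K F] [IsScalarTower P K F]

include K in
omit [IsDomain P] in
/-- `v(l) > 0` when `O` dominates `P_(l)`. -/
lemma valuation_lt_one_of_over {l : P} (hl : Prime l) {O : ValuationSubring F} (hO : Over l O) :
    O.valuation (algebraMap P F l) < 1 := by
  have hlF : algebraMap P F l ≠ 0 := algebraMap_PF_ne_zero (K := K) hl.ne_zero
  refine lt_of_le_of_ne ((O.valuation_le_one_iff _).mpr (hO.mem l)) fun h => ?_
  exact hO.inv_notMem ((valuation_eq_one_iff' O hlF).mp h).2

include K in
omit [IsDomain P] in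
/-- `v(s) = 0` for `s ∉ (l)`. -/
lemma valuation_eq_one_of_over {l : P} {O : ValuationSubring F} (hO : Over l O) {s : P}
    (hs : ¬ l ∣ s) : O.valuation (algebraMap P F s) = 1 := by
  have hs0 : s ≠ 0 := fun h => hs (h ▸ dvd_zero l)
  have hsF : algebraMap P F s ≠ 0 := algebraMap_PF_ne_zero (K := K) hs0
  exact (valuation_eq_one_iff' O hsF).mpr ⟨hO.mem s, hO.inv_mem s hs⟩

/-- **The chart `B = integralClosure P F`.** -/
theorem chart_integralClosure [IsIntegrallyClosed P] [WfDvdMonoid P] [Algebra.IsAlgebraic K F]
    {l : P} (hl : Prime l) {O : ValuationSubring F} (hO : Over l O)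
    (huniq : ∀ O' : ValuationSubring F,
      O'.comap (algebraMap K F) = O.comap (algebraMap K F) → O' = O)
    (hgen : ∀ x : F, O.valuation x < 1 → ∃ y ∈ O, x = algebraMap P F l * y)
    {m : ℕ} (hm : 0 < m) :
    Chart (integralClosure P F) F O (algebraMap P (integralClosure P F) l) m := by
  refine ⟨?_, ?_, ?_, ?_, ?_⟩
  · intro b
    exact mem_of_isIntegral hO.mem b.2
  · exact valuation_lt_one_of_over (K := K) hl hO
  · intro b hb
    obtain ⟨y, hy, hby⟩ := hgen _ hb
    have := (mem_span_iff (K := K) hl hO huniq b).mpr ⟨y, hy, hby⟩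
    exact Ideal.mem_span_singleton.mp this
  · intro x hx
    obtain ⟨s, hs, hsx⟩ := exists_smul_isIntegral (K := K) hl hO huniq hx
    refine ⟨⟨s • x, hsx⟩, algebraMap P (integralClosure P F) s, ?_, ?_⟩
    · exact valuation_eq_one_of_over (K := K) hO hs
    · change x * algebraMap P F s = s • x
      rw [Algebra.smul_def, mul_comm]
  · rintro z ⟨b, hb⟩
    have hz : IsIntegral P z := by
      apply IsIntegral.of_pow hm
      rw [← hb]
      exact b.2
    exact ⟨⟨z, hz⟩, rfl⟩

include K in
/-- `F = Frac B`. -/
theorem isFractionRing_integralClosure [Algebra.IsAlgebraic K F] :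
    IsFractionRing (integralClosure P F) F := by
  have : Algebra.IsAlgebraic P F :=
    IsFractionRing.comap_isAlgebraic_iff.mpr (inferInstance : Algebra.IsAlgebraic K F)
  exact integralClosure.isFractionRing_of_algebraic (fun x hx =>
    algebraMap_PF_injective (K := K) (F := F) (by rw [hx, map_zero]))

/-- **C2-M for the chart `B = integralClosure P F`** under the `GlueGauss` hypotheses. -/
theorem exists_start_integralClosure [IsIntegrallyClosed P] [WfDvdMonoid P]
    [Algebra.IsAlgebraic K F] [IsNoetherianRing (integralClosure P F)]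
    {l : P} (hl : Prime l) {O : ValuationSubring F} (hO : Over l O)
    (huniq : ∀ O' : ValuationSubring F,
      O'.comap (algebraMap K F) = O.comap (algebraMap K F) → O' = O)
    (hgen : ∀ x : F, O.valuation x < 1 → ∃ y ∈ O, x = algebraMap P F l * y)
    {m : ℕ} (hm : 0 < m) {f : F} (hf : O.valuation (f - 1) < 1)
    (hN : ∀ (n : Ideal (integralClosure P F)) [n.IsMaximal],
      algebraMap P (integralClosure P F) l ∈ n →
      (¬ ∃ s : integralClosure P F, s ∉ n ∧
        f * algebraMap (integralClosure P F) F s ∈ (algebraMap (integralClosure P F) F).range) →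
      IsPrincipalIdealRing (Localization.AtPrime n ⧸ Ideal.span
        {algebraMap (integralClosure P F) (Localization.AtPrime n)
          (algebraMap P (integralClosure P F) l)}))
    (hdiv : ∀ W : ValuationSubring F,
      (∀ b : integralClosure P F, algebraMap (integralClosure P F) F b ∈ W) →
      (algebraMap (integralClosure P F) F (algebraMap P (integralClosure P F) l))⁻¹ ∈ W → W ≠ ⊤ →
      IsPrincipalIdealRing W → ∃ u : F, W.valuation (f * u ^ m) = 1) :
    ∃ y : F, IsIntegral P (f * y ^ m) ∧ O.valuation (y - 1) < 1 := by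
  have hfr : IsFractionRing (integralClosure P F) F := isFractionRing_integralClosure (K := K)
  have hl0 : algebraMap P (integralClosure P F) l ≠ 0 := fun h => by
    have h1 : algebraMap P F l = 0 := by
      rw [IsScalarTower.algebraMap_apply P (integralClosure P F) F, h, map_zero]
    exact algebraMap_PF_ne_zero (K := K) hl.ne_zero h1
  obtain ⟨y, ⟨b, hb⟩, hy⟩ := exists_start_of_chart hm
    (chart_integralClosure (K := K) hl hO huniq hgen hm) hl0 hf hN hdiv
  exact ⟨y, hb ▸ b.2, hy⟩

end Fermat.Agent.S18.Core.StartChart
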